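import Mathlib.RingTheory.Invariant.Profinite
import Mathlib.RingTheory.Valuation.LocalSubring
import Mathlib.FieldTheory.KrullTopology
import Mathlib.FieldTheory.Galois.Profinite
import Mathlib.FieldTheory.Galois.Infinite
import Mathlib.FieldTheory.Perfect
import Mathlib.RingTheory.DedekindDomain.Dvr
import Mathlib.NumberTheory.NumberField.Basic
import Mathlib.RingTheory.Ideal.Int
import Fermat.Prelude.Def_EllipticCurve_FrobeniusTrace

/-!
# Existence (and conjugacy) of places of `AlgebraicClosure ℚ` above a prime and of Frobenius elements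

Main results (namespace `Fermat.Agent.Frob`):

* `exists_liesOverPrime` : for a prime `ℓ` there is a valuation subring `A` of `ℚ̄` above `ℓ`.
* `exists_isFrobeniusAt` : for every `A` above `ℓ` there is a Frobenius element at `A`.
* `exists_frobenius` : both combined.
* `exists_smul_eq` : any two valuation subrings above `ℓ` are conjugate under the Galois group.
-/

set_option autoImplicit false

namespace Fermat.Agent.Frob

open scoped Pointwise

instance isAlgebraicQbar : Algebra.IsAlgebraic ℚ (AlgebraicClosure ℚ) :=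
  AlgebraicClosure.isAlgebraic ℚ

instance isIntegralQbar : Algebra.IsIntegral ℚ (AlgebraicClosure ℚ) :=
  Algebra.IsAlgebraic.isIntegral

instance isAlgClosureQbar : IsAlgClosure ℚ (AlgebraicClosure ℚ) :=
  ⟨AlgebraicClosure.isAlgClosed ℚ, isAlgebraicQbar⟩

instance isGaloisQbar : IsGalois ℚ (AlgebraicClosure ℚ) := IsAlgClosure.isGalois ℚ _

lemma charP_of_prime_natCast_eq_zero {R : Type*} [CommRing R] [Nontrivial R] {p : ℕ}
    (hp : p.Prime) (h : (p : R) = 0) : CharP R p :=
  (CharP.ringChar_of_prime_eq_zero hp h) ▸ ringChar.charP R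

/-- the algebraic integers -/
noncomputable abbrev Zbar : Subalgebra ℤ (AlgebraicClosure ℚ) := integralClosure ℤ (AlgebraicClosure ℚ)

/-- the absolute Galois group -/
abbrev GQ := AlgebraicClosure ℚ ≃ₐ[ℚ] AlgebraicClosure ℚ

lemma mem_of_mem_Zbar (A : ValuationSubring (AlgebraicClosure ℚ)) (x : Zbar) :
    (x : AlgebraicClosure ℚ) ∈ A := by
  have hx : IsIntegral ℤ (x : AlgebraicClosure ℚ) := x.2
  have h2 : IsIntegral A (x : AlgebraicClosure ℚ) := by
    exact hx.tower_top
  obtain ⟨y, hy⟩ := IsIntegrallyClosed.algebraMap_eq_of_integral h2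
  rw [← hy]
  exact y.2

/-- the inclusion of the algebraic integers in a valuation subring. -/
noncomputable def toVal (A : ValuationSubring (AlgebraicClosure ℚ)) : Zbar →+* A where
  toFun x := ⟨x, mem_of_mem_Zbar A x⟩
  map_one' := rfl
  map_mul' _ _ := rfl
  map_zero' := rfl
  map_add' _ _ := rfl

@[simp] lemma coe_toVal (A : ValuationSubring (AlgebraicClosure ℚ)) (x : Zbar) :
    (toVal A x : AlgebraicClosure ℚ) = x := rfl

/-- the centre of a valuation subring on the algebraic integers -/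
noncomputable def centre (A : ValuationSubring (AlgebraicClosure ℚ)) : Ideal Zbar :=
  (IsLocalRing.maximalIdeal A).comap (toVal A)

instance (A : ValuationSubring (AlgebraicClosure ℚ)) : (centre A).IsPrime :=
  Ideal.comap_isPrime _ _

lemma mem_centre_iff (A : ValuationSubring (AlgebraicClosure ℚ)) (x : Zbar) :
    x ∈ centre A ↔ (x : AlgebraicClosure ℚ) ∈ A.nonunits := by
  rw [centre, Ideal.mem_comap, ValuationSubring.mem_nonunits_iff_exists_mem_maximalIdeal]
  constructor
  · intro h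
    exact ⟨mem_of_mem_Zbar A x, h⟩
  · rintro ⟨h1, h2⟩
    exact h2

lemma exists_liesOverPrime (ℓ : ℕ) (hℓ : ℓ.Prime) :
    ∃ A : ValuationSubring (AlgebraicClosure ℚ), A.LiesOverPrime ℓ := by
  obtain ⟨B, hB, hB2⟩ := Ideal.image_subset_nonunits_valuationSubring
    (A := Zbar.toSubring) (Ideal.span {((ℓ : ℕ) : Zbar.toSubring)}) (by
      rw [Ne, Ideal.span_singleton_eq_top]
      intro hu
      obtain ⟨u, hu⟩ := hu.exists_right_inv
      have h1 : (ℓ : AlgebraicClosure ℚ) * (u : AlgebraicClosure ℚ) = 1 := by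
        have := congrArg (fun x : Zbar.toSubring => (x : AlgebraicClosure ℚ)) hu
        simpa using this
      have hℓ0 : (ℓ : AlgebraicClosure ℚ) ≠ 0 := by exact_mod_cast hℓ.ne_zero
      have h2 : (u : AlgebraicClosure ℚ) = algebraMap ℚ (AlgebraicClosure ℚ) (1 / ℓ : ℚ) := by
        rw [map_div₀, map_one, map_natCast]
        field_simp
        linear_combination h1
      have h3 : IsIntegral ℤ (1 / ℓ : ℚ) := by
        have : IsIntegral ℤ (u : AlgebraicClosure ℚ) := u.2
        rw [h2] at this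
        exact (isIntegral_algebraMap_iff (FaithfulSMul.algebraMap_injective ℚ _)).mp this
      obtain ⟨n, hn⟩ := IsIntegrallyClosed.algebraMap_eq_of_integral h3
      have hℓ0' : (ℓ : ℚ) ≠ 0 := by exact_mod_cast hℓ.ne_zero
      have h4 : (n * ℓ : ℤ) = 1 := by
        have : ((n * ℓ : ℤ) : ℚ) = 1 := by
          have hn' : (n : ℚ) = 1 / ℓ := by simpa using hn
          push_cast
          rw [hn']
          field_simp
        exact_mod_cast this
      have h5 : (ℓ : ℤ) ∣ 1 := Dvd.intro_left n h4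
      have h6 : ℓ ∣ 1 := by exact_mod_cast h5
      exact hℓ.one_lt.ne' (Nat.dvd_one.mp h6))
  refine ⟨B, hB2 ⟨(ℓ : Zbar.toSubring), Ideal.mem_span_singleton_self _, by simp⟩⟩

lemma natCast_mem_centre {A : ValuationSubring (AlgebraicClosure ℚ)} {ℓ : ℕ}
    (hA : A.LiesOverPrime ℓ) : (ℓ : Zbar) ∈ centre A := by
  rw [mem_centre_iff]
  simpa [ValuationSubring.LiesOverPrime] using hA

lemma under_centre {A : ValuationSubring (AlgebraicClosure ℚ)} {ℓ : ℕ} (hℓ : ℓ.Prime)
    (hA : A.LiesOverPrime ℓ) : (centre A).under ℤ = Ideal.span {(ℓ : ℤ)} := by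
  symm
  have : Fact ℓ.Prime := ⟨hℓ⟩
  have hmax : (Ideal.span {(ℓ : ℤ)}).IsMaximal :=
    Int.ideal_span_isMaximal_of_prime ℓ
  refine hmax.eq_of_le (Ideal.IsPrime.ne_top inferInstance) ?_
  rw [Ideal.span_singleton_le_iff_mem, Ideal.mem_comap]
  simpa using natCast_mem_centre hA

instance isInvariant : Algebra.IsInvariant ℤ Zbar GQ := by
  constructor
  intro b hb
  have h1 : (b : AlgebraicClosure ℚ) ∈ (⊥ : IntermediateField ℚ (AlgebraicClosure ℚ)) := by
    rw [InfiniteGalois.mem_bot_iff_fixed]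
    intro g
    exact congrArg (fun x : Zbar => (x : AlgebraicClosure ℚ)) (hb g)
  obtain ⟨q, hq⟩ := IntermediateField.mem_bot.mp h1
  have h3 : IsIntegral ℤ q := by
    have : IsIntegral ℤ (b : AlgebraicClosure ℚ) := b.2
    rw [← hq] at this
    exact (isIntegral_algebraMap_iff (FaithfulSMul.algebraMap_injective ℚ _)).mp this
  obtain ⟨n, hn⟩ := IsIntegrallyClosed.algebraMap_eq_of_integral h3
  refine ⟨n, Subtype.ext ?_⟩
  rw [← hq, ← hn]
  simp

lemma isUnit_of_notMem_centre {A : ValuationSubring (AlgebraicClosure ℚ)} {s : Zbar}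
    (hs : s ∉ centre A) : (s : AlgebraicClosure ℚ)⁻¹ ∈ A ∧ (s : AlgebraicClosure ℚ) ≠ 0 := by
  have h1 : IsUnit (toVal A s) := by
    by_contra h
    exact hs h
  obtain ⟨t, ht⟩ := h1.exists_right_inv
  have ht' : (s : AlgebraicClosure ℚ) * (t : AlgebraicClosure ℚ) = 1 :=
    congrArg (fun x : A => (x : AlgebraicClosure ℚ)) ht
  refine ⟨?_, left_ne_zero_of_mul_eq_one ht'⟩
  rw [← eq_inv_of_mul_eq_one_right ht']
  exact t.2

/-- Every element of a valuation subring above `ℓ` is a fraction of algebraic integers with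
denominator outside the centre. -/
lemma exists_fraction {A : ValuationSubring (AlgebraicClosure ℚ)} {ℓ : ℕ} (hℓ : ℓ.Prime)
    (hA : A.LiesOverPrime ℓ) {x : AlgebraicClosure ℚ} (hx : x ∈ A) :
    ∃ b s : Zbar, s ∉ centre A ∧ x * s = b := by
  let F : IntermediateField ℚ (AlgebraicClosure ℚ) := IntermediateField.adjoin ℚ {x}
  have hxint : IsIntegral ℚ x := Algebra.IsIntegral.isIntegral x
  have : FiniteDimensional ℚ F := IntermediateField.adjoin.finiteDimensional hxint
  have : NumberField F := ⟨⟩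
  let y : F := ⟨x, IntermediateField.mem_adjoin_simple_self ℚ x⟩
  let i : NumberField.RingOfIntegers F →+* Zbar :=
    { toFun := fun z => ⟨((z : F) : AlgebraicClosure ℚ), z.2.map F.val.toIntAlgHom⟩
      map_one' := rfl
      map_mul' := fun _ _ => rfl
      map_zero' := rfl
      map_add' := fun _ _ => rfl }
  let P : Ideal (NumberField.RingOfIntegers F) := (centre A).comap i
  have hP : P.IsPrime := Ideal.comap_isPrime _ _
  have hPℓ : (ℓ : NumberField.RingOfIntegers F) ∈ P := by
    change i (ℓ : NumberField.RingOfIntegers F) ∈ centre A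
    rw [map_natCast]
    exact natCast_mem_centre hA
  have hP0 : P ≠ ⊥ := by
    intro h
    rw [h, Ideal.mem_bot] at hPℓ
    exact hℓ.ne_zero (by exact_mod_cast hPℓ)
  have : IsDiscreteValuationRing (Localization.AtPrime P) :=
    IsLocalization.AtPrime.isDiscreteValuationRing_of_dedekind_domain _ hP0 _
  let : Algebra (Localization.AtPrime P) F :=
    (IsLocalization.lift (M := P.primeCompl) (g := algebraMap (NumberField.RingOfIntegers F) F)
      (fun z => (by
        have hz0 : (z : NumberField.RingOfIntegers F) ≠ 0 := by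
          rintro h
          exact z.2 (h ▸ P.zero_mem)
        exact isUnit_iff_ne_zero.mpr (by
          intro h
          exact hz0 (FaithfulSMul.algebraMap_injective (NumberField.RingOfIntegers F) F
            (by rw [h, map_zero])))))).toAlgebra
  have : IsScalarTower (NumberField.RingOfIntegers F) (Localization.AtPrime P) F :=
    IsScalarTower.of_algebraMap_eq (fun z => by
      rw [RingHom.algebraMap_toAlgebra, IsLocalization.lift_eq])
  have : IsFractionRing (Localization.AtPrime P) F :=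
    IsFractionRing.isFractionRing_of_isDomain_of_isLocalization P.primeCompl _ _
  have key : ∀ w : Localization.AtPrime P, ∃ b s : NumberField.RingOfIntegers F, s ∉ P ∧
      algebraMap (Localization.AtPrime P) F w * (s : F) = (b : F) := by
    intro w
    obtain ⟨b, s, rfl⟩ := IsLocalization.exists_mk'_eq P.primeCompl w
    refine ⟨b, s, s.2, ?_⟩
    have h1 := IsLocalization.mk'_spec (Localization.AtPrime P) b s
    have h2 := congrArg (algebraMap (Localization.AtPrime P) F) h1
    rw [map_mul, ← IsScalarTower.algebraMap_apply, ← IsScalarTower.algebraMap_apply] at h2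
    exact h2
  rcases ValuationRing.isInteger_or_isInteger (Localization.AtPrime P) y with ⟨w, hw⟩ | ⟨w, hw⟩
  · obtain ⟨b, s, hs, h⟩ := key w
    refine ⟨i b, i s, hs, ?_⟩
    rw [hw] at h
    exact congrArg (fun z : F => (z : AlgebraicClosure ℚ)) h
  · obtain ⟨b, s, hs, h⟩ := key w
    rw [hw] at h
    by_cases hx0 : x = 0
    · refine ⟨0, 1, ?_, by simp [hx0]⟩
      exact (Ideal.ne_top_iff_one _).mp (Ideal.IsPrime.ne_top inferInstance)
    have h' : x⁻¹ * (i s : AlgebraicClosure ℚ) = (i b : AlgebraicClosure ℚ) :=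
      congrArg (fun z : F => (z : AlgebraicClosure ℚ)) h
    have h'' : x * (i b : AlgebraicClosure ℚ) = (i s : AlgebraicClosure ℚ) := by
      rw [← h', ← mul_assoc, mul_inv_cancel₀ hx0, one_mul]
    refine ⟨i s, i b, ?_, h''⟩
    intro hb
    apply hs
    change i s ∈ centre A
    change toVal A (i s) ∈ IsLocalRing.maximalIdeal A
    have : toVal A (i s) = ⟨x, hx⟩ * toVal A (i b) := Subtype.ext h''.symm
    rw [this]
    exact Ideal.mul_mem_left _ _ hb

/-- If `g` fixes the centre of `A`, it fixes `A`. -/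
lemma smul_le_of_smul_centre_le {A : ValuationSubring (AlgebraicClosure ℚ)} {ℓ : ℕ}
    (hℓ : ℓ.Prime) (hA : A.LiesOverPrime ℓ) {A' : ValuationSubring (AlgebraicClosure ℚ)} {g : GQ}
    (hg : ∀ s : Zbar, s ∉ centre A → g • s ∉ centre A') {x : AlgebraicClosure ℚ} (hx : x ∈ A) :
    g x ∈ A' := by
  obtain ⟨b, s, hs, h⟩ := exists_fraction hℓ hA hx
  obtain ⟨h1, h2⟩ := isUnit_of_notMem_centre (hg s hs)
  have h3 : g x * g (s : AlgebraicClosure ℚ) = g (b : AlgebraicClosure ℚ) := by
    rw [← map_mul, h]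
  have h4 : ((g • s : Zbar) : AlgebraicClosure ℚ) = g (s : AlgebraicClosure ℚ) := rfl
  have h5 : ((g • b : Zbar) : AlgebraicClosure ℚ) = g (b : AlgebraicClosure ℚ) := rfl
  rw [← h4, ← h5] at h3
  have h6 : g x = ((g • b : Zbar) : AlgebraicClosure ℚ) *
      ((g • s : Zbar) : AlgebraicClosure ℚ)⁻¹ := by
    rw [← h3, mul_assoc, mul_inv_cancel₀ h2, mul_one]
  rw [h6]
  exact A'.mul_mem _ _ (mem_of_mem_Zbar A' _) h1

lemma smul_eq_of_smul_centre_eq {A : ValuationSubring (AlgebraicClosure ℚ)} {ℓ : ℕ}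
    (hℓ : ℓ.Prime) (hA : A.LiesOverPrime ℓ) {A' : ValuationSubring (AlgebraicClosure ℚ)}
    (hA' : A'.LiesOverPrime ℓ) {g : GQ} (hg : centre A' = g • centre A) : g • A = A' := by
  apply le_antisymm
  · rintro y hy
    obtain ⟨x, hx, rfl⟩ := ValuationSubring.mem_smul_pointwise_iff_exists g y A |>.mp hy
    refine smul_le_of_smul_centre_le hℓ hA ?_ hx
    intro s hs
    rwa [hg, Ideal.smul_mem_pointwise_smul_iff]
  · intro y hy
    rw [ValuationSubring.mem_smul_pointwise_iff_exists]
    refine ⟨g⁻¹ • y, ?_, smul_inv_smul g y⟩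
    refine smul_le_of_smul_centre_le hℓ hA' ?_ hy
    intro s hs h
    apply hs
    rw [hg]
    rwa [Ideal.mem_pointwise_smul_iff_inv_smul_mem]

/-- discrete topology on the algebraic integers (local use only) -/
local instance topZbar : TopologicalSpace Zbar := ⊥
local instance discZbar : DiscreteTopology Zbar := ⟨rfl⟩

local instance contSMulZbar : ContinuousSMul GQ Zbar := by
  rw [continuousSMul_iff_stabilizer_isOpen]
  intro x
  have h := stabilizer_isOpen_of_isIntegral (K := ℚ) (L := AlgebraicClosure ℚ)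
    (x : AlgebraicClosure ℚ)
  convert h using 1
  ext g
  constructor
  · intro hg
    exact congrArg (fun x : Zbar => (x : AlgebraicClosure ℚ)) hg
  · intro hg
    exact Subtype.ext hg

/-- Any two valuation subrings of `ℚ̄` above the same prime are Galois conjugate. -/
theorem exists_smul_eq {A A' : ValuationSubring (AlgebraicClosure ℚ)} {ℓ : ℕ}
    (hℓ : ℓ.Prime) (hA : A.LiesOverPrime ℓ) (hA' : A'.LiesOverPrime ℓ) :
    ∃ g : AlgebraicClosure ℚ ≃ₐ[ℚ] AlgebraicClosure ℚ, g • A = A' := by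
  obtain ⟨g, hg⟩ := Algebra.IsInvariant.exists_smul_of_under_eq_of_profinite (A := ℤ) (B := Zbar)
    (G := GQ) (centre A) (centre A') (by rw [under_centre hℓ hA, under_centre hℓ hA'])
  exact ⟨g, smul_eq_of_smul_centre_eq hℓ hA hA' hg⟩

/-- Existence of `g` in the Galois group inducing the Frobenius on `Zbar ⧸ centre A`. -/
theorem exists_frob_centre {A : ValuationSubring (AlgebraicClosure ℚ)} {ℓ : ℕ}
    (hℓ : ℓ.Prime) (hA : A.LiesOverPrime ℓ) :
    ∃ g : GQ, g • centre A = centre A ∧ ∀ x : Zbar, g • x - x ^ ℓ ∈ centre A := by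
  have : Fact ℓ.Prime := ⟨hℓ⟩
  have hmax : (Ideal.span {(ℓ : ℤ)}).IsMaximal := Int.ideal_span_isMaximal_of_prime ℓ
  have hover : (centre A).LiesOver (Ideal.span {(ℓ : ℤ)}) := ⟨(under_centre hℓ hA).symm⟩
  have hchar : CharP (Zbar ⧸ centre A) ℓ := by
    have h0 : ((ℓ : ℕ) : Zbar ⧸ centre A) = 0 := by
      have := Ideal.Quotient.eq_zero_iff_mem.mpr (natCast_mem_centre hA)
      simpa using this
    exact charP_of_prime_natCast_eq_zero hℓ h0
  have hmaxQ : (centre A).IsMaximal := by
    refine Ideal.isMaximal_of_isIntegral_of_isMaximal_comap (R := ℤ) _ ?_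
    have := under_centre hℓ hA
    rw [Ideal.under] at this
    rw [this]
    exact hmax
  have hint : Algebra.IsIntegral (ℤ ⧸ Ideal.span {(ℓ : ℤ)}) (Zbar ⧸ centre A) := inferInstance
  let fK : Field (ℤ ⧸ Ideal.span {(ℓ : ℤ)}) := Ideal.Quotient.field _
  let fL : Field (Zbar ⧸ centre A) := Ideal.Quotient.field _
  have hfin : Finite (ℤ ⧸ Ideal.span {(ℓ : ℤ)}) :=
    Finite.of_equiv _ (Int.quotientSpanNatEquivZMod ℓ).symm.toEquiv
  have halg : Algebra.IsAlgebraic (ℤ ⧸ Ideal.span {(ℓ : ℤ)}) (Zbar ⧸ centre A) :=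
    Algebra.IsIntegral.isAlgebraic
  have hperf : PerfectField (Zbar ⧸ centre A) :=
    Algebra.IsAlgebraic.perfectField (K := ℤ ⧸ Ideal.span {(ℓ : ℤ)})
  have hperf' : PerfectRing (Zbar ⧸ centre A) ℓ := PerfectField.toPerfectRing ℓ
  let l : (Zbar ⧸ centre A) ≃ₐ[ℤ ⧸ Ideal.span {(ℓ : ℤ)}] (Zbar ⧸ centre A) :=
    AlgEquiv.ofRingEquiv (f := frobeniusEquiv (Zbar ⧸ centre A) ℓ) (by
      intro r
      obtain ⟨n, rfl⟩ := Ideal.Quotient.mk_surjective r
      have : algebraMap (ℤ ⧸ Ideal.span {(ℓ : ℤ)}) (Zbar ⧸ centre A)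
          (Ideal.Quotient.mk _ n) = (n : Zbar ⧸ centre A) := by
        rw [Ideal.Quotient.algebraMap_mk_of_liesOver]
        simp
      rw [this, map_intCast])
  obtain ⟨⟨g, hg1⟩, hg2⟩ := Ideal.Quotient.stabilizerHom_surjective_of_profinite (G := GQ)
    (Ideal.span {(ℓ : ℤ)}) (centre A) l
  refine ⟨g, hg1, fun x => ?_⟩
  rw [← Ideal.Quotient.eq_zero_iff_mem, map_sub, sub_eq_zero, map_pow]
  have := congrArg (fun f => f (Ideal.Quotient.mk (centre A) x)) hg2
  simpa [l, frobenius_def] using this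

/-- Existence of a Frobenius element at any valuation subring of `ℚ̄` above `ℓ`. -/
theorem exists_isFrobeniusAt {A : ValuationSubring (AlgebraicClosure ℚ)} {ℓ : ℕ}
    (hℓ : ℓ.Prime) (hA : A.LiesOverPrime ℓ) :
    ∃ σ : AlgebraicClosure ℚ ≃ₐ[ℚ] AlgebraicClosure ℚ, A.IsFrobeniusAt σ ℓ := by
  obtain ⟨g, hg1, hg2⟩ := exists_frob_centre hℓ hA
  have hgA : g ∈ A.decompositionSubgroup ℚ :=
    smul_eq_of_smul_centre_eq hℓ hA hA hg1.symm
  refine ⟨g, hgA, ?_⟩
  have key : ∀ b : Zbar, (⟨g, hgA⟩ : A.decompositionSubgroup ℚ) •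
      IsLocalRing.residue A (toVal A b) = IsLocalRing.residue A (toVal A b) ^ ℓ := by
    intro b
    rw [← IsLocalRing.ResidueField.residue_smul, ← map_pow, ← sub_eq_zero, ← map_sub,
      IsLocalRing.residue_eq_zero_iff]
    exact hg2 b
  intro x
  obtain ⟨⟨a, ha⟩, rfl⟩ := IsLocalRing.residue_surjective x
  obtain ⟨b, s, hs, h⟩ := exists_fraction hℓ hA ha
  have h1 : (⟨a, ha⟩ : A) * toVal A s = toVal A b := Subtype.ext h
  have hs0 : IsLocalRing.residue A (toVal A s) ≠ 0 := by
    rw [Ne, IsLocalRing.residue_eq_zero_iff]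
    exact hs
  have h2 := congrArg (IsLocalRing.residue A) h1
  rw [map_mul] at h2
  have h3 := congrArg (fun y => (⟨g, hgA⟩ : A.decompositionSubgroup ℚ) • y) h2
  simp only [smul_mul'] at h3
  rw [key, key, ← h2, mul_pow] at h3
  exact mul_right_cancel₀ (pow_ne_zero _ hs0) h3

/-- Existence of a place above `ℓ` and a Frobenius element at it. -/
theorem exists_frobenius (ℓ : ℕ) (hℓ : ℓ.Prime) :
    ∃ A : ValuationSubring (AlgebraicClosure ℚ), A.LiesOverPrime ℓ ∧
      ∃ σ : AlgebraicClosure ℚ ≃ₐ[ℚ] AlgebraicClosure ℚ, A.IsFrobeniusAt σ ℓ := by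
  obtain ⟨A, hA⟩ := exists_liesOverPrime ℓ hℓ
  exact ⟨A, hA, exists_isFrobeniusAt hℓ hA⟩

end Fermat.Agent.Frob
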