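import Mathlib.NumberTheory.ArithmeticFunction.Moebius
import Mathlib.GroupTheory.GroupAction.Quotient
import Mathlib.GroupTheory.OrderOfElement
import Mathlib.GroupTheory.Coset.Card
import Mathlib.Analysis.SpecialFunctions.Log.Basic
import Mathlib.Analysis.SpecialFunctions.Pow.Real
import Mathlib.Topology.Algebra.InfiniteSum.Real
import Mathlib.Data.Nat.Totient
import Mathlib.Tactic

/-!
# Combinatorial part of the Frobenius density theorem
-/

set_option autoImplicit false

namespace Fermat.Agent.FrobDensityComb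

open ArithmeticFunction

section Group

variable {G : Type*} [Group G]

/-- `|H| * #Fix(g, G ⧸ H) = #{x : x⁻¹ g x ∈ H}`. -/
lemma card_conj_mem (H : Subgroup G) (g : G) :
    Nat.card {x : G // x⁻¹ * g * x ∈ H} =
      Nat.card H * Nat.card (MulAction.fixedBy (G ⧸ H) g) := by
  rw [← Nat.card_prod]
  refine Nat.card_congr ?_
  refine Equiv.trans (Equiv.subtypeEquivRight ?_)
    (QuotientGroup.preimageMkEquivSubgroupProdSet H (MulAction.fixedBy (G ⧸ H) g))
  intro x
  rw [Set.mem_preimage, MulAction.mem_fixedBy, MulAction.Quotient.smul_mk]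
  rw [eq_comm, QuotientGroup.eq, smul_eq_mul, mul_assoc]

lemma sum_moebius_divisors (m : ℕ) :
    ∑ d ∈ m.divisors, (moebius d : ℤ) = if m = 1 then 1 else 0 := by
  have h := congrArg (fun f : ArithmeticFunction ℤ => f m) coe_zeta_mul_moebius
  simp only [coe_zeta_mul_apply, one_apply] at h
  exact h

lemma pow_mem_zpowers_iff {σ : G} {n d j : ℕ} (hn : orderOf σ = n) (hd : d ∣ n) :
    σ ^ j ∈ Subgroup.zpowers (σ ^ d) ↔ d ∣ j := by
  constructor
  · rintro ⟨k, hk⟩
    have hk' : σ ^ ((d : ℤ) * k) = σ ^ (j : ℤ) := by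
      rw [zpow_mul, zpow_natCast, zpow_natCast]
      exact hk
    rw [zpow_eq_zpow_iff_modEq, hn] at hk'
    have h1 : ((d : ℤ) * k) ≡ j [ZMOD d] := hk'.of_dvd (by exact_mod_cast hd)
    have h2 : (d : ℤ) ∣ j := by
      have h3 : (0 : ℤ) ≡ (d : ℤ) * k [ZMOD d] := by
        rw [Int.modEq_iff_dvd]
        simp
      exact (Int.modEq_zero_iff_dvd.mp (h3.trans h1).symm)
    exact_mod_cast h2
  · rintro ⟨k, rfl⟩
    rw [pow_mul]
    exact Subgroup.pow_mem _ (Subgroup.mem_zpowers _) k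

lemma card_zpowers_pow {σ : G} {n d : ℕ} (hn : orderOf σ = n) (hn0 : n ≠ 0) (hd : d ∣ n) :
    Nat.card (Subgroup.zpowers (σ ^ d)) = n / d := by
  rw [Nat.card_zpowers, orderOf_pow_of_dvd (by rintro rfl; simp at hd; exact hn0 hd) (hn ▸ hd), hn]

open Classical in
lemma sum_moebius_ite {σ : G} {n : ℕ} (hn : orderOf σ = n) (hn0 : n ≠ 0) (y : G) :
    ∑ d ∈ n.divisors, (moebius d : ℤ) * (if y ∈ Subgroup.zpowers (σ ^ d) then 1 else 0) =
      if (∃ j : ℕ, j.Coprime n ∧ y = σ ^ j) then 1 else 0 := by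
  by_cases hy : y ∈ Subgroup.zpowers σ
  · have hfin : IsOfFinOrder σ := by
      rw [← orderOf_pos_iff, hn]
      exact Nat.pos_of_ne_zero hn0
    rw [hfin.mem_zpowers_iff_mem_range_orderOf, Finset.mem_image] at hy
    obtain ⟨j, -, rfl⟩ := hy
    have h1 : ∑ d ∈ n.divisors, (moebius d : ℤ) *
        (if σ ^ j ∈ Subgroup.zpowers (σ ^ d) then 1 else 0) =
        ∑ d ∈ n.divisors, if d ∣ j then (moebius d : ℤ) else 0 := by
      refine Finset.sum_congr rfl fun d hd => ?_
      have h0 := pow_mem_zpowers_iff (σ := σ) (j := j) hn (Nat.dvd_of_mem_divisors hd)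
      by_cases h : d ∣ j
      · rw [if_pos h, if_pos (h0.mpr h), mul_one]
      · rw [if_neg h, if_neg (fun h' => h (h0.mp h')), mul_zero]
    rw [h1, ← Finset.sum_filter]
    have h2 : n.divisors.filter (fun d => d ∣ j) = (n.gcd j).divisors := by
      ext d
      simp only [Finset.mem_filter, Nat.mem_divisors]
      constructor
      · rintro ⟨⟨h1, _⟩, h3⟩
        exact ⟨Nat.dvd_gcd h1 h3, Nat.gcd_ne_zero_left hn0⟩
      · rintro ⟨h1, _⟩
        exact ⟨⟨h1.trans (Nat.gcd_dvd_left _ _), hn0⟩, h1.trans (Nat.gcd_dvd_right _ _)⟩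
    rw [h2, sum_moebius_divisors]
    refine if_congr ?_ rfl rfl
    constructor
    · intro h
      exact ⟨j, Nat.coprime_iff_gcd_eq_one.mpr (by rw [Nat.gcd_comm]; exact h), rfl⟩
    · rintro ⟨j', hj', hjj⟩
      rw [pow_eq_pow_iff_modEq, hn] at hjj
      have := hjj.gcd_eq
      rw [Nat.gcd_comm, this]
      exact hj'
  · rw [if_neg, Finset.sum_eq_zero]
    · intro d hd
      rw [if_neg, mul_zero]
      intro h
      exact hy (Subgroup.zpowers_le.mpr (Subgroup.pow_mem _ (Subgroup.mem_zpowers σ) d) h)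
    · rintro ⟨j, -, rfl⟩
      exact hy (Subgroup.pow_mem _ (Subgroup.mem_zpowers σ) j)

/-- The main counting identity. -/
theorem sum_moebius_fixedBy [Finite G] (σ g : G) {n : ℕ} (hn : orderOf σ = n) :
    ∑ d ∈ n.divisors, (moebius d : ℤ) * ((n / d : ℕ) : ℤ) *
        (Nat.card (MulAction.fixedBy (G ⧸ Subgroup.zpowers (σ ^ d)) g) : ℤ) =
      (Nat.card {x : G // ∃ j : ℕ, j.Coprime n ∧ x⁻¹ * g * x = σ ^ j} : ℤ) := by
  classical
  have hn0 : n ≠ 0 := by
    rw [← hn]
    exact (orderOf_pos σ).ne'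
  have : Fintype G := Fintype.ofFinite G
  have h1 : ∀ d ∈ n.divisors, (moebius d : ℤ) * ((n / d : ℕ) : ℤ) *
        (Nat.card (MulAction.fixedBy (G ⧸ Subgroup.zpowers (σ ^ d)) g) : ℤ) =
      ∑ x : G, (moebius d : ℤ) *
        (if x⁻¹ * g * x ∈ Subgroup.zpowers (σ ^ d) then 1 else 0) := by
    intro d hd
    rw [← card_zpowers_pow hn hn0 (Nat.dvd_of_mem_divisors hd), mul_assoc, ← Nat.cast_mul,
      ← card_conj_mem, ← Finset.mul_sum, Finset.sum_boole, Nat.card_eq_fintype_card,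
      Fintype.card_subtype]
  rw [Finset.sum_congr rfl h1, Finset.sum_comm]
  simp_rw [sum_moebius_ite hn hn0]
  rw [Finset.sum_boole, Nat.card_eq_fintype_card, Fintype.card_subtype]

end Group

/-- `∑_{d ∣ n} μ(d) (n/d) = φ(n)`. -/
theorem sum_moebius_div (n : ℕ) (hn : n ≠ 0) :
    ∑ d ∈ n.divisors, (moebius d : ℤ) * ((n / d : ℕ) : ℤ) = (n.totient : ℤ) := by
  have h := (sum_eq_iff_sum_mul_moebius_eq (R := ℤ) (f := fun n => (n.totient : ℤ))
    (g := fun n => (n : ℤ))).mp (by
      intro m _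
      exact_mod_cast Nat.sum_totient m) n (Nat.pos_of_ne_zero hn)
  rw [← h]
  exact (Nat.sum_divisorsAntidiagonal (f := fun a b => ((moebius a : ℤ) : ℤ) * (b : ℤ))).symm

section Analytic

open Filter Topology

/-- Linear combinations of prime Dirichlet series with a logarithmic singularity:
if the total weight is non zero, infinitely many primes contribute. -/
theorem infinite_primes_of_sum_ne_zero {ι : Type*} [Fintype ι] (a : ι → ℕ → ℝ) (w : ι → ℝ)
    (hw : ∑ i, w i ≠ 0)
    (hsum : ∀ i, ∀ s : ℝ, 1 < s → Summable (fun p : Nat.Primes => a i p * (p : ℝ) ^ (-s)))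
    (hbound : ∀ i, ∃ B : ℝ, ∀ᶠ s : ℝ in 𝓝[>] (1 : ℝ),
      |∑' p : Nat.Primes, a i p * (p : ℝ) ^ (-s) - Real.log (1 / (s - 1))| ≤ B) :
    {p : ℕ | p.Prime ∧ ∑ i, w i * a i p ≠ 0}.Infinite := by
  classical
  intro hfin
  -- the corresponding finite set of primes
  have hfin' : {p : Nat.Primes | ∑ i, w i * a i p ≠ 0}.Finite := by
    refine Set.Finite.of_finite_image (f := fun p : Nat.Primes => (p : ℕ)) (hfin.subset ?_)
      (Subtype.val_injective.injOn)
    rintro _ ⟨p, hp, rfl⟩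
    exact ⟨p.2, hp⟩
  set T : Finset Nat.Primes := hfin'.toFinset with hT
  choose B hB using hbound
  set M : ℝ := ∑ p ∈ T, |∑ i, w i * a i p| with hM
  set C : ℝ := ∑ i, |w i| * B i with hC
  have hev : ∀ᶠ s : ℝ in 𝓝[>] (1 : ℝ), |∑ i, w i| * Real.log (1 / (s - 1)) ≤ M + C := by
    have h1 : ∀ᶠ s : ℝ in 𝓝[>] (1 : ℝ), 1 < s := eventually_mem_nhdsWithin
    have h2 : ∀ᶠ s : ℝ in 𝓝[>] (1 : ℝ), ∀ i,
        |∑' p : Nat.Primes, a i p * (p : ℝ) ^ (-s) - Real.log (1 / (s - 1))| ≤ B i :=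
      eventually_all.mpr hB
    filter_upwards [h1, h2] with s hs hs2
    have h3 : ∑ i, w i * ∑' p : Nat.Primes, a i p * (p : ℝ) ^ (-s) =
        ∑ p ∈ T, (∑ i, w i * a i p) * (p : ℝ) ^ (-s) := by
      have h4 : ∑ i, w i * ∑' p : Nat.Primes, a i p * (p : ℝ) ^ (-s) =
          ∑' p : Nat.Primes, (∑ i, w i * a i p) * (p : ℝ) ^ (-s) := by
        simp_rw [← tsum_mul_left]
        rw [← Summable.tsum_finsetSum (fun i _ => (hsum i s hs).mul_left (w i))]
        refine tsum_congr fun p => ?_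
        rw [Finset.sum_mul]
        exact Finset.sum_congr rfl fun i _ => (mul_assoc _ _ _).symm
      rw [h4]
      refine tsum_eq_sum fun p hp => ?_
      have : ∑ i, w i * a i p = 0 := by
        by_contra h
        exact hp (hfin'.mem_toFinset.mpr h)
      rw [this, zero_mul]
    have h5 : |∑ p ∈ T, (∑ i, w i * a i p) * (p : ℝ) ^ (-s)| ≤ M := by
      refine (Finset.abs_sum_le_sum_abs _ _).trans (Finset.sum_le_sum fun p _ => ?_)
      rw [abs_mul]
      refine mul_le_of_le_one_right (abs_nonneg _) ?_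
      have hp1 : (1 : ℝ) ≤ (p : ℕ) := by exact_mod_cast p.2.one_lt.le
      rw [abs_of_nonneg (Real.rpow_nonneg (by positivity) _)]
      exact Real.rpow_le_one_of_one_le_of_nonpos hp1 (by linarith)
    have h6 : |∑ i, w i * (∑' p : Nat.Primes, a i p * (p : ℝ) ^ (-s) -
        Real.log (1 / (s - 1)))| ≤ C := by
      refine (Finset.abs_sum_le_sum_abs _ _).trans (Finset.sum_le_sum fun i _ => ?_)
      rw [abs_mul]
      exact mul_le_mul_of_nonneg_left (hs2 i) (abs_nonneg _)
    have h7 : (∑ i, w i) * Real.log (1 / (s - 1)) =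
        (∑ p ∈ T, (∑ i, w i * a i p) * (p : ℝ) ^ (-s)) -
        ∑ i, w i * (∑' p : Nat.Primes, a i p * (p : ℝ) ^ (-s) - Real.log (1 / (s - 1))) := by
      rw [← h3, ← Finset.sum_sub_distrib, Finset.sum_mul]
      exact Finset.sum_congr rfl fun i _ => by ring
    calc |∑ i, w i| * Real.log (1 / (s - 1)) ≤ |(∑ i, w i) * Real.log (1 / (s - 1))| := by
          rw [abs_mul]
          exact mul_le_mul_of_nonneg_left (le_abs_self _) (abs_nonneg _)
      _ ≤ M + C := by
          rw [h7]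
          exact (abs_sub _ _).trans (add_le_add h5 h6)
  have htend : Tendsto (fun s : ℝ => |∑ i, w i| * Real.log (1 / (s - 1))) (𝓝[>] 1) atTop := by
    refine Tendsto.const_mul_atTop (abs_pos.mpr hw) (Real.tendsto_log_atTop.comp ?_)
    simp_rw [one_div]
    refine tendsto_inv_nhdsGT_zero.comp ?_
    rw [tendsto_nhdsWithin_iff]
    constructor
    · have : Tendsto (fun s : ℝ => s - 1) (𝓝 1) (𝓝 (1 - 1)) :=
        (continuous_id.sub continuous_const).tendsto 1
      rw [sub_self] at this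
      exact this.mono_left nhdsWithin_le_nhds
    · filter_upwards [eventually_mem_nhdsWithin] with s hs
      have hs' : (1 : ℝ) < s := hs
      exact sub_pos.mpr hs'
  have hcontra := (htend.eventually_gt_atTop (M + C)).and hev
  obtain ⟨s, hs1, hs2⟩ := hcontra.exists
  linarith

end Analytic

end Fermat.Agent.FrobDensityComb
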