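import Fermat.Agent.Frob.DensityAlgebraic
import Fermat.Agent.Frob.DensityComb

/-!
# Frobenius density theorem (existence form)

Main results:

* `exists_frobenius_pow` : for a finite Galois extension `L / ℚ` inside `ℚ̄`, `σ ∈ Gal(ℚ̄/ℚ)` and a
  finite set `S` of primes, there are a prime `ℓ ∉ S`, a place `A` above `ℓ`, a Frobenius `φ` at `A`
  and `k` coprime to the order of `σ|_L` with `φ = σ ^ k` on `L`.
-/

set_option autoImplicit false

namespace Fermat.Agent.FrobDensity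

open NumberField Fermat.Agent.Frob
open scoped Pointwise

section frobIff

lemma mem_decomposition_iff {A : ValuationSubring (AlgebraicClosure ℚ)} {σ : GQ} :
    σ ∈ A.decompositionSubgroup ℚ ↔ σ • A = A := MulAction.mem_stabilizer_iff

/-- Elementwise characterisation of Frobenius elements. -/
theorem isFrobeniusAt_iff {A : ValuationSubring (AlgebraicClosure ℚ)} {σ : GQ} {q : ℕ} :
    A.IsFrobeniusAt σ q ↔ σ • A = A ∧ ∀ a ∈ A, σ a - a ^ q ∈ A.nonunits := by
  constructor
  · rintro ⟨h1, h2⟩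
    refine ⟨h1, fun a ha => ?_⟩
    have h3 := h2 (IsLocalRing.residue A ⟨a, ha⟩)
    rw [← IsLocalRing.ResidueField.residue_smul, ← map_pow, ← sub_eq_zero, ← map_sub,
      IsLocalRing.residue_eq_zero_iff] at h3
    rw [ValuationSubring.mem_nonunits_iff_exists_mem_maximalIdeal]
    exact ⟨_, h3⟩
  · rintro ⟨h1, h2⟩
    refine ⟨h1, fun x => ?_⟩
    obtain ⟨⟨a, ha⟩, rfl⟩ := IsLocalRing.residue_surjective x
    rw [← IsLocalRing.ResidueField.residue_smul, ← map_pow, ← sub_eq_zero, ← map_sub,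
      IsLocalRing.residue_eq_zero_iff]
    have h3 := h2 a ha
    rw [ValuationSubring.mem_nonunits_iff_exists_mem_maximalIdeal] at h3
    obtain ⟨_, h4⟩ := h3
    exact h4

lemma mem_nonunits_smul_iff {A : ValuationSubring (AlgebraicClosure ℚ)} {g : GQ}
    {x : AlgebraicClosure ℚ} : g x ∈ (g • A).nonunits ↔ x ∈ A.nonunits := by
  rw [ValuationSubring.mem_nonunits_iff_or, ValuationSubring.mem_nonunits_iff_or, ← map_inv₀,
    map_eq_zero]
  have : g x⁻¹ ∈ g • A ↔ x⁻¹ ∈ A := ValuationSubring.smul_mem_pointwise_smul_iff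
  rw [this]

lemma liesOverPrime_smul {A : ValuationSubring (AlgebraicClosure ℚ)} {g : GQ} {ℓ : ℕ}
    (h : A.LiesOverPrime ℓ) : (g • A).LiesOverPrime ℓ := by
  unfold ValuationSubring.LiesOverPrime at *
  have := (mem_nonunits_smul_iff (g := g)).mpr h
  simpa using this

lemma isFrobeniusAt_conj {A : ValuationSubring (AlgebraicClosure ℚ)} {σ g : GQ} {q : ℕ}
    (h : A.IsFrobeniusAt σ q) : (g • A).IsFrobeniusAt (g * σ * g⁻¹) q := by
  rw [isFrobeniusAt_iff] at h ⊢
  obtain ⟨h1, h2⟩ := h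
  refine ⟨?_, ?_⟩
  · rw [mul_smul, mul_smul, inv_smul_smul, h1]
  · intro b hb
    obtain ⟨a, ha, rfl⟩ := (ValuationSubring.mem_smul_pointwise_iff_exists g b A).mp hb
    have h3 := (mem_nonunits_smul_iff (g := g)).mpr (h2 a ha)
    rw [map_sub, map_pow] at h3
    have h4 : (g * σ * g⁻¹) (g • a) = g (σ a) := by
      change g (σ (g.symm (g a))) = g (σ a)
      rw [AlgEquiv.symm_apply_apply]
    rw [h4]
    exact h3

end frobIff

section galois

variable (L : IntermediateField ℚ (AlgebraicClosure ℚ)) [FiniteDimensional ℚ L] [IsGalois ℚ L]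

/-- embeddings of a fixed field are given by cosets -/
lemma card_fixed_embeddings (H : Subgroup (L ≃ₐ[ℚ] L)) (φ : GQ) :
    Nat.card {τ : IntermediateField.fixedField H →+* AlgebraicClosure ℚ //
      ∀ x, φ (τ x) = τ x} =
    Nat.card (MulAction.fixedBy ((L ≃ₐ[ℚ] L) ⧸ H) (AlgEquiv.restrictNormalHom L φ)) := by
  symm
  -- the map on all cosets
  let Φ : ((L ≃ₐ[ℚ] L) ⧸ H) → (IntermediateField.fixedField H →+* AlgebraicClosure ℚ) :=
    Quotient.lift (s := QuotientGroup.leftRel H)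
      (fun g => (algebraMap L (AlgebraicClosure ℚ)).comp
        ((g : L →+* L).comp (algebraMap (IntermediateField.fixedField H) L))) (by
      intro g g' hgg'
      rw [← Quotient.eq_iff_equiv, Quotient.eq, QuotientGroup.leftRel_apply] at hgg'
      ext x
      have h1 : (g⁻¹ * g') (x : L) = x := x.2 ⟨g⁻¹ * g', hgg'⟩
      have h2 : g' (x : L) = g (x : L) := by
        conv_rhs => rw [← h1]
        rw [← AlgEquiv.mul_apply, mul_inv_cancel_left]
      simp only [RingHom.comp_apply]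
      congr 1
      exact h2.symm)
  have hΦ : ∀ (g : L ≃ₐ[ℚ] L) (x : IntermediateField.fixedField H),
      Φ (QuotientGroup.mk g) x = ((g (x : L) : L) : AlgebraicClosure ℚ) := fun _ _ => rfl
  have hinj : Function.Injective Φ := by
    intro a b hab
    induction a using QuotientGroup.induction_on with | H g => ?_
    induction b using QuotientGroup.induction_on with | H g' => ?_
    rw [QuotientGroup.eq]
    rw [← IntermediateField.fixingSubgroup_fixedField H]
    rw [IntermediateField.mem_fixingSubgroup_iff]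
    intro x hx
    have h1 := congrFun (congrArg DFunLike.coe hab) ⟨x, hx⟩
    rw [hΦ, hΦ] at h1
    have h2 : g x = g' x := Subtype.ext h1
    rw [AlgEquiv.mul_apply, ← h2]
    exact AlgEquiv.symm_apply_apply g x
  have hsurj : Function.Surjective Φ := by
    intro τ
    let τ' : IntermediateField.fixedField H →ₐ[ℚ] AlgebraicClosure ℚ :=
      RingHom.equivRatAlgHom _ _ τ
    obtain ⟨ψ, hψ⟩ := IsAlgClosed.surjective_domRestrict_of_isAlgebraic (K := ℚ)
      (L := IntermediateField.fixedField H) (M := AlgebraicClosure ℚ) (E := L) τ'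
    refine ⟨QuotientGroup.mk (ψ.restrictNormal' L), ?_⟩
    ext x
    rw [hΦ]
    have h1 := AlgHom.restrictNormal_commutes ψ L (x : L)
    refine h1.trans ?_
    have h2 := congrFun (congrArg DFunLike.coe hψ) x
    exact h2
  refine Nat.card_congr (Equiv.subtypeEquiv (Equiv.ofBijective Φ ⟨hinj, hsurj⟩) ?_)
  intro a
  induction a using QuotientGroup.induction_on with | H g => ?_
  rw [MulAction.mem_fixedBy]
  have key : ∀ x : IntermediateField.fixedField H, φ (Φ (QuotientGroup.mk g) x) =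
      Φ ((AlgEquiv.restrictNormalHom L φ) • (QuotientGroup.mk g : (L ≃ₐ[ℚ] L) ⧸ H)) x := by
    intro x
    rw [MulAction.Quotient.smul_mk, hΦ, hΦ, smul_eq_mul, AlgEquiv.mul_apply]
    exact (AlgEquiv.restrictNormal_commutes φ L (g (x : L))).symm
  constructor
  · intro h x
    have h1 := key x
    rw [h] at h1
    exact h1
  · intro h
    apply hinj
    ext x
    rw [← key]
    exact h x


/-- **Frobenius density theorem**, existence form. -/
theorem exists_frobenius_pow (σ : AlgebraicClosure ℚ ≃ₐ[ℚ] AlgebraicClosure ℚ)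
    (S : Set ℕ) (hS : S.Finite) :
    ∃ ℓ : ℕ, ℓ.Prime ∧ ℓ ∉ S ∧ ∃ A : ValuationSubring (AlgebraicClosure ℚ), A.LiesOverPrime ℓ ∧
      ∃ φ : AlgebraicClosure ℚ ≃ₐ[ℚ] AlgebraicClosure ℚ, A.IsFrobeniusAt φ ℓ ∧
        ∃ k : ℕ, k.Coprime (orderOf (AlgEquiv.restrictNormalHom L σ)) ∧
          AlgEquiv.restrictNormalHom L φ = (AlgEquiv.restrictNormalHom L σ) ^ k := by
  classical
  set s := AlgEquiv.restrictNormalHom L σ with hs
  set n := orderOf s with hn
  have hn0 : n ≠ 0 := (orderOf_pos s).ne'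
  let F : n.divisors → IntermediateField ℚ L :=
    fun d => IntermediateField.fixedField (Subgroup.zpowers (s ^ (d : ℕ)))
  have hNF : ∀ d, NumberField (F d) := fun d => ⟨⟩
  let w : n.divisors → ℝ := fun d => ((ArithmeticFunction.moebius (d : ℕ) : ℤ) : ℝ) *
    ((n / (d : ℕ) : ℕ) : ℝ)
  have hw : ∑ i, w i ≠ 0 := by
    have h1 := FrobDensityComb.sum_moebius_div n hn0
    have h2 : ∑ i, w i = ((n.totient : ℤ) : ℝ) := by
      rw [← h1]
      push_cast
      exact (Finset.sum_coe_sort n.divisors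
        (fun d => ((ArithmeticFunction.moebius (d : ℕ) : ℤ) : ℝ) * ((n / (d : ℕ) : ℕ) : ℝ)))
    rw [h2]
    have h3 : 0 < n.totient := Nat.totient_pos.mpr (Nat.pos_of_ne_zero hn0)
    positivity
  have hinf := FrobDensityComb.infinite_primes_of_sum_ne_zero
    (a := fun (d : n.divisors) p => (idealCount (F d) p : ℝ)) (w := w) hw
    (fun d t ht => summable_zterm_primes (K := F d) ht) (fun d => exists_bound (F d))
  choose D hD0 hD using fun d => idealCount_eq (F d)
  have hbad : (S ∪ ⋃ d, {p : ℕ | (p : ℤ) ∣ D d}).Finite := by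
    refine hS.union (Set.finite_iUnion fun d => ?_)
    refine (Set.finite_mem_finset (D d).natAbs.divisors).subset ?_
    intro p hp
    rw [Set.mem_ofPred_eq, Nat.mem_divisors]
    exact ⟨Int.natCast_dvd.mp hp, Int.natAbs_ne_zero.mpr (hD0 d)⟩
  obtain ⟨p, ⟨hp, hpsum⟩, hpbad⟩ := (hinf.sdiff hbad).nonempty
  rw [Set.mem_union, not_or, Set.mem_iUnion, not_exists] at hpbad
  obtain ⟨A, hA, φ, hφ⟩ := Frob.exists_frobenius p hp
  set f := AlgEquiv.restrictNormalHom L φ with hf
  have hcount : ∀ d : n.divisors, (idealCount (F d) p : ℝ) =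
      Nat.card (MulAction.fixedBy ((L ≃ₐ[ℚ] L) ⧸ Subgroup.zpowers (s ^ (d : ℕ))) f) := by
    intro d
    rw [hD d p hp (hpbad.2 d) A hA φ hφ, card_fixed_embeddings]
  have hsum : ∑ i, w i * (idealCount (F i) p : ℝ) =
      ((Nat.card {x : (L ≃ₐ[ℚ] L) // ∃ j : ℕ, j.Coprime n ∧ x⁻¹ * f * x = s ^ j} : ℤ) : ℝ) := by
    rw [← FrobDensityComb.sum_moebius_fixedBy s f hn.symm]
    push_cast
    simp only [hcount]
    exact (Finset.sum_coe_sort n.divisors
        (fun d => ((ArithmeticFunction.moebius (d : ℕ) : ℤ) : ℝ) * ((n / (d : ℕ) : ℕ) : ℝ) *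
          (Nat.card (MulAction.fixedBy ((L ≃ₐ[ℚ] L) ⧸ Subgroup.zpowers (s ^ (d : ℕ))) f) : ℝ)))
  have hne : Nat.card {x : (L ≃ₐ[ℚ] L) // ∃ j : ℕ, j.Coprime n ∧ x⁻¹ * f * x = s ^ j} ≠ 0 := by
    intro h0
    rw [h0] at hsum
    exact hpsum (by simpa using hsum)
  obtain ⟨⟨x, j, hj, hx⟩⟩ := (Nat.card_ne_zero.mp hne).1
  obtain ⟨g, hg⟩ := AlgEquiv.restrictNormalHom_surjective (F := ℚ) (K₁ := L)
    (AlgebraicClosure ℚ) x
  refine ⟨p, hp, hpbad.1, g⁻¹ • A, liesOverPrime_smul hA, g⁻¹ * φ * g⁻¹⁻¹,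
    isFrobeniusAt_conj hφ, j, hj, ?_⟩
  rw [inv_inv, map_mul, map_mul, map_inv, hg]
  exact hx

end galois

/-- Frobenius density theorem for an arbitrary finite extension `L` of `ℚ` inside `ℚ̄`:
there is a Frobenius `φ` (at a prime outside any given finite set) such that on `L`, `φ` is a power
of `σ` and `σ` is a power of `φ`. -/
theorem exists_frobenius_on (L : IntermediateField ℚ (AlgebraicClosure ℚ))
    [FiniteDimensional ℚ L] (σ : AlgebraicClosure ℚ ≃ₐ[ℚ] AlgebraicClosure ℚ)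
    (S : Set ℕ) (hS : S.Finite) :
    ∃ ℓ : ℕ, ℓ.Prime ∧ ℓ ∉ S ∧ ∃ A : ValuationSubring (AlgebraicClosure ℚ), A.LiesOverPrime ℓ ∧
      ∃ φ : AlgebraicClosure ℚ ≃ₐ[ℚ] AlgebraicClosure ℚ, A.IsFrobeniusAt φ ℓ ∧
        ∃ k k' : ℕ, (∀ x ∈ L, φ x = (σ ^ k) x) ∧ (∀ x ∈ L, σ x = (φ ^ k') x) := by
  let L' := IntermediateField.normalClosure ℚ L (AlgebraicClosure ℚ)
  have hfin : FiniteDimensional ℚ L' := normalClosure.is_finiteDimensional ℚ L _
  have hnorm : Normal ℚ L' := normalClosure.normal ℚ L _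
  have hgal : IsGalois ℚ L' := ⟨⟩
  obtain ⟨ℓ, hℓ, hℓS, A, hA, φ, hφ, k, hk, h⟩ := exists_frobenius_pow L' σ S hS
  have hLL' : L ≤ L' := IntermediateField.le_normalClosure L
  set s := AlgEquiv.restrictNormalHom L' σ with hs
  set f := AlgEquiv.restrictNormalHom L' φ with hf
  obtain ⟨k', hk'⟩ : ∃ k' : ℕ, f ^ k' = s := by
    rw [h]
    obtain ⟨m, hm⟩ := exists_pow_eq_self_of_coprime (x := s) hk
    exact ⟨m, hm⟩
  have key : ∀ (τ τ' : GQ), AlgEquiv.restrictNormalHom L' τ = AlgEquiv.restrictNormalHom L' τ' →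
      ∀ x ∈ L, τ x = τ' x := by
    intro τ τ' hττ' x hx
    have h1 := AlgEquiv.restrictNormal_commutes τ L' ⟨x, hLL' hx⟩
    have h2 := AlgEquiv.restrictNormal_commutes τ' L' ⟨x, hLL' hx⟩
    have h3 : τ.restrictNormal L' = τ'.restrictNormal L' := hττ'
    rw [h3] at h1
    exact h1.symm.trans h2
  refine ⟨ℓ, hℓ, hℓS, A, hA, φ, hφ, k, k', key _ _ ?_, key _ _ ?_⟩
  · rw [map_pow]; exact h
  · rw [map_pow]; exact hk'.symm

end Fermat.Agent.FrobDensity
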