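import Mathlib

/-!
Analytic half of the Frobenius density theorem: the sum over rational primes `p` of
(number of ideals of norm `p` in the ring of integers of a number field `K`) times `p ^ (-s)`
equals `log (1 / (s - 1)) + O(1)` as `s → 1+`.
-/

set_option autoImplicit false
set_option linter.unusedSectionVars false

namespace Fermat.Agent.FrobDensity

open NumberField Filter Topology UniqueFactorizationMonoid

variable (K : Type*) [Field K] [NumberField K]

/-- number of ideals of norm n -/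
noncomputable def idealCount (n : ℕ) : ℕ := Nat.card {I : Ideal (𝓞 K) // Ideal.absNorm I = n}

lemma idealCount_one : idealCount K 1 = 1 := by
  unfold idealCount
  have : Unique {I : Ideal (𝓞 K) // Ideal.absNorm I = 1} :=
    { default := ⟨⊤, by simp⟩
      uniq := fun I => Subtype.ext (Ideal.absNorm_eq_one_iff.mp I.2) }
  exact Nat.card_unique

section mul
variable {K}

lemma absNorm_sup_span_dvd (I : Ideal (𝓞 K)) (m : ℕ) :
    Ideal.absNorm (I ⊔ Ideal.span {(m : 𝓞 K)}) ∣ m ^ Module.finrank ℤ (𝓞 K) := by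
  have h : Ideal.absNorm (I ⊔ Ideal.span {(m : 𝓞 K)}) ∣
      Ideal.absNorm (Ideal.span {(m : 𝓞 K)}) :=
    Ideal.absNorm_dvd_absNorm_of_le le_sup_right
  have h2 : Ideal.absNorm (Ideal.span {(m : 𝓞 K)}) = m ^ Module.finrank ℤ (𝓞 K) := by
    rw [Ideal.absNorm_span_singleton]
    have : (m : 𝓞 K) = algebraMap ℤ (𝓞 K) (m : ℤ) := by simp
    rw [this, Algebra.norm_algebraMap]
    simp [Int.natAbs_pow]
  rwa [h2] at h

lemma sup_mul_sup_eq {I : Ideal (𝓞 K)} {m n : ℕ} (hmn : m.Coprime n)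
    (hI : Ideal.absNorm I = m * n) :
    (I ⊔ Ideal.span {(m : 𝓞 K)}) * (I ⊔ Ideal.span {(n : 𝓞 K)}) = I := by
  have hmem : ((m * n : ℕ) : 𝓞 K) ∈ I := by rw [← hI]; exact Ideal.absNorm_mem I
  have hcop : IsCoprime (m : 𝓞 K) (n : 𝓞 K) := by
    have := (Nat.isCoprime_iff_coprime.mpr hmn).map (algebraMap ℤ (𝓞 K))
    simpa using this
  apply le_antisymm
  · rw [Ideal.mul_sup, Ideal.sup_mul, Ideal.sup_mul]
    refine sup_le (sup_le Ideal.mul_le_left Ideal.mul_le_right) (sup_le Ideal.mul_le_left ?_)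
    rw [Ideal.span_singleton_mul_span_singleton, Ideal.span_singleton_le_iff_mem]
    push_cast at hmem
    exact hmem
  · have hc : IsCoprime (I ⊔ Ideal.span {(m : 𝓞 K)}) (I ⊔ Ideal.span {(n : 𝓞 K)}) := by
      rw [Ideal.isCoprime_iff_codisjoint, codisjoint_iff, Ideal.eq_top_iff_one]
      obtain ⟨a, b, hab⟩ := hcop
      rw [← hab]
      refine Submodule.add_mem_sup (Ideal.mul_mem_left _ _ ?_) (Ideal.mul_mem_left _ _ ?_)
      · exact Ideal.mem_sup_right (Ideal.mem_span_singleton_self _)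
      · exact Ideal.mem_sup_right (Ideal.mem_span_singleton_self _)
    rw [Ideal.mul_eq_inf_of_coprime (Ideal.isCoprime_iff_sup_eq.mp hc)]
    exact le_inf le_sup_left le_sup_left

lemma absNorm_sup_eq {I : Ideal (𝓞 K)} {m n : ℕ} (hmn : m.Coprime n)
    (hI : Ideal.absNorm I = m * n) :
    Ideal.absNorm (I ⊔ Ideal.span {(m : 𝓞 K)}) = m := by
  have h := sup_mul_sup_eq hmn hI
  have hN : Ideal.absNorm (I ⊔ Ideal.span {(m : 𝓞 K)}) *
      Ideal.absNorm (I ⊔ Ideal.span {(n : 𝓞 K)}) = m * n := by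
    rw [← map_mul, h, hI]
  have h1 : (Ideal.absNorm (I ⊔ Ideal.span {(m : 𝓞 K)})).Coprime n :=
    Nat.Coprime.coprime_dvd_left (absNorm_sup_span_dvd I m) (Nat.Coprime.pow_left _ hmn)
  have h2 : (Ideal.absNorm (I ⊔ Ideal.span {(n : 𝓞 K)})).Coprime m :=
    Nat.Coprime.coprime_dvd_left (absNorm_sup_span_dvd I n) (Nat.Coprime.pow_left _ hmn.symm)
  apply Nat.dvd_antisymm
  · exact h1.dvd_of_dvd_mul_right (hN ▸ Dvd.intro _ rfl)
  · exact h2.symm.dvd_of_dvd_mul_right (hN ▸ Dvd.intro _ rfl)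

lemma mul_sup_span_eq {J J' : Ideal (𝓞 K)} {m n : ℕ} (hmn : m.Coprime n)
    (hJ : Ideal.absNorm J = m) (hJ' : Ideal.absNorm J' = n) :
    (J * J') ⊔ Ideal.span {(m : 𝓞 K)} = J := by
  have hmJ : (m : 𝓞 K) ∈ J := by rw [← hJ]; exact Ideal.absNorm_mem J
  have hnJ : (n : 𝓞 K) ∈ J' := by rw [← hJ']; exact Ideal.absNorm_mem J'
  have hcop : IsCoprime (m : 𝓞 K) (n : 𝓞 K) := by
    have := (Nat.isCoprime_iff_coprime.mpr hmn).map (algebraMap ℤ (𝓞 K))
    simpa using this
  apply le_antisymm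
  · exact sup_le Ideal.mul_le_left ((Ideal.span_singleton_le_iff_mem _).mpr hmJ)
  · intro x hx
    obtain ⟨a, b, hab⟩ := hcop
    have : x = x * (b * n) + (x * a) * m := by
      calc x = x * (a * m + b * n) := by rw [hab, mul_one]
        _ = _ := by ring
    rw [this]
    refine Submodule.add_mem_sup (Ideal.mul_mem_mul hx (Ideal.mul_mem_left _ _ hnJ)) ?_
    exact Ideal.mul_mem_left _ _ (Ideal.mem_span_singleton_self _)

end mul

lemma idealCount_mul {m n : ℕ} (hmn : m.Coprime n) :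
    idealCount K (m * n) = idealCount K m * idealCount K n := by
  unfold idealCount
  rw [← Nat.card_prod]
  refine Nat.card_congr
    { toFun := fun I => (⟨I.1 ⊔ Ideal.span {(m : 𝓞 K)}, absNorm_sup_eq hmn I.2⟩,
        ⟨I.1 ⊔ Ideal.span {(n : 𝓞 K)}, absNorm_sup_eq hmn.symm (by rw [I.2, mul_comm])⟩)
      invFun := fun J => ⟨J.1.1 * J.2.1, by rw [map_mul, J.1.2, J.2.2]⟩
      left_inv := fun I => Subtype.ext (sup_mul_sup_eq hmn I.2)
      right_inv := fun J => Prod.ext (Subtype.ext (mul_sup_span_eq hmn J.1.2 J.2.2))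
        (Subtype.ext (by
          show (J.1.1 * J.2.1) ⊔ _ = _
          rw [mul_comm]
          exact mul_sup_span_eq hmn.symm J.2.2 J.1.2)) }


section bound
variable {K}

lemma dvd_absNorm_of_mem_normalizedFactors {p : ℕ} (hp : p.Prime) {e : ℕ} {I : Ideal (𝓞 K)}
    (hI : Ideal.absNorm I = p ^ e) {P : Ideal (𝓞 K)} (hP : P ∈ normalizedFactors I) :
    p ∣ Ideal.absNorm P := by
  have hdvd : P ∣ I := dvd_of_mem_normalizedFactors hP
  have h1 : Ideal.absNorm P ∣ p ^ e := hI ▸ map_dvd Ideal.absNorm hdvd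
  obtain ⟨k, -, hk⟩ := (Nat.dvd_prime_pow hp).mp h1
  rcases Nat.eq_zero_or_pos k with rfl | hk0
  · exfalso
    rw [pow_zero, Ideal.absNorm_eq_one_iff] at hk
    have := (prime_of_normalized_factor P hP)
    exact this.not_isUnit (by rw [hk, ← Ideal.one_eq_top]; exact isUnit_one)
  · rw [hk]; exact dvd_pow_self p hk0.ne'

lemma card_normalizedFactors_le {p : ℕ} (hp : p.Prime) {e : ℕ} {I : Ideal (𝓞 K)}
    (hI : Ideal.absNorm I = p ^ e) : Multiset.card (normalizedFactors I) ≤ e := by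
  have hI0 : I ≠ ⊥ := by
    rintro rfl
    rw [Ideal.absNorm_bot] at hI
    exact (pow_ne_zero e hp.ne_zero) hI.symm
  have h1 : p ^ (Multiset.card (normalizedFactors I)) ∣ p ^ e := by
    rw [← hI, ← Ideal.prod_normalizedFactors_eq_self hI0, map_multiset_prod]
    have : ∀ (s : Multiset (Ideal (𝓞 K))), (∀ P ∈ s, p ∣ Ideal.absNorm P) →
        p ^ (Multiset.card s) ∣ (s.map Ideal.absNorm).prod := by
      intro s
      induction s using Multiset.induction_on with
      | empty => intro _; simp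
      | cons a s ih =>
        intro h
        rw [Multiset.card_cons, Multiset.map_cons, Multiset.prod_cons, pow_succ']
        exact mul_dvd_mul (h a (Multiset.mem_cons_self a s))
          (ih fun P hP => h P (Multiset.mem_cons_of_mem hP))
    rw [Ideal.prod_normalizedFactors_eq_self hI0]
    exact this _ fun P hP => dvd_absNorm_of_mem_normalizedFactors hp hI hP
  exact (Nat.pow_dvd_pow_iff_le_right hp.one_lt).mp h1

lemma idealCount_prime_pow_le {p : ℕ} (hp : p.Prime) (e : ℕ) :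
    idealCount K (p ^ e) ≤ (e + 1) ^ (Module.finrank ℤ (𝓞 K)) := by
  classical
  set I₀ : Ideal (𝓞 K) := Ideal.span {(p : 𝓞 K)} with hI₀
  have hI₀N : Ideal.absNorm I₀ = p ^ Module.finrank ℤ (𝓞 K) := by
    rw [hI₀, Ideal.absNorm_span_singleton]
    have : (p : 𝓞 K) = algebraMap ℤ (𝓞 K) (p : ℤ) := by simp
    rw [this, Algebra.norm_algebraMap]
    simp [Int.natAbs_pow]
  have hI₀0 : I₀ ≠ ⊥ := by
    intro h
    rw [h, Ideal.absNorm_bot] at hI₀N
    exact (pow_ne_zero _ hp.ne_zero) hI₀N.symm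
  set F := (normalizedFactors I₀).toFinset with hF
  have hFcard : F.card ≤ Module.finrank ℤ (𝓞 K) :=
    (Multiset.toFinset_card_le _).trans (card_normalizedFactors_le hp hI₀N)
  have hmemF : ∀ I : Ideal (𝓞 K), Ideal.absNorm I = p ^ e → ∀ P ∈ normalizedFactors I, P ∈ F := by
    intro I hI P hP
    have hI0 : I ≠ ⊥ := by
      rintro rfl
      rw [Ideal.absNorm_bot] at hI
      exact (pow_ne_zero e hp.ne_zero) hI.symm
    rw [hF, Multiset.mem_toFinset]
    rw [Ideal.mem_normalizedFactors_iff hI₀0]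
    rw [Ideal.mem_normalizedFactors_iff hI0] at hP
    refine ⟨hP.1, ?_⟩
    rw [hI₀, Ideal.span_singleton_le_iff_mem]
    have h2 : ((p ^ e : ℕ) : 𝓞 K) ∈ P := hP.2 (hI ▸ Ideal.absNorm_mem I)
    push_cast at h2
    exact hP.1.mem_of_pow_mem _ h2
  have key : idealCount K (p ^ e) ≤ Nat.card (F → Fin (e + 1)) := by
    unfold idealCount
    refine Nat.card_le_card_of_injective
      (fun I => fun P => ⟨(normalizedFactors I.1).count P.1,
        Nat.lt_succ_of_le ((Multiset.count_le_card _ _).trans (card_normalizedFactors_le hp I.2))⟩) ?_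
    intro I J hIJ
    apply Subtype.ext
    have hI0 : I.1 ≠ ⊥ := by
      intro h
      have := I.2
      rw [h, Ideal.absNorm_bot] at this
      exact (pow_ne_zero e hp.ne_zero) this.symm
    have hJ0 : J.1 ≠ ⊥ := by
      intro h
      have := J.2
      rw [h, Ideal.absNorm_bot] at this
      exact (pow_ne_zero e hp.ne_zero) this.symm
    rw [← Ideal.prod_normalizedFactors_eq_self hI0, ← Ideal.prod_normalizedFactors_eq_self hJ0]
    congr 1
    ext P
    by_cases hP : P ∈ F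
    · have := congrFun hIJ ⟨P, hP⟩
      simpa using this
    · rw [Multiset.count_eq_zero_of_notMem (fun h => hP (hmemF _ I.2 P h)),
        Multiset.count_eq_zero_of_notMem (fun h => hP (hmemF _ J.2 P h))]
  refine key.trans ?_
  rw [Nat.card_fun, Nat.card_eq_fintype_card, Nat.card_eq_fintype_card, Fintype.card_fin,
    Fintype.card_coe]
  exact Nat.pow_le_pow_right (Nat.succ_pos e) hFcard

end bound

section analytic

lemma tendsto_sum_idealCount :
    Tendsto (fun n : ℕ ↦ (∑ k ∈ Finset.Icc 1 n, (idealCount K k : ℝ)) / n) atTop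
      (𝓝 (dedekindZeta_residue K)) := by
  refine ((Ideal.tendsto_norm_le_div_atTop₀ K).comp tendsto_natCast_atTop_atTop).congr fun n ↦ ?_
  simp only [Function.comp_apply, Nat.cast_le, ← Nat.cast_sum, idealCount]
  congr
  rw [← add_left_inj 1, ← Ideal.card_norm_le_eq_card_norm_le_add_one,
    show Finset.Icc 1 n = Finset.Ioc 0 n from Finset.Icc_succ_left_eq_Ioc _ _,
    show 1 = Nat.card {I : Ideal (𝓞 K) // Ideal.absNorm I = 0} by simp [Ideal.absNorm_eq_zero_iff],
    Finset.sum_Ioc_add_eq_sum_Icc (n.zero_le),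
    ← Finset.card_preimage_eq_sum_card_image_eq (fun k _ ↦ Ideal.finite_setOfPred_absNorm_eq k)]
  simp [Set.coe_eq_subtype]

lemma lseriesSummable_idealCount {s : ℝ} (hs : 1 < s) :
    LSeriesSummable (fun n => ((idealCount K n : ℝ) : ℂ)) s := by
  refine LSeriesSummable_of_sum_norm_bigO_and_nonneg (r := 1) (f := fun n => (idealCount K n : ℝ))
    ?_ (fun n => Nat.cast_nonneg _) zero_le_one (by simpa using hs)
  have h1 := (tendsto_sum_idealCount K).isBigO_one ℝ
  have h2 : (fun n : ℕ => (∑ k ∈ Finset.Icc 1 n, (idealCount K k : ℝ))) =ᶠ[atTop]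
      fun n : ℕ => ((∑ k ∈ Finset.Icc 1 n, (idealCount K k : ℝ)) / n) * (n : ℝ) := by
    filter_upwards [eventually_gt_atTop 0] with n hn
    have : (n : ℝ) ≠ 0 := by positivity
    field_simp
  refine (h2.trans_isBigO (h1.mul (Asymptotics.isBigO_refl (fun n : ℕ => (n : ℝ)) atTop))).trans ?_
  simp only [one_mul, Real.rpow_one]
  exact Asymptotics.isBigO_refl _ _

/-- the real Dirichlet series term -/
noncomputable def zterm (s : ℝ) (n : ℕ) : ℝ := (idealCount K n : ℝ) * (n : ℝ) ^ (-s)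

variable {K}

lemma zterm_nonneg (s : ℝ) (n : ℕ) : 0 ≤ zterm K s n :=
  mul_nonneg (Nat.cast_nonneg _) (Real.rpow_nonneg (Nat.cast_nonneg _) _)

lemma ofReal_zterm {s : ℝ} (hs : 1 < s) (n : ℕ) :
    ((zterm K s n : ℝ) : ℂ) = LSeries.term (fun n => ((idealCount K n : ℝ) : ℂ)) s n := by
  rcases Nat.eq_zero_or_pos n with rfl | hn
  · rw [LSeries.term_zero, zterm, Nat.cast_zero, Real.zero_rpow (by linarith), mul_zero,
      Complex.ofReal_zero]
  · rw [LSeries.term_of_ne_zero hn.ne', zterm, Real.rpow_neg (Nat.cast_nonneg _),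
      Complex.ofReal_mul, Complex.ofReal_inv, Complex.ofReal_cpow (Nat.cast_nonneg _), div_eq_mul_inv]
    simp

lemma summable_zterm {s : ℝ} (hs : 1 < s) : Summable (zterm K s) := by
  have h := lseriesSummable_idealCount K hs
  unfold LSeriesSummable at h
  rw [← Complex.summable_ofReal]
  exact h.congr fun n => (ofReal_zterm hs n).symm

lemma dedekindZeta_eq {s : ℝ} (hs : 1 < s) :
    dedekindZeta K s = ((∑' n, zterm K s n : ℝ) : ℂ) := by
  rw [Complex.ofReal_tsum]
  unfold dedekindZeta LSeries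
  refine tsum_congr fun n => ?_
  rw [ofReal_zterm hs n]
  rfl

lemma tendsto_zeta :
    Tendsto (fun s : ℝ => (s - 1) * ∑' n, zterm K s n) (𝓝[>] 1) (𝓝 (dedekindZeta_residue K)) := by
  have h := tendsto_sub_one_mul_dedekindZeta_nhdsGT K
  have h2 := (Complex.continuous_re.tendsto _).comp h
  rw [Complex.ofReal_re] at h2
  refine h2.congr' ?_
  filter_upwards [self_mem_nhdsWithin] with s hs
  have hs' : (1:ℝ) < s := hs
  simp only [Function.comp_apply]
  rw [dedekindZeta_eq hs', ← Complex.ofReal_one, ← Complex.ofReal_sub, ← Complex.ofReal_mul,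
    Complex.ofReal_re]

lemma zterm_zero {s : ℝ} (hs : 1 < s) : zterm K s 0 = 0 := by
  rw [zterm, Nat.cast_zero, Real.zero_rpow (by linarith), mul_zero]

lemma zterm_one {s : ℝ} : zterm K s 1 = 1 := by
  rw [zterm, idealCount_one]; simp

lemma zterm_mul {s : ℝ} {m n : ℕ} (h : m.Coprime n) :
    zterm K s (m * n) = zterm K s m * zterm K s n := by
  rw [zterm, zterm, zterm, idealCount_mul K h, Nat.cast_mul, Nat.cast_mul,
    Real.mul_rpow (Nat.cast_nonneg _) (Nat.cast_nonneg _)]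
  ring

lemma euler_hasProd {s : ℝ} (hs : 1 < s) :
    HasProd (fun p : Nat.Primes => ∑' e, zterm K s (p ^ e)) (∑' n, zterm K s n) :=
  EulerProduct.eulerProduct_hasProd zterm_one zterm_mul
    ((summable_zterm hs).congr fun n => by
      rw [Real.norm_of_nonneg (zterm_nonneg s n)]) (zterm_zero hs)

variable (K) in
noncomputable def dK : ℕ := Module.finrank ℤ (𝓞 K)

variable (K) in
noncomputable def cst : ℝ := ∑' e : ℕ, ((e : ℝ) + 3) ^ (dK K) * (1/2) ^ e

lemma summable_cst : Summable (fun e : ℕ => ((e : ℝ) + 3) ^ (dK K) * (1/2 : ℝ) ^ e) := by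
  have h := summable_pow_mul_geometric_of_norm_lt_one (R := ℝ) (dK K)
    (r := (1/2 : ℝ)) (by rw [Real.norm_of_nonneg (by norm_num)]; norm_num)
  have h2 := (summable_nat_add_iff 3).mpr h
  have h3 := h2.mul_left 8
  refine h3.congr fun e => ?_
  push_cast
  rw [pow_add]
  ring

lemma cst_nonneg : 0 ≤ cst K := tsum_nonneg fun e => by positivity

lemma zterm_prime_pow_le {s : ℝ} (hs : 1 < s) (p : Nat.Primes) (e : ℕ) :
    zterm K s (p ^ (e + 2)) ≤ (((e : ℝ) + 3) ^ (dK K) * (1/2) ^ e) * ((p : ℝ) ^ 2)⁻¹ := by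
  have hp := p.2
  have hp1 : (1:ℝ) ≤ (p : ℝ) := by exact_mod_cast hp.one_lt.le
  have hp2 : (2:ℝ) ≤ (p : ℝ) := by exact_mod_cast hp.two_le
  have hp0 : (0:ℝ) < (p : ℝ) := by linarith
  have h1 : (idealCount K ((p:ℕ) ^ (e + 2)) : ℝ) ≤ ((e : ℝ) + 3) ^ (dK K) := by
    have := idealCount_prime_pow_le (K := K) hp (e + 2)
    calc (idealCount K ((p:ℕ) ^ (e + 2)) : ℝ) ≤ (((e + 2 + 1) ^ (Module.finrank ℤ (𝓞 K)) : ℕ) : ℝ) := by
          exact_mod_cast this
      _ = _ := by push_cast; unfold dK; ring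
  have h2 : (((p : ℕ) ^ (e + 2) : ℕ) : ℝ) ^ (-s) ≤ (1/2) ^ e * ((p : ℝ) ^ 2)⁻¹ := by
    have hb : (1:ℝ) ≤ (((p : ℕ) ^ (e + 2) : ℕ) : ℝ) := by
      push_cast
      exact one_le_pow₀ hp1
    calc (((p : ℕ) ^ (e + 2) : ℕ) : ℝ) ^ (-s) ≤ (((p : ℕ) ^ (e + 2) : ℕ) : ℝ) ^ (-1 : ℝ) :=
          Real.rpow_le_rpow_of_exponent_le hb (by linarith)
      _ = ((p : ℝ)⁻¹) ^ e * ((p : ℝ) ^ 2)⁻¹ := by
          rw [Real.rpow_neg_one]; push_cast; rw [pow_add, mul_inv, inv_pow]
      _ ≤ (1/2) ^ e * ((p : ℝ) ^ 2)⁻¹ := by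
          gcongr
          rw [one_div]
          exact inv_anti₀ (by norm_num) hp2
  calc zterm K s (p ^ (e + 2)) ≤ ((e : ℝ) + 3) ^ (dK K) * ((1/2) ^ e * ((p : ℝ) ^ 2)⁻¹) :=
        mul_le_mul h1 h2 (Real.rpow_nonneg (Nat.cast_nonneg _) _) (by positivity)
    _ = _ := by ring

lemma zterm_prime_le {s : ℝ} (hs : 1 < s) (p : Nat.Primes) :
    zterm K s p ≤ 2 ^ (dK K) * (p : ℝ)⁻¹ := by
  have hp := p.2
  have hp1 : (1:ℝ) ≤ (p : ℝ) := by exact_mod_cast hp.one_lt.le
  have h1 : (idealCount K (p:ℕ) : ℝ) ≤ 2 ^ (dK K) := by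
    have := idealCount_prime_pow_le (K := K) hp 1
    rw [pow_one] at this
    exact_mod_cast this
  refine mul_le_mul h1 ?_ (Real.rpow_nonneg (Nat.cast_nonneg _) _) (by positivity)
  rw [← Real.rpow_neg_one]
  exact Real.rpow_le_rpow_of_exponent_le hp1 (by linarith)

/-- the tail -/
noncomputable def xp (K : Type*) [Field K] [NumberField K] (s : ℝ) (p : Nat.Primes) : ℝ :=
  ∑' e, zterm K s (p ^ (e + 1))

lemma summable_pow {s : ℝ} (hs : 1 < s) (p : Nat.Primes) :
    Summable (fun e : ℕ => zterm K s (p ^ e)) :=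
  (summable_zterm hs).comp_injective (Nat.pow_right_injective p.2.two_le)

lemma tsum_eq_one_add_xp {s : ℝ} (hs : 1 < s) (p : Nat.Primes) :
    ∑' e, zterm K s (p ^ e) = 1 + xp K s p := by
  rw [(summable_pow hs p).tsum_eq_zero_add, pow_zero, zterm_one]
  rfl

lemma xp_eq {s : ℝ} (hs : 1 < s) (p : Nat.Primes) :
    xp K s p = zterm K s p + ∑' e, zterm K s (p ^ (e + 2)) := by
  unfold xp
  rw [((summable_nat_add_iff 1).mpr (summable_pow hs p)).tsum_eq_zero_add, zero_add, pow_one]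

lemma xp_ge {s : ℝ} (hs : 1 < s) (p : Nat.Primes) : zterm K s p ≤ xp K s p := by
  rw [xp_eq hs]
  have h : 0 ≤ ∑' e : ℕ, zterm K s (p ^ (e + 2)) := tsum_nonneg fun e => zterm_nonneg _ _
  linarith

lemma xp_nonneg (s : ℝ) (p : Nat.Primes) : 0 ≤ xp K s p :=
  tsum_nonneg fun _ => zterm_nonneg _ _

lemma xp_le {s : ℝ} (hs : 1 < s) (p : Nat.Primes) :
    xp K s p ≤ zterm K s p + cst K * ((p : ℝ) ^ 2)⁻¹ := by
  rw [xp_eq hs]
  gcongr
  rw [cst, ← tsum_mul_right]
  exact ((summable_nat_add_iff 2).mpr (summable_pow hs p)).tsum_le_tsum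
    (fun e => zterm_prime_pow_le hs p e) (summable_cst.mul_right _)

lemma xp_le' {s : ℝ} (hs : 1 < s) (p : Nat.Primes) :
    xp K s p ≤ (2 ^ (dK K) + cst K) * (p : ℝ)⁻¹ := by
  have hp := p.2
  have hp1 : (1:ℝ) ≤ (p : ℝ) := by exact_mod_cast hp.one_lt.le
  have h1 := xp_le (K := K) hs p
  have h2 := zterm_prime_le (K := K) hs p
  have h3 : ((p : ℝ) ^ 2)⁻¹ ≤ (p : ℝ)⁻¹ := by
    apply inv_anti₀ (by linarith)
    nlinarith
  have h4 := mul_le_mul_of_nonneg_left h3 (cst_nonneg (K := K))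
  linarith

lemma summable_primes_inv_sq : Summable (fun p : Nat.Primes => ((p : ℝ) ^ 2)⁻¹) := by
  have h : Summable (fun n : ℕ => ((n : ℝ) ^ 2)⁻¹) :=
    Real.summable_nat_pow_inv.mpr one_lt_two
  exact h.comp_injective (Subtype.val_injective : Function.Injective (Subtype.val : Nat.Primes → ℕ))

lemma summable_zterm_primes {s : ℝ} (hs : 1 < s) :
    Summable (fun p : Nat.Primes => zterm K s p) :=
  (summable_zterm hs).comp_injective
    (Subtype.val_injective : Function.Injective (Subtype.val : Nat.Primes → ℕ))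

lemma summable_xp {s : ℝ} (hs : 1 < s) : Summable (fun p : Nat.Primes => xp K s p) :=
  Summable.of_nonneg_of_le (fun p => xp_nonneg s p) (fun p => xp_le hs p)
    ((summable_zterm_primes hs).add (summable_primes_inv_sq.mul_left _))

lemma log_zeta_eq {s : ℝ} (hs : 1 < s) :
    Real.log (∑' n, zterm K s n) = ∑' p : Nat.Primes, Real.log (1 + xp K s p) := by
  have h := (euler_hasProd (K := K) hs).tprod_eq
  have h2 : ∏' p : Nat.Primes, (1 + xp K s p) = ∑' n, zterm K s n := by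
    rw [← h]
    exact tprod_congr fun p => (tsum_eq_one_add_xp hs p).symm
  rw [← h2, ← Real.rexp_tsum_eq_tprod (fun p => by have := xp_nonneg (K := K) s p; positivity)
    (Real.summable_log_one_add_of_summable (summable_xp hs)), Real.log_exp]

lemma abs_sub_log_le {s : ℝ} (hs : 1 < s) (p : Nat.Primes) :
    |zterm K s p - Real.log (1 + xp K s p)| ≤
      (cst K + (2 ^ (dK K) + cst K) ^ 2) * ((p : ℝ) ^ 2)⁻¹ := by
  have hx0 := xp_nonneg (K := K) s p
  have h1 := xp_le (K := K) hs p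
  have h2 := xp_ge (K := K) hs p
  have h3 := xp_le' (K := K) hs p
  have h4 : Real.log (1 + xp K s p) ≤ xp K s p := by
    have := Real.log_le_sub_one_of_pos (show 0 < 1 + xp K s p by linarith)
    linarith
  have h5 : xp K s p - (xp K s p) ^ 2 ≤ Real.log (1 + xp K s p) := by
    refine le_trans ?_ (Real.one_sub_inv_le_log_of_pos (show 0 < 1 + xp K s p by linarith))
    have : 1 - (1 + xp K s p)⁻¹ - (xp K s p - (xp K s p) ^ 2) =
        (xp K s p) ^ 3 * (1 + xp K s p)⁻¹ := by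
      field_simp
      ring
    have h6 : 0 ≤ (xp K s p) ^ 3 * (1 + xp K s p)⁻¹ := by positivity
    linarith
  have h7 : (xp K s p) ^ 2 ≤ (2 ^ (dK K) + cst K) ^ 2 * ((p : ℝ) ^ 2)⁻¹ := by
    calc (xp K s p) ^ 2 ≤ ((2 ^ (dK K) + cst K) * (p : ℝ)⁻¹) ^ 2 := by gcongr
      _ = _ := by rw [mul_pow, inv_pow]
  have h8 : 0 ≤ cst K * ((p : ℝ) ^ 2)⁻¹ := mul_nonneg cst_nonneg (by positivity)
  have h9 : 0 ≤ (2 ^ (dK K) + cst K) ^ 2 * ((p : ℝ) ^ 2)⁻¹ := by positivity
  rw [abs_le, add_mul]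
  constructor <;> linarith

/-- The analytic input: the sum over rational primes `p` of (number of degree one primes of `K`
above `p`) times `p ^ (-s)` is `log (1 / (s - 1)) + O(1)`. -/
theorem exists_bound (K : Type*) [Field K] [NumberField K] :
    ∃ B : ℝ, ∀ᶠ s in 𝓝[>] (1 : ℝ),
      |∑' p : Nat.Primes, zterm K s p - Real.log (1 / (s - 1))| ≤ B := by
  set r := dedekindZeta_residue K with hr
  have hrpos : 0 < r := dedekindZeta_residue_pos K
  have hlog : Tendsto (fun s : ℝ => Real.log ((s - 1) * ∑' n, zterm K s n)) (𝓝[>] 1)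
      (𝓝 (Real.log r)) :=
    (Real.continuousAt_log hrpos.ne').tendsto.comp tendsto_zeta
  have hbd : ∀ᶠ s in 𝓝[>] (1 : ℝ), |Real.log ((s - 1) * ∑' n, zterm K s n)| ≤ |Real.log r| + 1 := by
    have := (hlog.abs).eventually (gt_mem_nhds (show |Real.log r| < |Real.log r| + 1 by linarith))
    exact this.mono fun s hs => hs.le
  have hpos : ∀ᶠ s in 𝓝[>] (1 : ℝ), 0 < (s - 1) * ∑' n, zterm K s n :=
    tendsto_zeta.eventually (lt_mem_nhds hrpos)
  refine ⟨(∑' p : Nat.Primes, (cst K + (2 ^ (dK K) + cst K) ^ 2) * ((p : ℝ) ^ 2)⁻¹) +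
    (|Real.log r| + 1), ?_⟩
  filter_upwards [hbd, hpos, self_mem_nhdsWithin] with s hs1 hs2 hs3
  have hs3' : (1:ℝ) < s := hs3
  have hs4 : 0 < s - 1 := by linarith
  have hF : 0 < ∑' n, zterm K s n := (mul_pos_iff_of_pos_left hs4).mp hs2
  have e1 : ∑' p : Nat.Primes, zterm K s p - Real.log (1 / (s - 1)) =
      (∑' p : Nat.Primes, (zterm K s p - Real.log (1 + xp K s p))) +
        Real.log ((s - 1) * ∑' n, zterm K s n) := by
    rw [Real.log_mul hs4.ne' hF.ne', log_zeta_eq hs3',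
      (summable_zterm_primes hs3').tsum_sub
        (Real.summable_log_one_add_of_summable (summable_xp hs3')), one_div, Real.log_inv]
    ring
  rw [e1]
  refine (abs_add_le _ _).trans (add_le_add ?_ hs1)
  have hsm : Summable (fun p : Nat.Primes =>
      (cst K + (2 ^ (dK K) + cst K) ^ 2) * ((p : ℝ) ^ 2)⁻¹) :=
    summable_primes_inv_sq.mul_left _
  have := tsum_of_norm_bounded hsm.hasSum (fun p => by
    rw [Real.norm_eq_abs]; exact abs_sub_log_le (K := K) hs3' p)
  rwa [Real.norm_eq_abs] at this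

end analytic

end Fermat.Agent.FrobDensity
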