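import Mathlib
import Fermat.Agent.ClassL.IdealSum

set_option autoImplicit false
set_option linter.unusedSectionVars false

open Finset NumberField NumberField.mixedEmbedding NumberField.InfinitePlace NumberField.Units
  Module nonZeroDivisors Filter Topology

open scoped Classical

namespace Fermat.Agent.FrobDensity

open Fermat.Agent.ClassL

variable {K : Type*} [Field K] [NumberField K]

/-- An element close to `1` at all places has positive norm. -/
lemma norm_one_add_pos (ε : K) (h : ∀ φ : K →+* ℂ, ‖φ ε‖ < 1) :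
    0 < Algebra.norm ℚ (1 + ε) := by
  let f : ℝ → ℂ := fun t => ∏ φ : K →+* ℂ, (1 + (t : ℂ) * φ ε)
  have hreal : ∀ t, (f t).im = 0 := by
    intro t
    rw [← Complex.conj_eq_iff_im]
    simp only [f, map_prod]
    refine Fintype.prod_equiv (Equiv.mk ComplexEmbedding.conjugate ComplexEmbedding.conjugate
      (fun φ => by ext; simp) (fun φ => by ext; simp)) _ _ (fun φ => ?_)
    simp
  have hcont : Continuous f := by
    apply continuous_finsetProd
    intro φ _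
    fun_prop
  have hne : ∀ t ∈ Set.Icc (0 : ℝ) 1, f t ≠ 0 := by
    intro t ht
    refine prod_ne_zero_iff.mpr fun φ _ h0 => ?_
    have h1 : (t : ℂ) * φ ε = -1 := by linear_combination h0
    have h2 : ‖(t : ℂ) * φ ε‖ = 1 := by rw [h1]; simp
    rw [norm_mul, Complex.norm_real, Real.norm_eq_abs, abs_of_nonneg ht.1] at h2
    have := h φ
    have h3 := ht.2
    have h4 := norm_nonneg (φ ε)
    nlinarith
  have h0 : f 0 = 1 := by simp [f]
  have h1 : f 1 = ((Algebra.norm ℚ (1 + ε) : ℚ) : ℂ) := by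
    have := Algebra.norm_eq_prod_embeddings ℚ ℂ (1 + ε)
    rw [eq_ratCast] at this
    rw [this]
    simp only [f]
    refine Fintype.prod_equiv (RingHom.equivRatAlgHom K ℂ) _ _ (fun φ => ?_)
    simp
  by_contra hneg
  rw [not_lt] at hneg
  have h2 : (f 1).re ≤ 0 := by
    rw [h1]
    simpa using (by exact_mod_cast hneg : ((Algebra.norm ℚ (1 + ε) : ℚ) : ℝ) ≤ 0)
  obtain ⟨t, ht, ht0⟩ := intermediate_value_Icc' (f := fun t => (f t).re) zero_le_one
    (Complex.continuous_re.comp hcont).continuousOn (show (0 : ℝ) ∈ Set.Icc (f 1).re (f 0).re from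
      ⟨h2, by rw [h0]; simp⟩)
  exact hne t ht (Complex.ext ht0 (hreal t))

/-- Adding a small perturbation does not change the sign of the norm. -/
lemma norm_neg_iff {x y : 𝓞 K} (h : ∀ w : InfinitePlace K, w (y : K) < w (x : K)) :
    Algebra.norm ℤ (x + y) < 0 ↔ Algebra.norm ℤ x < 0 := by
  have hx : (x : K) ≠ 0 := by
    intro h0
    obtain ⟨w⟩ := (inferInstance : Nonempty (InfinitePlace K))
    have := h w
    rw [h0, map_zero] at this
    exact absurd this (not_lt.mpr (apply_nonneg _ _))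
  have h1 : 0 < Algebra.norm ℚ (1 + (y : K) / (x : K)) := by
    refine norm_one_add_pos _ fun φ => ?_
    rw [map_div₀, norm_div, div_lt_one (norm_pos_iff.mpr ((map_ne_zero φ).mpr hx))]
    exact h (InfinitePlace.mk φ)
  have h2 : Algebra.norm ℚ ((x + y : 𝓞 K) : K) = Algebra.norm ℚ (x : K) *
      Algebra.norm ℚ (1 + (y : K) / (x : K)) := by
    rw [← map_mul]
    congr 1
    rw [mul_add, mul_one, mul_div_cancel₀ _ hx]
    simp
  rw [← Algebra.coe_norm_int, ← Algebra.coe_norm_int] at h2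
  have h3 : ((Algebra.norm ℤ (x + y) : ℤ) : ℚ) < 0 ↔ ((Algebra.norm ℤ x : ℤ) : ℚ) < 0 := by
    rw [h2]
    exact ⟨fun h' => by by_contra hh; push Not at hh; linarith [mul_nonneg hh h1.le],
      fun h' => mul_neg_of_neg_of_pos h' h1⟩
  exact_mod_cast h3

/-- The weight function with a sign. -/
noncomputable def Gk (κ s : ℝ) (x : 𝓞 K) : ℝ := (if Algebra.norm ℤ x < 0 then κ else 1) * G s x

lemma abs_sg_le {κ : ℝ} (hκ : |κ| ≤ 1) (x : 𝓞 K) :
    |(if Algebra.norm ℤ x < 0 then κ else 1 : ℝ)| ≤ 1 := by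
  split_ifs
  · exact hκ
  · simp

lemma abs_Gk_le {κ s : ℝ} (hκ : |κ| ≤ 1) (x : 𝓞 K) : |Gk κ s x| ≤ G s x := by
  rw [Gk, abs_mul, abs_of_nonneg (G_nonneg s x)]
  exact mul_le_of_le_one_left (G_nonneg s x) (abs_sg_le hκ x)

lemma Gk_eq_zero_of_G {κ s : ℝ} {x : 𝓞 K} (h : G s x = 0) : Gk κ s x = 0 := by
  rw [Gk, h, mul_zero]

/-- In the cone, adding a fixed element does not change the sign of the norm. -/
lemma exists_sign_radius (K : Type*) [Field K] [NumberField K] (Y : ℝ) :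
    ∃ R : ℝ, ∀ y : 𝓞 K, ‖emb y‖ ≤ Y → ∀ x : 𝓞 K, x ≠ 0 → phi (emb x) ≠ 0 → R ≤ ‖emb x‖ →
      (Algebra.norm ℤ (x + y) < 0 ↔ Algebra.norm ℤ x < 0) := by
  obtain ⟨c, hc0, hc⟩ := exists_comparable (K := K)
  refine ⟨(Y + 1) / c, fun y hy x hx hphi hR => norm_neg_iff fun w => ?_⟩
  have h1 := hc _ (norm_emb_ne_zero hx) hphi w
  have h2 := normAtPlace_le_norm (emb y) w
  rw [emb, normAtPlace_apply] at h1 h2
  rw [div_le_iff₀ hc0] at hR
  change w (y : K) ≤ ‖emb y‖ at h2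
  change c * ‖emb x‖ ≤ w (x : K) at h1
  linarith

lemma Hb_mono {R R' C : ℝ} (h : R ≤ R') (x : 𝓞 K) : Hb R C x ≤ Hb R' C x := by
  unfold Hb
  gcongr
  split_ifs <;> linarith

lemma exists_diff_le' {κ : ℝ} (hκ : |κ| ≤ 1) (y : 𝓞 K) : ∃ R C : ℝ, 0 ≤ C ∧ ∀ s : ℝ, 1 ≤ s → s ≤ 2 →
    ∀ x : 𝓞 K, |Gk κ s (x + y) - Gk κ s x| ≤ 2 * (Hb R C x + Hb R C (x + y)) := by
  obtain ⟨R, C, hC, h⟩ := exists_diff_le y
  obtain ⟨R', hR'⟩ := exists_sign_radius K ‖emb y‖
  refine ⟨max R R', C, hC, fun s hs1 hs2 x => ?_⟩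
  set R₁ := max R R' with hR₁
  have hnn := Hb_nonneg (R := R₁) hC x
  have hnn' := Hb_nonneg (R := R₁) hC (x + y)
  have hG1 : |Gk κ s x| ≤ 1 := (abs_Gk_le hκ x).trans (G_le_one hs1 x)
  have hG2 : |Gk κ s (x + y)| ≤ 1 := (abs_Gk_le hκ (x + y)).trans (G_le_one hs1 (x + y))
  have hle2 : |Gk κ s (x + y) - Gk κ s x| ≤ 2 := by
    refine (abs_sub _ _).trans ?_
    linarith
  have hmain : |G s (x + y) - G s x| ≤ Hb R₁ C x + Hb R₁ C (x + y) :=
    (h s hs1 hs2 x).trans (add_le_add (Hb_mono (le_max_left _ _) x) (Hb_mono (le_max_left _ _) _))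
  have hsame : (Algebra.norm ℤ (x + y) < 0 ↔ Algebra.norm ℤ x < 0) →
      |Gk κ s (x + y) - Gk κ s x| ≤ 2 * (Hb R₁ C x + Hb R₁ C (x + y)) := by
    intro hiff
    have e : Gk κ s (x + y) - Gk κ s x =
        (if Algebra.norm ℤ x < 0 then κ else 1) * (G s (x + y) - G s x) := by
      unfold Gk
      simp only [hiff]
      ring
    rw [e, abs_mul]
    have := abs_sg_le hκ x
    have h0 := abs_nonneg (G s (x + y) - G s x)
    nlinarith
  by_cases h1 : ‖emb x‖ < R₁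
  · have : 1 ≤ Hb R₁ C x := by
      unfold Hb
      rw [if_pos h1]
      have : 0 ≤ C * ‖emb x‖ ^ (-(finrank ℚ K + 1) : ℝ) := by positivity
      linarith
    linarith
  by_cases h2 : ‖emb (x + y)‖ < R₁
  · have : 1 ≤ Hb R₁ C (x + y) := by
      unfold Hb
      rw [if_pos h2]
      have : 0 ≤ C * ‖emb (x + y)‖ ^ (-(finrank ℚ K + 1) : ℝ) := by positivity
      linarith
    linarith
  by_cases h3 : x ≠ 0 ∧ phi (emb x) ≠ 0
  · exact hsame (hR' y le_rfl x h3.1 h3.2 ((le_max_right _ _).trans (not_lt.mp h1)))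
  by_cases h4 : x + y ≠ 0 ∧ phi (emb (x + y)) ≠ 0
  · have := hR' (-y) (by rw [emb_neg, norm_neg]) (x + y) h4.1 h4.2
      ((le_max_right _ _).trans (not_lt.mp h2))
    rw [add_neg_cancel_right] at this
    exact hsame this.symm
  · have z1 : Gk κ s x = 0 := by
      apply Gk_eq_zero_of_G
      rw [not_and_or, not_not, not_not] at h3
      rcases h3 with h3 | h3
      · rw [h3, G_zero hs1]
      · rw [G, Fs, h3, zero_mul]
    have z2 : Gk κ s (x + y) = 0 := by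
      apply Gk_eq_zero_of_G
      rw [not_and_or, not_not, not_not] at h4
      rcases h4 with h4 | h4
      · rw [h4, G_zero hs1]
      · rw [G, Fs, h4, zero_mul]
    rw [z1, z2, sub_zero, abs_zero]
    linarith

lemma tendsto_G (x : 𝓞 K) : Tendsto (fun s : ℝ => G s x) (𝓝[>] 1) (𝓝 (G 1 x)) := by
  by_cases hx : x = 0
  · subst hx
    rw [G_zero le_rfl]
    refine tendsto_const_nhds.congr' ?_
    filter_upwards [self_mem_nhdsWithin] with s hs
    exact (G_zero (le_of_lt hs)).symm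
  · unfold G Fs
    have hpos : 0 < mixedEmbedding.norm (emb x) := lt_of_lt_of_le one_pos (one_le_norm_emb hx)
    have : ContinuousAt (fun s : ℝ => phi (emb x) * mixedEmbedding.norm (emb x) ^ (-s)) 1 := by
      refine continuousAt_const.mul ?_
      exact (Real.continuousAt_const_rpow hpos.ne').comp continuousAt_neg
    exact this.tendsto.mono_left nhdsWithin_le_nhds

lemma tendsto_Gk (κ : ℝ) (x : 𝓞 K) : Tendsto (fun s : ℝ => Gk κ s x) (𝓝[>] 1) (𝓝 (Gk κ 1 x)) :=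
  (tendsto_G x).const_mul _

lemma summable_Gk {κ s : ℝ} (hκ : |κ| ≤ 1) (hs : 1 < s) : Summable (Gk κ s : 𝓞 K → ℝ) :=
  Summable.of_norm_bounded (g := G s) (summable_G hs) fun x => by
    rw [Real.norm_eq_abs]; exact abs_Gk_le hκ x

lemma eventually_Ioc : ∀ᶠ s in 𝓝[>] (1 : ℝ), 1 < s ∧ s ≤ 2 := by
  filter_upwards [self_mem_nhdsWithin, mem_nhdsWithin_of_mem_nhds (Iic_mem_nhds one_lt_two)]
    with s h1 h2
  exact ⟨h1, h2⟩

/-- The difference of weighted sums over two cosets has a limit at `s = 1`. -/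
lemma exists_tendsto_diff {κ : ℝ} (hκ : |κ| ≤ 1) (J : AddSubgroup (𝓞 K)) (ψ : 𝓞 K → ℂ)
    (hψ : ∀ x, ‖ψ x‖ ≤ 1) (y : 𝓞 K) :
    ∃ l : ℂ, Tendsto (fun s : ℝ => ∑' x : J, ψ x * ((Gk κ s ((x : 𝓞 K) + y) - Gk κ s (x : 𝓞 K) : ℝ) : ℂ))
      (𝓝[>] 1) (𝓝 l) := by
  obtain ⟨R, C, hC, h⟩ := exists_diff_le' hκ y
  have hs1 := summable_Hb K R C
  have hs2 : Summable fun x : 𝓞 K => Hb R C (x + y) :=
    hs1.comp_injective (add_left_injective y)
  refine ⟨_, tendsto_tsum_of_dominated_convergence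
    (g := fun x : J => ψ x * ((Gk κ 1 ((x : 𝓞 K) + y) - Gk κ 1 (x : 𝓞 K) : ℝ) : ℂ))
    (bound := fun x : J => 2 * (Hb R C (x : 𝓞 K) + Hb R C ((x : 𝓞 K) + y)))
    (((hs1.add hs2).mul_left 2).comp_injective Subtype.val_injective)
    (fun x => ?_) ?_⟩
  · refine Tendsto.const_mul _ ?_
    exact (Complex.continuous_ofReal.tendsto _).comp ((tendsto_Gk κ _).sub (tendsto_Gk κ _))
  · filter_upwards [eventually_Ioc] with s hs x
    rw [norm_mul, Complex.norm_real, Real.norm_eq_abs]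
    calc ‖ψ x‖ * |Gk κ s ((x : 𝓞 K) + y) - Gk κ s (x : 𝓞 K)|
        ≤ 1 * |Gk κ s ((x : 𝓞 K) + y) - Gk κ s (x : 𝓞 K)| := by gcongr; exact hψ _
      _ ≤ _ := by rw [one_mul]; exact h s hs.1.le hs.2 _

/-- Comparison of weighted sums over a group and a subgroup of finite index. -/
lemma exists_tendsto_compare {κ : ℝ} (hκ : |κ| ≤ 1) (J J₁ : AddSubgroup (𝓞 K)) (hJ : J₁ ≤ J)
    (hfin : J₁.relIndex J ≠ 0) (ψ : 𝓞 K → ℂ)
    (hψ : ∀ x, ‖ψ x‖ ≤ 1) (R : Set (𝓞 K)) (hR : ∀ x ∈ J, ∃ r ∈ R, r ∈ J ∧ x - r ∈ J₁)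
    (hper : ∀ x ∈ J₁, ∀ r ∈ R, r ∈ J → ψ (x + r) = ψ x) :
    ∃ l : ℂ, Tendsto (fun s : ℝ => ∑' x : J, ψ x * ((Gk κ s (x : 𝓞 K) : ℝ) : ℂ) -
      J₁.relIndex J * ∑' x : J₁, ψ x * ((Gk κ s (x : 𝓞 K) : ℝ) : ℂ)) (𝓝[>] 1) (𝓝 l) := by
  have hfin' : Finite (J ⧸ J₁.addSubgroupOf J) := by
    have : (J₁.addSubgroupOf J).index ≠ 0 := hfin
    have : (J₁.addSubgroupOf J).FiniteIndex := ⟨this⟩
    infer_instance
  have : Fintype (J ⧸ J₁.addSubgroupOf J) := Fintype.ofFinite _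
  have hcard : (Fintype.card (J ⧸ J₁.addSubgroupOf J) : ℂ) = J₁.relIndex J := by
    rw [AddSubgroup.relIndex, AddSubgroup.index, Nat.card_eq_fintype_card]
  have hrep : ∀ q : J ⧸ J₁.addSubgroupOf J, ∃ r : J, (r : 𝓞 K) ∈ R ∧ QuotientAddGroup.mk r = q := by
    intro q
    obtain ⟨x, rfl⟩ := QuotientAddGroup.mk_surjective q
    obtain ⟨r, hr, hrJ, hxr⟩ := hR x x.2
    refine ⟨⟨r, hrJ⟩, hr, ?_⟩
    rw [QuotientAddGroup.eq, AddSubgroup.mem_addSubgroupOf]
    simpa [add_comm, sub_eq_add_neg] using hxr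
  choose rep hrepR hrepq using hrep
  have hbij : Function.Bijective (fun e : (J ⧸ J₁.addSubgroupOf J) × J₁ =>
      (⟨(e.2 : 𝓞 K) + rep e.1, add_mem (hJ e.2.2) (rep e.1).2⟩ : J)) := by
    constructor
    · rintro ⟨q, j⟩ ⟨q', j'⟩ h
      have h0 : (j : 𝓞 K) + rep q = (j' : 𝓞 K) + rep q' := congrArg Subtype.val h
      have hq : q = q' := by
        rw [← hrepq q, ← hrepq q', QuotientAddGroup.eq, AddSubgroup.mem_addSubgroupOf]
        have : ((-rep q + rep q' : J) : 𝓞 K) = (j : 𝓞 K) - j' := by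
          push_cast
          linear_combination -h0
        rw [this]
        exact sub_mem j.2 j'.2
      subst hq
      have := add_right_cancel h0
      rw [Subtype.ext this]
    · intro x
      set q : J ⧸ J₁.addSubgroupOf J := QuotientAddGroup.mk x with hq
      have h1 : QuotientAddGroup.mk (rep q) = q := hrepq q
      rw [hq, QuotientAddGroup.eq, AddSubgroup.mem_addSubgroupOf] at h1
      refine ⟨(q, ⟨-(rep q : 𝓞 K) + x, by simpa using h1⟩), Subtype.ext ?_⟩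
      simp
  choose l hl using fun y : 𝓞 K => exists_tendsto_diff hκ J₁ ψ hψ y
  let e : (J ⧸ J₁.addSubgroupOf J) × J₁ ≃ J := Equiv.ofBijective _ hbij
  refine ⟨∑ q : J ⧸ J₁.addSubgroupOf J, l (rep q), ?_⟩
  refine (tendsto_finsetSum univ fun q _ => hl (rep q)).congr' ?_
  filter_upwards [self_mem_nhdsWithin] with s hs
  have hG : Summable (Gk κ s : 𝓞 K → ℝ) := summable_Gk hκ hs
  have hGψ : ∀ (t : 𝓞 K → 𝓞 K), Function.Injective t → ∀ u : 𝓞 K → 𝓞 K,
      Summable fun x : 𝓞 K => ψ (u x) * ((Gk κ s (t x) : ℝ) : ℂ) := by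
    intro t ht u
    refine Summable.of_norm_bounded (g := fun x => |Gk κ s (t x)|) (hG.abs.comp_injective ht) ?_
    intro x
    rw [norm_mul, Complex.norm_real, Real.norm_eq_abs]
    exact mul_le_of_le_one_left (abs_nonneg _) (hψ _)
  have h3 : ∑' x : J, ψ x * ((Gk κ s (x : 𝓞 K) : ℝ) : ℂ) =
      ∑ q : J ⧸ J₁.addSubgroupOf J, ∑' j : J₁, ψ j * ((Gk κ s ((j : 𝓞 K) + (rep q : 𝓞 K)) : ℝ) : ℂ) := by
    rw [← e.tsum_eq, Summable.tsum_prod]
    · rw [tsum_fintype]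
      refine sum_congr rfl fun q _ => tsum_congr fun j => ?_
      change ψ ((j : 𝓞 K) + (rep q : 𝓞 K)) * _ = _
      rw [hper j j.2 _ (hrepR q) (rep q).2]
      rfl
    · have := (hGψ id Function.injective_id id).comp_injective
        (Subtype.val_injective.comp e.injective)
      exact this
  have h4 : (J₁.relIndex J : ℂ) * ∑' x : J₁, ψ x * ((Gk κ s (x : 𝓞 K) : ℝ) : ℂ)
      = ∑ q : J ⧸ J₁.addSubgroupOf J, ∑' j : J₁, ψ j * ((Gk κ s (j : 𝓞 K) : ℝ) : ℂ) := by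
    rw [sum_const, card_univ, nsmul_eq_mul, hcard]
  rw [h3, h4, ← sum_sub_distrib]
  refine sum_congr rfl fun q _ => ?_
  rw [← Summable.tsum_sub]
  · refine tsum_congr fun j => ?_
    push_cast
    ring
  · exact (hGψ (fun x => x + (rep q : 𝓞 K)) (add_left_injective _) id).comp_injective
      (Subtype.val_injective (p := fun x => x ∈ J₁))
  · exact (hGψ id Function.injective_id id).comp_injective
      (Subtype.val_injective (p := fun x => x ∈ J₁))

end Fermat.Agent.FrobDensity
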