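import Mathlib
import Fermat.Agent.Frob.LSum

set_option autoImplicit false
set_option linter.unusedSectionVars false

open Finset NumberField NumberField.mixedEmbedding NumberField.InfinitePlace NumberField.Units
  Module nonZeroDivisors Filter Topology

open scoped Classical

namespace Fermat.Agent.FrobDensity

open Fermat.Agent.ClassL

variable {K : Type*} [Field K] [NumberField K]

/-- Norms of elements congruent modulo `M` are congruent modulo `M`. -/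
lemma norm_modEq (M : ℕ) (x z : 𝓞 K) :
    (M : ℤ) ∣ Algebra.norm ℤ (x + (M : 𝓞 K) * z) - Algebra.norm ℤ x := by
  let b := RingOfIntegers.basis K
  rw [← ZMod.intCast_zmod_eq_zero_iff_dvd, Int.cast_sub, sub_eq_zero]
  rw [Algebra.norm_eq_matrix_det b, Algebra.norm_eq_matrix_det b]
  change (Int.castRingHom (ZMod M)) _ = (Int.castRingHom (ZMod M)) _
  rw [RingHom.map_det, RingHom.map_det]
  congr 1
  have : (M : 𝓞 K) * z = (M : ℤ) • z := by simp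
  rw [this, map_add, map_smul, map_add]
  ext i j
  rw [Matrix.add_apply, RingHom.mapMatrix_apply, RingHom.mapMatrix_apply, Matrix.map_apply,
    Matrix.map_apply, Matrix.smul_apply, smul_eq_mul, map_mul]
  simp

/-- Weighted sum over an ideal. -/
noncomputable def AJ {m : ℕ} (χ : DirichletCharacter ℂ m) (J : (Ideal (𝓞 K))⁰) (x : 𝓞 K) : ℂ :=
  χ ((Ideal.absNorm (Ideal.span {x}) / Ideal.absNorm (J : Ideal (𝓞 K)) : ℕ) : ZMod m)

lemma norm_AJ_le {m : ℕ} (χ : DirichletCharacter ℂ m) (J : (Ideal (𝓞 K))⁰) (x : 𝓞 K) :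
    ‖AJ χ J x‖ ≤ 1 := DirichletCharacter.norm_le_one χ _

lemma AJ_unit {m : ℕ} (χ : DirichletCharacter ℂ m) (J : (Ideal (𝓞 K))⁰) (u : (𝓞 K)ˣ) (x : 𝓞 K) :
    AJ χ J ((u : 𝓞 K) * x) = AJ χ J x := by
  unfold AJ
  rw [Ideal.span_singleton_mul_left_unit u.isUnit]

/-- `L`-series of the ideals in a class. -/
noncomputable def LC {m : ℕ} (χ : DirichletCharacter ℂ m) (C : ClassGroup (𝓞 K)) (s : ℝ) : ℂ :=
  ∑' I : IC C, χ ((Ideal.absNorm (I.1 : Ideal (𝓞 K)) : ℕ) : ZMod m) * (nrm s I.1 : ℂ)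

lemma tsum_AJ_eq_PJ {m : ℕ} (χ : DirichletCharacter ℂ m) {s : ℝ} (hs : 1 < s) (J : (Ideal (𝓞 K))⁰) :
    ∑' x : (J : Ideal (𝓞 K)), AJ χ J x * (G s (x : 𝓞 K) : ℂ) =
      ∑' I : PJ J, AJ χ J (gen I) * ((torsionOrder K * nrm s I.1 : ℝ) : ℂ) := by
  have hG := summable_G (K := K) hs
  have hGc : Summable fun x : 𝓞 K => AJ χ J x * (G s x : ℂ) :=
    Summable.of_norm_bounded (g := G s) hG fun x => by
      rw [norm_mul, Complex.norm_real, Real.norm_eq_abs, abs_of_nonneg (G_nonneg s x)]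
      exact mul_le_of_le_one_left (G_nonneg s x) (norm_AJ_le _ _ _)
  have h1 : ∑' x : (J : Ideal (𝓞 K)), AJ χ J x * (G s (x : 𝓞 K) : ℂ)
      = ∑' x : {x : 𝓞 K // x ∈ (J : Ideal (𝓞 K)) ∧ x ≠ 0}, AJ χ J x * (G s (x : 𝓞 K) : ℂ) := by
    have e1 := tsum_subtype ((J : Ideal (𝓞 K)) : Set (𝓞 K)) (fun x => AJ χ J x * (G s x : ℂ))
    have e2 := tsum_subtype {x : 𝓞 K | x ∈ (J : Ideal (𝓞 K)) ∧ x ≠ 0}
      (fun x => AJ χ J x * (G s x : ℂ))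
    refine e1.trans (Eq.trans ?_ e2.symm)
    refine tsum_congr fun x => ?_
    by_cases hx : x = 0
    · simp [Set.indicator, hx, G_zero hs.le]
    · simp [Set.indicator, hx]
  let e : PJ J × (𝓞 K)ˣ ≃ {x : 𝓞 K // x ∈ (J : Ideal (𝓞 K)) ∧ x ≠ 0} :=
    Equiv.ofBijective _ (elt_bijective J)
  rw [h1, ← e.tsum_eq, Summable.tsum_prod]
  · refine tsum_congr fun I => ?_
    have h2 : ∀ u : (𝓞 K)ˣ, AJ χ J (e (I, u) : 𝓞 K) * (G s (e (I, u) : 𝓞 K) : ℂ) =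
        AJ χ J (gen I) * (G s ((u : 𝓞 K) * gen I) : ℂ) := by
      intro u
      change AJ χ J ((u : 𝓞 K) * gen I) * (G s ((u : 𝓞 K) * gen I) : ℂ) = _
      rw [AJ_unit]
    simp_rw [h2]
    rw [tsum_mul_left, ← Complex.ofReal_tsum, (hasSum_G_unit s (gen_ne_zero I)).tsum_eq, span_gen I]
    rfl
  · exact hGc.comp_injective (Subtype.val_injective.comp e.injective)

lemma tsum_AJ_eq {m : ℕ} (χ : DirichletCharacter ℂ m) {s : ℝ} (hs : 1 < s)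
    {C : ClassGroup (𝓞 K)} {J : (Ideal (𝓞 K))⁰} (hJ : ClassGroup.mk0 J = C⁻¹) :
    ∑' x : (J : Ideal (𝓞 K)), AJ χ J x * (G s (x : 𝓞 K) : ℂ) =
      (torsionOrder K * nrm s J : ℝ) * LC χ C s := by
  rw [tsum_AJ_eq_PJ χ hs J]
  let e : IC C ≃ PJ J := Equiv.ofBijective _ (mulJ_bijective hJ)
  rw [← e.tsum_eq, LC, ← tsum_mul_left]
  refine tsum_congr fun I => ?_
  have h1 : AJ χ J (gen (e I)) = χ ((Ideal.absNorm (I.1 : Ideal (𝓞 K)) : ℕ) : ZMod m) := by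
    unfold AJ
    rw [span_gen]
    change χ ((Ideal.absNorm ((J * I.1 : (Ideal (𝓞 K))⁰) : Ideal (𝓞 K)) /
      Ideal.absNorm (J : Ideal (𝓞 K)) : ℕ) : ZMod m) = _
    rw [Submonoid.coe_mul, map_mul, Nat.mul_div_cancel_left _
      (Ideal.absNorm_pos_of_nonZeroDivisors J)]
  have h2 : nrm s (e I).1 = nrm s J * nrm s I.1 := nrm_mul s J I.1
  rw [h1, h2]
  push_cast
  ring

/-- The signed version. -/
noncomputable def BJ {m : ℕ} (χ : DirichletCharacter ℂ m) (J : (Ideal (𝓞 K))⁰) (x : 𝓞 K) : ℂ :=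
  χ ((Algebra.norm ℤ x / (Ideal.absNorm (J : Ideal (𝓞 K)) : ℤ) : ℤ) : ZMod m)

lemma norm_BJ_le {m : ℕ} (χ : DirichletCharacter ℂ m) (J : (Ideal (𝓞 K))⁰) (x : 𝓞 K) :
    ‖BJ χ J x‖ ≤ 1 := DirichletCharacter.norm_le_one χ _

lemma absNorm_dvd_norm {J : (Ideal (𝓞 K))⁰} {x : 𝓞 K} (hx : x ∈ (J : Ideal (𝓞 K))) :
    (Ideal.absNorm (J : Ideal (𝓞 K)) : ℤ) ∣ Algebra.norm ℤ x := by
  have h1 : Ideal.absNorm (J : Ideal (𝓞 K)) ∣ Ideal.absNorm (Ideal.span {x}) :=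
    Ideal.absNorm_dvd_absNorm_of_le ((Ideal.span_singleton_le_iff_mem _).mpr hx)
  rw [Ideal.absNorm_span_singleton] at h1
  exact Int.natCast_dvd.mpr h1

lemma AJ_eq_BJ {m : ℕ} (χ : DirichletCharacter ℂ m) {J : (Ideal (𝓞 K))⁰} {x : 𝓞 K}
    (hx : x ∈ (J : Ideal (𝓞 K))) {κ : ℝ} (hκ : χ (-1) = κ) :
    AJ χ J x = (if Algebra.norm ℤ x < 0 then (κ : ℂ) else 1) * BJ χ J x := by
  obtain ⟨k, hk⟩ := absNorm_dvd_norm hx
  have hJ0 : (0 : ℤ) < (Ideal.absNorm (J : Ideal (𝓞 K)) : ℤ) := by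
    exact_mod_cast Ideal.absNorm_pos_of_nonZeroDivisors J
  have h1 : Ideal.absNorm (Ideal.span {x}) / Ideal.absNorm (J : Ideal (𝓞 K)) = k.natAbs := by
    rw [Ideal.absNorm_span_singleton, hk, Int.natAbs_mul, Int.natAbs_natCast,
      Nat.mul_div_cancel_left _ (by exact_mod_cast hJ0)]
  have h2 : Algebra.norm ℤ x / (Ideal.absNorm (J : Ideal (𝓞 K)) : ℤ) = k := by
    rw [hk, Int.mul_ediv_cancel_left _ hJ0.ne']
  rw [AJ, BJ, h1, h2]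
  split_ifs with h
  · have hk0 : k < 0 := by
      rw [hk] at h
      exact neg_of_mul_neg_right h hJ0.le
    rw [← hκ, ← map_mul]
    congr 1
    have : (k.natAbs : ℤ) = -k := Int.ofNat_natAbs_of_nonpos hk0.le
    have h3 : ((k.natAbs : ℕ) : ZMod m) = ((k.natAbs : ℤ) : ZMod m) := by simp
    rw [h3, this]
    simp
  · have hk0 : 0 ≤ k := by
      rw [hk] at h
      by_contra hc
      push Not at hc
      exact h (mul_neg_of_pos_of_neg hJ0 hc)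
    rw [one_mul]
    congr 1
    have : (k.natAbs : ℤ) = k := Int.natAbs_of_nonneg hk0
    have h3 : ((k.natAbs : ℕ) : ZMod m) = ((k.natAbs : ℤ) : ZMod m) := by simp
    rw [h3, this]

lemma AJ_mul_G {m : ℕ} (χ : DirichletCharacter ℂ m) {J : (Ideal (𝓞 K))⁰} {x : 𝓞 K}
    (hx : x ∈ (J : Ideal (𝓞 K))) {κ : ℝ} (hκ : χ (-1) = κ) (s : ℝ) :
    AJ χ J x * (G s x : ℂ) = BJ χ J x * (Gk κ s x : ℂ) := by
  rw [AJ_eq_BJ χ hx hκ, Gk]
  split_ifs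
  · push_cast
    ring
  · push_cast
    ring

lemma BJ_add {m : ℕ} (χ : DirichletCharacter ℂ m) {J : (Ideal (𝓞 K))⁰} {x z : 𝓞 K}
    (hx : x ∈ (J : Ideal (𝓞 K))) (hz : z ∈ (J : Ideal (𝓞 K))) :
    BJ χ J (x + ((m * Ideal.absNorm (J : Ideal (𝓞 K)) : ℕ) : 𝓞 K) * z) = BJ χ J x := by
  have hJ0 : (0 : ℤ) < (Ideal.absNorm (J : Ideal (𝓞 K)) : ℤ) := by
    exact_mod_cast Ideal.absNorm_pos_of_nonZeroDivisors J
  obtain ⟨k, hk⟩ := absNorm_dvd_norm hx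
  obtain ⟨k', hk'⟩ := absNorm_dvd_norm (J := J)
    (x := x + ((m * Ideal.absNorm (J : Ideal (𝓞 K)) : ℕ) : 𝓞 K) * z)
    (add_mem hx (Ideal.mul_mem_left _ _ hz))
  have h1 := norm_modEq (m * Ideal.absNorm (J : Ideal (𝓞 K))) x z
  rw [BJ, BJ]
  congr 1
  rw [hk, hk'] at h1 ⊢
  rw [Int.mul_ediv_cancel_left _ hJ0.ne', Int.mul_ediv_cancel_left _ hJ0.ne']
  rw [← sub_eq_zero, ← Int.cast_sub, ZMod.intCast_zmod_eq_zero_iff_dvd]
  rw [← mul_sub, Nat.cast_mul, mul_comm (m : ℤ)] at h1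
  exact Int.dvd_of_mul_dvd_mul_left hJ0.ne' h1

lemma mul_coe_le (J q : (Ideal (𝓞 K))⁰) :
    ((J * q : (Ideal (𝓞 K))⁰) : Ideal (𝓞 K)) ≤ (J : Ideal (𝓞 K)) := by
  rw [Submonoid.coe_mul]
  exact Ideal.mul_le_left

lemma relIndex_mul (J q : (Ideal (𝓞 K))⁰) :
    ((J * q : (Ideal (𝓞 K))⁰) : Ideal (𝓞 K)).toAddSubgroup.relIndex
      (J : Ideal (𝓞 K)).toAddSubgroup = Ideal.absNorm (q : Ideal (𝓞 K)) := by
  have hle' : ((J * q : (Ideal (𝓞 K))⁰) : Ideal (𝓞 K)) ≤ (J : Ideal (𝓞 K)) := mul_coe_le J q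
  have hle : ((J * q : (Ideal (𝓞 K))⁰) : Ideal (𝓞 K)).toAddSubgroup ≤
      (J : Ideal (𝓞 K)).toAddSubgroup := fun x hx => hle' hx
  have hidx : ∀ I : Ideal (𝓞 K), I.toAddSubgroup.index = Ideal.absNorm I := by
    intro I
    rw [Ideal.absNorm_apply, Submodule.cardQuot_apply]
    rfl
  have h := AddSubgroup.relIndex_mul_index hle
  rw [hidx, hidx, Submonoid.coe_mul, map_mul, mul_comm] at h
  exact Nat.eq_of_mul_eq_mul_left (Ideal.absNorm_pos_of_nonZeroDivisors J) h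

lemma exists_kappa {m : ℕ} (χ : DirichletCharacter ℂ m) :
    ∃ κ : ℝ, |κ| ≤ 1 ∧ χ (-1) = κ := by
  rcases χ.even_or_odd with h | h
  · exact ⟨1, by simp, by rw [h]; simp⟩
  · exact ⟨-1, by simp, by rw [h]; simp⟩

/-- Comparison of the sums over `J` and `J * q`. -/
lemma exists_tendsto_AJ {m : ℕ} (χ : DirichletCharacter ℂ m) (J q : (Ideal (𝓞 K))⁰)
    (hq : (Ideal.absNorm (q : Ideal (𝓞 K))).Coprime (m * Ideal.absNorm (J : Ideal (𝓞 K)))) :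
    ∃ l : ℂ, Tendsto (fun s : ℝ => ∑' x : (J : Ideal (𝓞 K)), AJ χ J x * (G s (x : 𝓞 K) : ℂ) -
      Ideal.absNorm (q : Ideal (𝓞 K)) *
        ∑' x : ((J * q : (Ideal (𝓞 K))⁰) : Ideal (𝓞 K)), AJ χ J x * (G s (x : 𝓞 K) : ℂ))
      (𝓝[>] 1) (𝓝 l) := by
  obtain ⟨κ, hκ1, hκ⟩ := exists_kappa χ
  set M := m * Ideal.absNorm (J : Ideal (𝓞 K)) with hM
  have hle : ((J * q : (Ideal (𝓞 K))⁰) : Ideal (𝓞 K)) ≤ (J : Ideal (𝓞 K)) := mul_coe_le J q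
  obtain ⟨l, hl⟩ := exists_tendsto_compare hκ1 (J : Ideal (𝓞 K)).toAddSubgroup
    ((J * q : (Ideal (𝓞 K))⁰) : Ideal (𝓞 K)).toAddSubgroup
    (fun x hx => hle hx)
    (by rw [relIndex_mul]; exact (Ideal.absNorm_pos_of_nonZeroDivisors q).ne')
    (BJ χ J) (norm_BJ_le χ J) {r | ∃ z ∈ (J : Ideal (𝓞 K)), r = (M : 𝓞 K) * z}
    (by
      intro x hx
      have hx' : x ∈ (J : Ideal (𝓞 K)) := hx
      have hb := Nat.isCoprime_iff_coprime.mpr hq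
      obtain ⟨a, b, hab⟩ := hb
      refine ⟨(M : 𝓞 K) * ((b : 𝓞 K) * x), ⟨(b : 𝓞 K) * x, Ideal.mul_mem_left _ _ hx', rfl⟩,
        Ideal.mul_mem_left _ _ (Ideal.mul_mem_left _ _ hx'), ?_⟩
      have hab' : (a : 𝓞 K) * (Ideal.absNorm (q : Ideal (𝓞 K)) : 𝓞 K) + (b : 𝓞 K) * (M : 𝓞 K) = 1 := by
        exact_mod_cast congrArg (fun t : ℤ => (t : 𝓞 K)) hab
      have e : x - (M : 𝓞 K) * ((b : 𝓞 K) * x) =
          x * ((a : 𝓞 K) * (Ideal.absNorm (q : Ideal (𝓞 K)) : 𝓞 K)) := by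
        linear_combination (-x) * hab'
      rw [e]
      change _ ∈ ((J * q : (Ideal (𝓞 K))⁰) : Ideal (𝓞 K))
      rw [Submonoid.coe_mul]
      exact Ideal.mul_mem_mul hx' (Ideal.mul_mem_left _ _ (Ideal.absNorm_mem _)))
    (by
      rintro x hx r ⟨z, hz, rfl⟩ -
      exact BJ_add χ (hle hx) hz)
  refine ⟨l, hl.congr fun s => ?_⟩
  rw [relIndex_mul]
  congr 1
  · exact tsum_congr fun x => (AJ_mul_G χ x.2 hκ s).symm
  · congr 1
    exact tsum_congr fun x => (AJ_mul_G χ (hle x.2) hκ s).symm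

lemma AJ_mul {m : ℕ} (χ : DirichletCharacter ℂ m) (J q : (Ideal (𝓞 K))⁰) {x : 𝓞 K}
    (hx : x ∈ ((J * q : (Ideal (𝓞 K))⁰) : Ideal (𝓞 K))) :
    AJ χ J x = χ ((Ideal.absNorm (q : Ideal (𝓞 K)) : ℕ) : ZMod m) * AJ χ (J * q) x := by
  have h1 : Ideal.absNorm ((J * q : (Ideal (𝓞 K))⁰) : Ideal (𝓞 K)) ∣ Ideal.absNorm (Ideal.span {x}) :=
    Ideal.absNorm_dvd_absNorm_of_le ((Ideal.span_singleton_le_iff_mem _).mpr hx)
  rw [Submonoid.coe_mul, map_mul] at h1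
  obtain ⟨k, hk⟩ := h1
  have hJ := Ideal.absNorm_pos_of_nonZeroDivisors J
  have hq := Ideal.absNorm_pos_of_nonZeroDivisors q
  rw [AJ, AJ, hk, Submonoid.coe_mul, map_mul, Nat.mul_div_cancel_left _ (Nat.mul_pos hJ hq),
    mul_assoc, Nat.mul_div_cancel_left _ hJ, Nat.cast_mul, map_mul]

lemma tendsto_nrm (J : (Ideal (𝓞 K))⁰) : Tendsto (fun s : ℝ => nrm s J) (𝓝[>] 1) (𝓝 (nrm 1 J)) := by
  have hpos : (0 : ℝ) < (Ideal.absNorm (J : Ideal (𝓞 K)) : ℝ) := by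
    exact_mod_cast Ideal.absNorm_pos_of_nonZeroDivisors J
  have : ContinuousAt (fun s : ℝ => (Ideal.absNorm (J : Ideal (𝓞 K)) : ℝ) ^ (-s)) 1 :=
    (Real.continuousAt_const_rpow hpos.ne').comp continuousAt_neg
  exact this.tendsto.mono_left nhdsWithin_le_nhds

/-- The partial `L`-series of different classes are proportional modulo functions with a limit. -/
lemma exists_tendsto_LC {m : ℕ} (χ : DirichletCharacter ℂ m) (J q : (Ideal (𝓞 K))⁰)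
    (hq : (Ideal.absNorm (q : Ideal (𝓞 K))).Coprime (m * Ideal.absNorm (J : Ideal (𝓞 K))))
    {C : ClassGroup (𝓞 K)} (hJ : ClassGroup.mk0 J = C⁻¹) :
    ∃ l : ℂ, Tendsto (fun s : ℝ => LC χ C s -
      ((Ideal.absNorm (q : Ideal (𝓞 K)) * nrm s q : ℝ) : ℂ) *
        χ ((Ideal.absNorm (q : Ideal (𝓞 K)) : ℕ) : ZMod m) * LC χ (C * (ClassGroup.mk0 q)⁻¹) s)
      (𝓝[>] 1) (𝓝 l) := by
  obtain ⟨l, hl⟩ := exists_tendsto_AJ χ J q hq
  have hJq : ClassGroup.mk0 (J * q) = (C * (ClassGroup.mk0 q)⁻¹)⁻¹ := by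
    rw [map_mul, hJ, mul_inv_rev, inv_inv, mul_comm]
  have hne : ((torsionOrder K * nrm 1 J : ℝ) : ℂ) ≠ 0 := by
    exact_mod_cast (mul_pos torsionOrder_pos' (nrm_pos 1 J)).ne'
  have ht : Tendsto (fun s : ℝ => ((torsionOrder K * nrm s J : ℝ) : ℂ)) (𝓝[>] 1)
      (𝓝 ((torsionOrder K * nrm 1 J : ℝ) : ℂ)) :=
    (Complex.continuous_ofReal.tendsto _).comp ((tendsto_nrm J).const_mul _)
  refine ⟨l / ((torsionOrder K * nrm 1 J : ℝ) : ℂ), (hl.div ht hne).congr' ?_⟩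
  filter_upwards [self_mem_nhdsWithin] with s hs
  have hs1 : (1 : ℝ) < s := hs
  have hne' : ((torsionOrder K * nrm s J : ℝ) : ℂ) ≠ 0 := by
    exact_mod_cast (mul_pos torsionOrder_pos' (nrm_pos s J)).ne'
  have e1 := tsum_AJ_eq χ hs1 hJ
  have e2 := tsum_AJ_eq χ hs1 hJq
  have e3 : ∑' x : ((J * q : (Ideal (𝓞 K))⁰) : Ideal (𝓞 K)), AJ χ J x * (G s (x : 𝓞 K) : ℂ) =
      χ ((Ideal.absNorm (q : Ideal (𝓞 K)) : ℕ) : ZMod m) *
      ∑' x : ((J * q : (Ideal (𝓞 K))⁰) : Ideal (𝓞 K)), AJ χ (J * q) x * (G s (x : 𝓞 K) : ℂ) := by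
    rw [← tsum_mul_left]
    refine tsum_congr fun x => ?_
    rw [AJ_mul χ J q x.2, mul_assoc]
  rw [Pi.div_apply, e1, e3, e2, nrm_mul]
  rw [div_eq_iff hne']
  push_cast
  ring

variable (K) in
/-- The `L`-series of `χ ∘ N`. -/
noncomputable def LN {m : ℕ} (χ : DirichletCharacter ℂ m) (s : ℝ) : ℂ :=
  ∑' I : (Ideal (𝓞 K))⁰, χ ((Ideal.absNorm (I : Ideal (𝓞 K)) : ℕ) : ZMod m) * (nrm s I : ℂ)

lemma summable_LN {m : ℕ} (χ : DirichletCharacter ℂ m) {s : ℝ} (hs : 1 < s) :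
    Summable fun I : (Ideal (𝓞 K))⁰ =>
      χ ((Ideal.absNorm (I : Ideal (𝓞 K)) : ℕ) : ZMod m) * (nrm s I : ℂ) :=
  Summable.of_norm_bounded (g := fun I => nrm s I) (summable_nrm hs) fun I => by
    rw [norm_mul, Complex.norm_real, Real.norm_eq_abs, abs_of_pos (nrm_pos s I)]
    exact mul_le_of_le_one_left (nrm_pos s I).le (DirichletCharacter.norm_le_one χ _)

lemma LN_eq_sum {m : ℕ} (χ : DirichletCharacter ℂ m) {s : ℝ} (hs : 1 < s) :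
    LN K χ s = ∑ C : ClassGroup (𝓞 K), LC χ C s := by
  let e : (Σ C : ClassGroup (𝓞 K), IC C) ≃ (Ideal (𝓞 K))⁰ :=
    Equiv.sigmaFiberEquiv (fun I : (Ideal (𝓞 K))⁰ => ClassGroup.mk0 I)
  have hsum' := (e.summable_iff).mpr (summable_LN χ hs)
  rw [LN, ← e.tsum_eq]
  refine (Summable.tsum_sigma hsum').trans ?_
  rw [tsum_fintype]
  refine sum_congr rfl fun C _ => ?_
  rfl

/-- Existence of the limit of `L(s, χ ∘ N)` at `s = 1`. -/
theorem exists_tendsto_LN {m : ℕ} (hm : m ≠ 0) (χ : DirichletCharacter ℂ m) :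
    ∃ D : ℕ, D ≠ 0 ∧ ∀ q : (Ideal (𝓞 K))⁰, (Ideal.absNorm (q : Ideal (𝓞 K))).Coprime D →
      χ ((Ideal.absNorm (q : Ideal (𝓞 K)) : ℕ) : ZMod m) ≠ 1 →
      ∃ l : ℂ, Tendsto (LN K χ) (𝓝[>] 1) (𝓝 l) := by
  choose J hJ using fun C : ClassGroup (𝓞 K) => ClassGroup.mk0_surjective C⁻¹
  refine ⟨∏ C, m * Ideal.absNorm (J C : Ideal (𝓞 K)), prod_ne_zero_iff.mpr fun C _ =>
    mul_ne_zero hm (Ideal.absNorm_pos_of_nonZeroDivisors (J C)).ne', fun q hq hχ => ?_⟩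
  have hq' : ∀ C, (Ideal.absNorm (q : Ideal (𝓞 K))).Coprime
      (m * Ideal.absNorm (J C : Ideal (𝓞 K))) :=
    fun C => Nat.Coprime.coprime_dvd_right
      (dvd_prod_of_mem (fun C => m * Ideal.absNorm (J C : Ideal (𝓞 K))) (mem_univ C)) hq
  choose l hl using fun C => exists_tendsto_LC χ (J C) q (hq' C) (hJ C)
  set c := χ ((Ideal.absNorm (q : Ideal (𝓞 K)) : ℕ) : ZMod m) with hc
  have h1 : Tendsto (fun s : ℝ => (1 - ((Ideal.absNorm (q : Ideal (𝓞 K)) * nrm s q : ℝ) : ℂ) * c) *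
      LN K χ s) (𝓝[>] 1) (𝓝 (∑ C, l C)) := by
    refine (tendsto_finsetSum univ fun C _ => hl C).congr' ?_
    filter_upwards [self_mem_nhdsWithin] with s hs
    rw [sum_sub_distrib, ← mul_sum, sub_mul, one_mul]
    have e1 := LN_eq_sum (K := K) χ hs
    have e2 : ∑ C, LC χ (C * (ClassGroup.mk0 q)⁻¹) s = ∑ C, LC χ C s :=
      Fintype.sum_equiv (Equiv.mulRight (ClassGroup.mk0 q)⁻¹) _ _ fun C => rfl
    rw [e2, e1]
  have h2 : Tendsto (fun s : ℝ => 1 - ((Ideal.absNorm (q : Ideal (𝓞 K)) * nrm s q : ℝ) : ℂ) * c)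
      (𝓝[>] 1) (𝓝 (1 - c)) := by
    have hpos : (0 : ℝ) < (Ideal.absNorm (q : Ideal (𝓞 K)) : ℝ) := by
      exact_mod_cast Ideal.absNorm_pos_of_nonZeroDivisors q
    have h3 : ((Ideal.absNorm (q : Ideal (𝓞 K)) : ℝ) * nrm 1 q : ℝ) = 1 := by
      rw [nrm, Real.rpow_neg_one, mul_inv_cancel₀ hpos.ne']
    have h4 : Tendsto (fun s : ℝ => ((Ideal.absNorm (q : Ideal (𝓞 K)) * nrm s q : ℝ) : ℂ))
        (𝓝[>] 1) (𝓝 1) := by
      have := (Complex.continuous_ofReal.tendsto _).comp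
        ((tendsto_nrm q).const_mul (Ideal.absNorm (q : Ideal (𝓞 K)) : ℝ))
      rw [h3, Complex.ofReal_one] at this
      exact this
    simpa using (h4.mul_const c).const_sub 1
  have hne : (1 : ℂ) - c ≠ 0 := sub_ne_zero.mpr (Ne.symm hχ)
  refine ⟨(∑ C, l C) / (1 - c), (h1.div h2 hne).congr' ?_⟩
  filter_upwards [h2.eventually_ne hne] with s hs
  rw [Pi.div_apply, mul_comm, mul_div_assoc, div_self hs, mul_one]

end Fermat.Agent.FrobDensity
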