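import Mathlib
import Fermat.Agent.Frob.LIdeal
import Fermat.Agent.Frob.DensityAnalytic

set_option autoImplicit false
set_option linter.unusedSectionVars false

open Finset NumberField Module nonZeroDivisors Filter Topology

open scoped Classical

namespace Fermat.Agent.FrobDensity

open Fermat.Agent.ClassL (nrm nrm_pos)

variable {K : Type*} [Field K] [NumberField K] {m : ℕ}

variable (K) in
/-- The `n`-th term of `L(s, χ ∘ N)`. -/
noncomputable def cterm (χ : DirichletCharacter ℂ m) (s : ℝ) (n : ℕ) : ℂ :=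
  χ (n : ZMod m) * (zterm K s n : ℂ)

lemma norm_cterm_le (χ : DirichletCharacter ℂ m) (s : ℝ) (n : ℕ) :
    ‖cterm K χ s n‖ ≤ zterm K s n := by
  rw [cterm, norm_mul, Complex.norm_real, Real.norm_eq_abs, abs_of_nonneg (zterm_nonneg _ _)]
  exact mul_le_of_le_one_left (zterm_nonneg _ _) (DirichletCharacter.norm_le_one χ _)

lemma summable_cterm (χ : DirichletCharacter ℂ m) {s : ℝ} (hs : 1 < s) :
    Summable (cterm K χ s) :=
  Summable.of_norm_bounded (g := zterm K s) (summable_zterm hs) (norm_cterm_le χ s)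

lemma summable_norm_cterm (χ : DirichletCharacter ℂ m) {s : ℝ} (hs : 1 < s) :
    Summable (fun n => ‖cterm K χ s n‖) :=
  Summable.of_nonneg_of_le (fun _ => norm_nonneg _) (norm_cterm_le χ s) (summable_zterm hs)

lemma cterm_zero (χ : DirichletCharacter ℂ m) {s : ℝ} (hs : 1 < s) : cterm K χ s 0 = 0 := by
  rw [cterm, zterm_zero hs, Complex.ofReal_zero, mul_zero]

lemma cterm_one (χ : DirichletCharacter ℂ m) {s : ℝ} : cterm K χ s 1 = 1 := by
  rw [cterm, zterm_one]; simp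

lemma cterm_mul (χ : DirichletCharacter ℂ m) {s : ℝ} {a b : ℕ} (h : a.Coprime b) :
    cterm K χ s (a * b) = cterm K χ s a * cterm K χ s b := by
  rw [cterm, cterm, cterm, zterm_mul h, Nat.cast_mul, map_mul]
  push_cast
  ring

/-- Comparison of the sum over ideals and the sum over integers. -/
lemma LN_eq_tsum (χ : DirichletCharacter ℂ m) {s : ℝ} (hs : 1 < s) :
    LN K χ s = ∑' n, cterm K χ s n := by
  have hfib : ∀ n : ℕ, Finite {I : (Ideal (𝓞 K))⁰ // Ideal.absNorm (I : Ideal (𝓞 K)) = n} := by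
    intro n
    have := (Ideal.finite_setOfPred_absNorm_eq (S := 𝓞 K) n).to_subtype
    exact Finite.of_injective (fun I : {I : (Ideal (𝓞 K))⁰ // Ideal.absNorm (I : Ideal (𝓞 K)) = n} =>
      (⟨I.1.1, I.2⟩ : {I : Ideal (𝓞 K) | Ideal.absNorm I = n})) (fun I J h => by
        have h1 := congrArg (fun x => x.1) h
        apply Subtype.ext; apply Subtype.ext; exact h1)
  let e : (Σ n : ℕ, {I : (Ideal (𝓞 K))⁰ // Ideal.absNorm (I : Ideal (𝓞 K)) = n}) ≃ (Ideal (𝓞 K))⁰ :=
    Equiv.sigmaFiberEquiv (fun I : (Ideal (𝓞 K))⁰ => Ideal.absNorm (I : Ideal (𝓞 K)))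
  have hsum := (e.summable_iff).mpr (summable_LN (K := K) χ hs)
  rw [LN, ← e.tsum_eq]
  refine (Summable.tsum_sigma hsum).trans ?_
  refine tsum_congr fun n => ?_
  have h1 : ∀ c : {I : (Ideal (𝓞 K))⁰ // Ideal.absNorm (I : Ideal (𝓞 K)) = n},
      ((fun I : (Ideal (𝓞 K))⁰ => χ ((Ideal.absNorm (I : Ideal (𝓞 K)) : ℕ) : ZMod m) *
        (nrm s I : ℂ)) ∘ e) ⟨n, c⟩ = χ (n : ZMod m) * (((n : ℝ) ^ (-s) : ℝ) : ℂ) := by
    intro c
    change χ ((Ideal.absNorm (c.1 : Ideal (𝓞 K)) : ℕ) : ZMod m) *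
      (((Ideal.absNorm (c.1 : Ideal (𝓞 K)) : ℝ) ^ (-s) : ℝ) : ℂ) = _
    rw [c.2]
  have := hfib n
  have : Fintype {I : (Ideal (𝓞 K))⁰ // Ideal.absNorm (I : Ideal (𝓞 K)) = n} := Fintype.ofFinite _
  rw [tsum_congr h1, tsum_fintype, sum_const, card_univ, nsmul_eq_mul, cterm, zterm]
  rcases Nat.eq_zero_or_pos n with rfl | hn
  · have hz : ((0 : ℕ) : ℝ) ^ (-s) = 0 := by
      rw [Nat.cast_zero, Real.zero_rpow (by linarith)]
    rw [hz]
    simp
  · rw [← Nat.card_eq_fintype_card]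
    have : Nat.card {I : (Ideal (𝓞 K))⁰ // Ideal.absNorm (I : Ideal (𝓞 K)) = n} =
        idealCount K n := by
      unfold idealCount
      refine Nat.card_congr
        { toFun := fun I => ⟨I.1.1, I.2⟩
          invFun := fun I => ⟨⟨I.1, mem_nonZeroDivisors_of_ne_zero (by
            rintro h
            have := I.2
            rw [h, Ideal.zero_eq_bot, Ideal.absNorm_bot] at this
            omega)⟩, I.2⟩
          left_inv := fun I => rfl
          right_inv := fun I => rfl }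
    rw [this]
    push_cast
    ring

lemma euler_cterm (χ : DirichletCharacter ℂ m) {s : ℝ} (hs : 1 < s) :
    HasProd (fun p : Nat.Primes => ∑' e, cterm K χ s (p ^ e)) (∑' n, cterm K χ s n) :=
  EulerProduct.eulerProduct_hasProd (cterm_one χ) (cterm_mul χ) (summable_norm_cterm χ hs)
    (cterm_zero χ hs)

variable (K) in
/-- Nontrivial part of the Euler factor. -/
noncomputable def zp (χ : DirichletCharacter ℂ m) (s : ℝ) (p : Nat.Primes) : ℂ :=
  ∑' e, cterm K χ s (p ^ (e + 1))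

lemma summable_cterm_pow (χ : DirichletCharacter ℂ m) {s : ℝ} (hs : 1 < s) (p : Nat.Primes) :
    Summable (fun e : ℕ => cterm K χ s (p ^ e)) :=
  (summable_cterm χ hs).comp_injective (Nat.pow_right_injective p.2.two_le)

lemma tsum_eq_one_add_zp (χ : DirichletCharacter ℂ m) {s : ℝ} (hs : 1 < s) (p : Nat.Primes) :
    ∑' e, cterm K χ s (p ^ e) = 1 + zp K χ s p := by
  rw [(summable_cterm_pow χ hs p).tsum_eq_zero_add, pow_zero, cterm_one]
  rfl

lemma norm_zp_le (χ : DirichletCharacter ℂ m) {s : ℝ} (hs : 1 < s) (p : Nat.Primes) :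
    ‖zp K χ s p‖ ≤ xp K s p := by
  unfold zp xp
  exact tsum_of_norm_bounded (((summable_nat_add_iff 1).mpr (summable_pow hs p)).hasSum)
    fun e => norm_cterm_le χ s _

lemma norm_zp_sub_le (χ : DirichletCharacter ℂ m) {s : ℝ} (hs : 1 < s) (p : Nat.Primes) :
    ‖zp K χ s p - cterm K χ s p‖ ≤ cst K * ((p : ℝ) ^ 2)⁻¹ := by
  have h1 : zp K χ s p - cterm K χ s p = ∑' e, cterm K χ s (p ^ (e + 2)) := by
    unfold zp
    rw [((summable_nat_add_iff 1).mpr (summable_cterm_pow χ hs p)).tsum_eq_zero_add, zero_add,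
      pow_one, add_sub_cancel_left]
  rw [h1, cst, ← tsum_mul_right]
  exact tsum_of_norm_bounded ((summable_cst (K := K)).mul_right _).hasSum fun e =>
    (norm_cterm_le χ s _).trans (zterm_prime_pow_le hs p e)

/-- All the small primes are killed by `χ`. -/
def KillsSmall (K : Type*) [Field K] [NumberField K] (χ : DirichletCharacter ℂ m) : Prop :=
  ∀ p : Nat.Primes, ((p : ℕ) : ℝ) < 2 * (2 ^ (dK K) + cst K) → χ ((p : ℕ) : ZMod m) = 0

lemma zp_eq_zero {χ : DirichletCharacter ℂ m} {p : Nat.Primes} (h : χ ((p : ℕ) : ZMod m) = 0)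
    (s : ℝ) : zp K χ s p = 0 := by
  unfold zp
  convert tsum_zero with e
  rw [cterm, Nat.cast_pow, map_pow, h, zero_pow (Nat.succ_ne_zero e), zero_mul]

lemma norm_zp_le_half {χ : DirichletCharacter ℂ m} (hχ : KillsSmall K χ) {s : ℝ} (hs : 1 < s)
    (p : Nat.Primes) : ‖zp K χ s p‖ ≤ 1 / 2 := by
  by_cases hp : ((p : ℕ) : ℝ) < 2 * (2 ^ (dK K) + cst K)
  · rw [zp_eq_zero (hχ p hp)]
    norm_num
  · refine (norm_zp_le χ hs p).trans ((xp_le' hs p).trans ?_)
    push Not at hp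
    have hp0 : (0 : ℝ) < (p : ℕ) := by exact_mod_cast p.2.pos
    rw [← div_eq_mul_inv, div_le_iff₀ hp0]
    linarith

variable (K) in
/-- The logarithm of the `L`-function. -/
noncomputable def Lam (χ : DirichletCharacter ℂ m) (s : ℝ) : ℂ :=
  ∑' p : Nat.Primes, Complex.log (1 + zp K χ s p)

lemma summable_log {χ : DirichletCharacter ℂ m} (hχ : KillsSmall K χ) {s : ℝ} (hs : 1 < s) :
    Summable fun p : Nat.Primes => Complex.log (1 + zp K χ s p) := by
  refine Summable.of_norm_bounded (g := fun p => 3 / 2 * xp K s p) ((summable_xp hs).mul_left _)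
    fun p => ?_
  refine (Complex.norm_log_one_add_half_le_self (norm_zp_le_half hχ hs p)).trans ?_
  gcongr
  exact norm_zp_le χ hs p

lemma one_add_zp_ne_zero {χ : DirichletCharacter ℂ m} (hχ : KillsSmall K χ) {s : ℝ} (hs : 1 < s)
    (p : Nat.Primes) : 1 + zp K χ s p ≠ 0 := by
  intro h
  have h1 : zp K χ s p = -1 := by linear_combination h
  have h2 := norm_zp_le_half hχ hs p
  rw [h1, norm_neg, norm_one] at h2
  norm_num at h2

lemma exp_Lam {χ : DirichletCharacter ℂ m} (hχ : KillsSmall K χ) {s : ℝ} (hs : 1 < s) :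
    Complex.exp (Lam K χ s) = LN K χ s := by
  rw [LN_eq_tsum χ hs, Lam, Complex.cexp_tsum_eq_tprod (fun p => one_add_zp_ne_zero hχ hs p)
    (summable_log hχ hs), ← (euler_cterm χ hs).tprod_eq]
  exact tprod_congr fun p => (tsum_eq_one_add_zp χ hs p).symm

lemma summable_cterm_primes (χ : DirichletCharacter ℂ m) {s : ℝ} (hs : 1 < s) :
    Summable (fun p : Nat.Primes => cterm K χ s p) :=
  (summable_cterm χ hs).comp_injective
    (Subtype.val_injective : Function.Injective (Subtype.val : Nat.Primes → ℕ))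

/-- `Λ(s)` and the sum over primes differ by a bounded function. -/
lemma exists_norm_Lam_sub_le {χ : DirichletCharacter ℂ m} (hχ : KillsSmall K χ) :
    ∃ B : ℝ, ∀ s : ℝ, 1 < s → ‖Lam K χ s - ∑' p : Nat.Primes, cterm K χ s p‖ ≤ B := by
  refine ⟨∑' p : Nat.Primes, (cst K + (2 ^ (dK K) + cst K) ^ 2) * ((p : ℝ) ^ 2)⁻¹,
    fun s hs => ?_⟩
  rw [Lam, ← (summable_log hχ hs).tsum_sub (summable_cterm_primes χ hs)]
  refine tsum_of_norm_bounded ((summable_primes_inv_sq.mul_left _).hasSum) fun p => ?_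
  have h1 := norm_zp_le_half hχ hs p
  have h0 := cst_nonneg (K := K)
  have h2 := Complex.norm_log_one_add_sub_self_le (z := zp K χ s p) (by linarith)
  have h3 := norm_zp_sub_le (K := K) χ hs p
  have h4 : ‖zp K χ s p‖ ≤ (2 ^ (dK K) + cst K) * (p : ℝ)⁻¹ := (norm_zp_le χ hs p).trans (xp_le' hs p)
  have h5 : ‖zp K χ s p‖ ^ 2 * (1 - ‖zp K χ s p‖)⁻¹ / 2 ≤ ‖zp K χ s p‖ ^ 2 := by
    have h6 : (1 - ‖zp K χ s p‖)⁻¹ ≤ 2 := by
      rw [inv_le_comm₀ (by linarith) (by norm_num)]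
      linarith
    have h7 : 0 ≤ ‖zp K χ s p‖ ^ 2 := by positivity
    nlinarith
  have h8 : ‖zp K χ s p‖ ^ 2 ≤ (2 ^ (dK K) + cst K) ^ 2 * ((p : ℝ) ^ 2)⁻¹ := by
    rw [← inv_pow, ← mul_pow]
    gcongr
  have e : Complex.log (1 + zp K χ s p) - cterm K χ s p =
      (Complex.log (1 + zp K χ s p) - zp K χ s p) + (zp K χ s p - cterm K χ s p) := by ring
  rw [e]
  refine (norm_add_le _ _).trans ?_
  linarith

lemma zterm_antitone {s₀ s : ℝ} (hs₀ : 1 < s₀) (hs : s₀ ≤ s) (n : ℕ) :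
    zterm K s n ≤ zterm K s₀ n := by
  rcases Nat.eq_zero_or_pos n with rfl | hn
  · rw [zterm_zero hs₀, zterm_zero (by linarith)]
  · unfold zterm
    have h1 : (1 : ℝ) ≤ n := by exact_mod_cast hn
    gcongr

lemma xp_antitone {s₀ s : ℝ} (hs₀ : 1 < s₀) (hs : s₀ ≤ s) (p : Nat.Primes) :
    xp K s p ≤ xp K s₀ p := by
  unfold xp
  exact ((summable_nat_add_iff 1).mpr (summable_pow (by linarith) p)).tsum_le_tsum
    (fun e => zterm_antitone hs₀ hs _) ((summable_nat_add_iff 1).mpr (summable_pow hs₀ p))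

lemma continuousOn_cterm (χ : DirichletCharacter ℂ m) (n : ℕ) :
    ContinuousOn (fun s : ℝ => cterm K χ s n) (Set.Ioi 1) := by
  rcases Nat.eq_zero_or_pos n with rfl | hn
  · refine (continuousOn_const (c := (0 : ℂ))).congr fun s hs => ?_
    exact cterm_zero χ hs
  · unfold cterm zterm
    refine continuousOn_const.mul ?_
    refine Complex.continuous_ofReal.comp_continuousOn ?_
    refine continuousOn_const.mul ?_
    have h1 : ((n : ℕ) : ℝ) ≠ 0 := by exact_mod_cast hn.ne'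
    exact (continuous_const.rpow continuous_neg fun _ => Or.inl h1).continuousOn

lemma continuousOn_zp (χ : DirichletCharacter ℂ m) {s₀ : ℝ} (hs₀ : 1 < s₀) (p : Nat.Primes) :
    ContinuousOn (fun s : ℝ => zp K χ s p) (Set.Ici s₀) := by
  unfold zp
  refine continuousOn_tsum (u := fun e => zterm K s₀ (p ^ (e + 1))) (fun e => ?_) ?_ ?_
  · exact (continuousOn_cterm χ _).mono fun s hs => lt_of_lt_of_le hs₀ hs
  · exact (summable_nat_add_iff 1).mpr (summable_pow hs₀ p)
  · intro e s hs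
    exact (norm_cterm_le χ s _).trans (zterm_antitone hs₀ hs _)

lemma continuousOn_Lam {χ : DirichletCharacter ℂ m} (hχ : KillsSmall K χ) :
    ContinuousOn (Lam K χ) (Set.Ioi 1) := by
  have key : ∀ s₀ : ℝ, 1 < s₀ → ContinuousOn (Lam K χ) (Set.Ici s₀) := by
    intro s₀ hs₀
    refine continuousOn_tsum (u := fun p => 3 / 2 * xp K s₀ p) (fun p => ?_)
      ((summable_xp hs₀).mul_left _) ?_
    · refine (continuousOn_const.add (continuousOn_zp χ hs₀ p)).clog fun s hs => ?_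
      have h1 := norm_zp_le_half hχ (lt_of_lt_of_le hs₀ hs) p
      exact Complex.mem_slitPlane_of_norm_lt_one (by linarith)
    · intro p s hs
      have hs1 : 1 < s := lt_of_lt_of_le hs₀ hs
      refine (Complex.norm_log_one_add_half_le_self (norm_zp_le_half hχ hs1 p)).trans ?_
      gcongr
      exact (norm_zp_le χ hs1 p).trans (xp_antitone hs₀ hs p)
  intro s hs
  have hs' : (1 : ℝ) < s := hs
  refine ((key ((1 + s) / 2) (by linarith)).continuousAt ?_).continuousWithinAt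
  exact Ici_mem_nhds (by linarith)

/-- If `L(s, χ ∘ N)` has a nonzero limit at `1`, the sum over primes is bounded. -/
lemma exists_bound_of_tendsto_ne_zero {χ : DirichletCharacter ℂ m} (hχ : KillsSmall K χ) {l : ℂ}
    (hl : Tendsto (LN K χ) (𝓝[>] 1) (𝓝 l)) (hl0 : l ≠ 0) :
    ∃ B : ℝ, ∀ᶠ s in 𝓝[>] (1 : ℝ), ‖∑' p : Nat.Primes, cterm K χ s p‖ ≤ B := by
  obtain ⟨B, hB⟩ := exists_norm_Lam_sub_le hχ
  -- near 1, `LN / l` is close to 1
  have h1 : ∀ᶠ s in 𝓝[>] (1 : ℝ), ‖LN K χ s / l - 1‖ < 1 / 2 := by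
    have h2 : Tendsto (fun s => LN K χ s / l - 1) (𝓝[>] 1) (𝓝 0) := by
      have := (hl.div_const l).sub_const 1
      rwa [div_self hl0, sub_self] at this
    have h3 := h2.norm
    rw [norm_zero] at h3
    exact h3.eventually_lt_const (by norm_num)
  have hδe : ∃ δ : ℝ, 0 < δ ∧ ∀ s : ℝ, 1 < s → s < 1 + δ → ‖LN K χ s / l - 1‖ < 1 / 2 := by
    obtain ⟨v, hv, hv'⟩ := (eventually_nhdsWithin_iff.mp h1).exists_mem
    obtain ⟨ε, hε, hb⟩ := Metric.mem_nhds_iff.mp hv
    refine ⟨ε, hε, fun s hs1 hs2 => hv' s (hb ?_) hs1⟩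
    rw [Metric.mem_ball, Real.dist_eq, abs_of_pos (by linarith)]
    linarith
  obtain ⟨δ, hδ, hδ'⟩ := hδe
  -- the function `g`
  let g : ℝ → ℂ := fun s => Lam K χ s - Complex.log (LN K χ s / l)
  have hsub : Set.Ioo 1 (1 + δ) ⊆ Set.Ioi (1 : ℝ) := fun s hs => hs.1
  have hLN : ContinuousOn (LN K χ) (Set.Ioi 1) :=
    ((continuousOn_Lam hχ).cexp).congr fun s hs => (exp_Lam hχ hs).symm
  have hg : ContinuousOn g (Set.Ioo 1 (1 + δ)) := by
    refine ((continuousOn_Lam hχ).mono hsub).sub ?_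
    refine ((hLN.mono hsub).div_const l).clog fun s hs => ?_
    have := hδ' s hs.1 hs.2
    have e : LN K χ s / l = 1 + (LN K χ s / l - 1) := by ring
    rw [e]
    exact Complex.mem_slitPlane_of_norm_lt_one (by linarith)
  have hexp : ∀ s ∈ Set.Ioo 1 (1 + δ), Complex.exp (g s) = l := by
    intro s hs
    have hne : LN K χ s ≠ 0 := by rw [← exp_Lam hχ hs.1]; exact Complex.exp_ne_zero _
    rw [Complex.exp_sub, exp_Lam hχ hs.1, Complex.exp_log (div_ne_zero hne hl0)]
    field_simp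
  have hconst : ∃ c : ℂ, ∀ s ∈ Set.Ioo 1 (1 + δ), g s = c := by
    have hpre : IsPreconnected (Set.Ioo (1 : ℝ) (1 + δ)) := isPreconnected_Ioo
    have hmid : (1 + δ / 2) ∈ Set.Ioo (1 : ℝ) (1 + δ) := ⟨by linarith, by linarith⟩
    -- integer valued function
    have hn : ∀ s ∈ Set.Ioo (1 : ℝ) (1 + δ), ∃ n : ℤ, g s = g (1 + δ / 2) + n * (2 * Real.pi * Complex.I) := by
      intro s hs
      exact Complex.exp_eq_exp_iff_exists_int.mp ((hexp s hs).trans (hexp _ hmid).symm)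
    have hcont : ContinuousOn (fun s => ((g s - g (1 + δ / 2)).im / (2 * Real.pi))) (Set.Ioo 1 (1 + δ)) := by
      refine ContinuousOn.div_const ?_ _
      exact Complex.continuous_im.comp_continuousOn (hg.sub continuousOn_const)
    have hval : ∀ s ∈ Set.Ioo (1 : ℝ) (1 + δ), ∀ n : ℤ,
        g s = g (1 + δ / 2) + n * (2 * Real.pi * Complex.I) →
        (g s - g (1 + δ / 2)).im / (2 * Real.pi) = n := by
      intro s hs n h
      rw [h]
      have hpi := Real.pi_ne_zero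
      simp
    have hmaps : Set.MapsTo (fun s => ((g s - g (1 + δ / 2)).im / (2 * Real.pi)))
        (Set.Ioo 1 (1 + δ)) (Set.range ((↑) : ℤ → ℝ)) := by
      intro s hs
      obtain ⟨n, h⟩ := hn s hs
      exact ⟨n, (hval s hs n h).symm⟩
    have hdisc : IsDiscrete (Set.range ((↑) : ℤ → ℝ)) :=
      Int.isClosedEmbedding_coe_real.isInducing.isDiscrete_range
    refine ⟨g (1 + δ / 2), fun s hs => ?_⟩
    have h5 := hpre.constant_of_mapsTo hdisc hcont hmaps hs hmid
    simp only [sub_self, Complex.zero_im, zero_div] at h5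
    obtain ⟨n, h⟩ := hn s hs
    have h6 := hval s hs n h
    rw [h5] at h6
    have h7 : n = 0 := by exact_mod_cast h6.symm
    rw [h, h7]
    simp
  obtain ⟨c, hc⟩ := hconst
  refine ⟨B + (‖c‖ + 3 / 2), ?_⟩
  have hev : ∀ᶠ s in 𝓝[>] (1 : ℝ), s ∈ Set.Ioo 1 (1 + δ) :=
    Ioo_mem_nhdsGT (by linarith)
  filter_upwards [hev] with s hs
  have h8 := hB s hs.1
  have h9 := hc s hs
  have h10 : Lam K χ s = c + Complex.log (LN K χ s / l) := by
    rw [← h9]; ring
  have h11 : ‖Complex.log (LN K χ s / l)‖ ≤ 3 / 2 := by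
    have e : LN K χ s / l = 1 + (LN K χ s / l - 1) := by ring
    have h12 := hδ' s hs.1 hs.2
    rw [e]
    refine (Complex.norm_log_one_add_half_le_self h12.le).trans ?_
    linarith
  have h13 : ‖Lam K χ s‖ ≤ ‖c‖ + 3 / 2 := by
    rw [h10]
    exact (norm_add_le _ _).trans (by linarith)
  calc ‖∑' p : Nat.Primes, cterm K χ s p‖
      = ‖Lam K χ s - (Lam K χ s - ∑' p : Nat.Primes, cterm K χ s p)‖ := by rw [sub_sub_cancel]
    _ ≤ ‖Lam K χ s‖ + ‖Lam K χ s - ∑' p : Nat.Primes, cterm K χ s p‖ := norm_sub_le _ _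
    _ ≤ _ := by linarith

/-- Upper bound for the real part when `L` has a limit; the real part tends to `-∞` when the
limit is zero. -/
lemma exists_re_le {χ : DirichletCharacter ℂ m} (hχ : KillsSmall K χ) {l : ℂ}
    (hl : Tendsto (LN K χ) (𝓝[>] 1) (𝓝 l)) :
    ∃ B : ℝ, ∀ᶠ s in 𝓝[>] (1 : ℝ), (∑' p : Nat.Primes, cterm K χ s p).re ≤ B := by
  obtain ⟨B, hB⟩ := exists_norm_Lam_sub_le hχ
  refine ⟨B + Real.log (‖l‖ + 1), ?_⟩
  have h1 : ∀ᶠ s in 𝓝[>] (1 : ℝ), ‖LN K χ s‖ < ‖l‖ + 1 := hl.norm.eventually_lt_const (by linarith)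
  filter_upwards [h1, self_mem_nhdsWithin] with s h1 hs
  have hs1 : (1 : ℝ) < s := hs
  have h2 : (Lam K χ s).re = Real.log ‖LN K χ s‖ := by
    rw [← exp_Lam hχ hs1, Complex.norm_exp, Real.log_exp]
  have hpos : 0 < ‖LN K χ s‖ := by
    rw [norm_pos_iff, ← exp_Lam hχ hs1]; exact Complex.exp_ne_zero _
  have h3 : Real.log ‖LN K χ s‖ ≤ Real.log (‖l‖ + 1) := Real.log_le_log hpos h1.le
  have h4 := (Complex.abs_re_le_norm (Lam K χ s - ∑' p : Nat.Primes, cterm K χ s p)).trans (hB s hs1)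
  rw [Complex.sub_re] at h4
  have h5 := (abs_le.mp h4).1
  linarith

lemma tendsto_re_atBot {χ : DirichletCharacter ℂ m} (hχ : KillsSmall K χ)
    (hl : Tendsto (LN K χ) (𝓝[>] 1) (𝓝 0)) :
    Tendsto (fun s => (∑' p : Nat.Primes, cterm K χ s p).re) (𝓝[>] 1) atBot := by
  obtain ⟨B, hB⟩ := exists_norm_Lam_sub_le hχ
  have h1 : Tendsto (fun s => Real.log ‖LN K χ s‖) (𝓝[>] 1) atBot := by
    refine Real.tendsto_log_nhdsGT_zero.comp ?_
    refine tendsto_nhdsWithin_iff.mpr ⟨by simpa using hl.norm, ?_⟩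
    filter_upwards [self_mem_nhdsWithin] with s hs
    have hs1 : (1 : ℝ) < s := hs
    rw [Set.mem_Ioi, norm_pos_iff, ← exp_Lam hχ hs1]
    exact Complex.exp_ne_zero _
  refine tendsto_atBot_mono' _ ?_ (tendsto_atBot_add_const_right _ B h1)
  filter_upwards [self_mem_nhdsWithin] with s hs
  have hs1 : (1 : ℝ) < s := hs
  have h2 : (Lam K χ s).re = Real.log ‖LN K χ s‖ := by
    rw [← exp_Lam hχ hs1, Complex.norm_exp, Real.log_exp]
  have h4 := (Complex.abs_re_le_norm (Lam K χ s - ∑' p : Nat.Primes, cterm K χ s p)).trans (hB s hs1)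
  rw [Complex.sub_re] at h4
  have h5 := (abs_le.mp h4).1
  linarith

end Fermat.Agent.FrobDensity
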