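import Mathlib
import Fermat.Agent.Frob.LEuler
import Fermat.Agent.Frob.Density
import Fermat.Agent.GalRep.Cyclo

set_option autoImplicit false
set_option linter.unusedSectionVars false

open Finset NumberField Module nonZeroDivisors Filter Topology

open scoped Classical

namespace Fermat.Agent.FrobDensity

open Fermat.Agent.ClassL (nrm nrm_pos)
open Fermat.Agent.Frob

section galois

variable {F : Type*} [Field F] [NumberField F] (τ₀ : F →+* AlgebraicClosure ℚ)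
variable {m : ℕ} [NeZero m] {ζ : AlgebraicClosure ℚ} (hζ : IsPrimitiveRoot ζ m)

/-- The stabiliser of an embedding. -/
def stab : Subgroup GQ where
  carrier := {σ | ∀ x, σ (τ₀ x) = τ₀ x}
  one_mem' := fun _ => rfl
  mul_mem' := by
    intro a b ha hb x
    rw [AlgEquiv.mul_apply, hb, ha]
  inv_mem' := by
    intro a ha x
    have := congrArg (a⁻¹ : GQ) (ha x)
    rw [← AlgEquiv.mul_apply, inv_mul_cancel, AlgEquiv.one_apply] at this
    exact this.symm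

lemma mem_stab {σ : GQ} : σ ∈ stab τ₀ ↔ ∀ x, σ (τ₀ x) = τ₀ x := Iff.rfl

/-- The mod `m` cyclotomic character. -/
noncomputable def cyc : GQ →* (ZMod m)ˣ := hζ.autToPow ℚ

lemma cyc_spec (σ : GQ) : σ ζ = ζ ^ ((cyc hζ σ : (ZMod m)ˣ) : ZMod m).val :=
  (hζ.autToPow_spec ℚ σ).symm

lemma cyc_eq_of_pow {σ : GQ} {k : ℕ} (h : σ ζ = ζ ^ k) :
    ((cyc hζ σ : (ZMod m)ˣ) : ZMod m) = k := by
  rw [cyc_spec hζ σ] at h
  have h0 : ζ ^ k = ζ ^ (k % m) := by
    conv_lhs => rw [← Nat.div_add_mod k m, pow_add, pow_mul, hζ.pow_eq_one, one_pow, one_mul]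
  rw [h0] at h
  have h1 := hζ.pow_inj (ZMod.val_lt _) (Nat.mod_lt _ (NeZero.pos m)) h
  rw [← ZMod.natCast_zmod_val ((cyc hζ σ : (ZMod m)ˣ) : ZMod m), h1, ZMod.natCast_mod]

lemma cyc_eq_cyc_of {σ σ' : GQ} (h : σ ζ = σ' ζ) : cyc hζ σ = cyc hζ σ' := by
  apply Units.ext
  rw [cyc_spec hζ σ'] at h
  rw [cyc_eq_of_pow hζ h, ZMod.natCast_zmod_val]

lemma cyc_frob {A : ValuationSubring (AlgebraicClosure ℚ)} {p : ℕ} (hA : A.LiesOverPrime p)
    {σ : GQ} (hσ : A.IsFrobeniusAt σ p) (hpm : p.Coprime m) :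
    ((cyc hζ σ : (ZMod m)ˣ) : ZMod m) = p :=
  cyc_eq_of_pow hζ (Fermat.Agent.GalRep.frobenius_rootOfUnity hA hpm (NeZero.ne m) hσ hζ.pow_eq_one)

/-- Image of the stabiliser under the cyclotomic character. -/
noncomputable def HF : Subgroup (ZMod m)ˣ := (stab τ₀).map (cyc hζ)

/-- Any two embeddings of a number field are conjugate. -/
lemma exists_conj (τ : F →+* AlgebraicClosure ℚ) : ∃ g : GQ, ∀ x, g (τ₀ x) = τ x := by
  let t₀ : F →ₐ[ℚ] AlgebraicClosure ℚ := RingHom.equivRatAlgHom _ _ τ₀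
  let t : F →ₐ[ℚ] AlgebraicClosure ℚ := RingHom.equivRatAlgHom _ _ τ
  let e : F ≃ₐ[ℚ] t₀.fieldRange := AlgEquiv.ofInjectiveField t₀
  obtain ⟨ψ, hψ⟩ := IsAlgClosed.surjective_domRestrict_of_isAlgebraic (K := ℚ)
      (L := t₀.fieldRange) (M := AlgebraicClosure ℚ) (E := AlgebraicClosure ℚ)
      (t.comp (e.symm : t₀.fieldRange →ₐ[ℚ] F))
  refine ⟨AlgEquiv.ofBijective ψ (Algebra.IsAlgebraic.algHom_bijective ψ), fun x => ?_⟩
  have h2 := congrFun (congrArg DFunLike.coe hψ) (e x)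
  have h3 : (t.comp (e.symm : t₀.fieldRange →ₐ[ℚ] F)) (e x) = τ x := by
    change t (e.symm (e x)) = τ x
    rw [AlgEquiv.symm_apply_apply]
    rfl
  rw [h3] at h2
  exact h2

lemma cyc_mem_HF {τ : F →+* AlgebraicClosure ℚ} {σ : GQ} (h : ∀ x, σ (τ x) = τ x) :
    cyc hζ σ ∈ HF τ₀ hζ := by
  obtain ⟨g, hg⟩ := exists_conj τ₀ τ
  refine ⟨g⁻¹ * σ * g, fun x => ?_, ?_⟩
  · rw [AlgEquiv.mul_apply, AlgEquiv.mul_apply, hg, h, ← hg, ← AlgEquiv.mul_apply, inv_mul_cancel,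
      AlgEquiv.one_apply]
  · rw [map_mul, map_mul, map_inv, mul_comm, mul_inv_cancel_left]

/-- Finite set of bad primes. -/
lemma exists_bad (F : Type*) [Field F] [NumberField F] (m : ℕ) [NeZero m] : ∃ T : Finset ℕ,
    ∀ p : ℕ, p.Prime → p ∉ T → p.Coprime m ∧ ∀ A : ValuationSubring (AlgebraicClosure ℚ),
      A.LiesOverPrime p → ∀ σ : GQ, A.IsFrobeniusAt σ p →
        idealCount F p = Nat.card {τ : F →+* AlgebraicClosure ℚ // ∀ x, σ (τ x) = τ x} := by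
  obtain ⟨D, hD0, hD⟩ := idealCount_eq F
  refine ⟨D.natAbs.divisors ∪ m.divisors, fun p hp hpT => ?_⟩
  rw [Finset.mem_union, not_or, Nat.mem_divisors, Nat.mem_divisors] at hpT
  refine ⟨(Nat.Prime.coprime_iff_not_dvd hp).mpr fun h => hpT.2 ⟨h, NeZero.ne m⟩, hD p hp fun h =>
    hpT.1 ⟨Int.natCast_dvd.mp h, Int.natAbs_ne_zero.mpr hD0⟩⟩

/-- primes with an ideal of norm `p` lie in `H`. -/
lemma exists_mem_HF : ∃ T : Finset ℕ, ∀ p : ℕ, p.Prime → p ∉ T → idealCount F p ≠ 0 →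
    ∃ h ∈ HF τ₀ hζ, ((h : (ZMod m)ˣ) : ZMod m) = p := by
  obtain ⟨T, hT⟩ := exists_bad F m
  refine ⟨T, fun p hp hpT hne => ?_⟩
  obtain ⟨hpm, h⟩ := hT p hp hpT
  obtain ⟨A, hA, σ, hσ⟩ := Frob.exists_frobenius p hp
  rw [h A hA σ hσ] at hne
  obtain ⟨⟨τ, hτ⟩⟩ := (Nat.card_ne_zero.mp hne).1
  exact ⟨cyc hζ σ, cyc_mem_HF τ₀ hζ hτ, cyc_frob hζ hA hσ hpm⟩

/-- If `χ` is non trivial on `H`, there are ideals of norm prime to any given number with
`χ (N q) ≠ 1`. -/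
lemma exists_ideal_ne_one (χ : DirichletCharacter ℂ m) {h : (ZMod m)ˣ} (hh : h ∈ HF τ₀ hζ)
    (hχ : χ (h : ZMod m) ≠ 1) (D : ℕ) (hD : D ≠ 0) :
    ∃ q : (Ideal (𝓞 F))⁰, (Ideal.absNorm (q : Ideal (𝓞 F))).Coprime D ∧
      χ ((Ideal.absNorm (q : Ideal (𝓞 F)) : ℕ) : ZMod m) ≠ 1 := by
  obtain ⟨σ, hσ, rfl⟩ := hh
  obtain ⟨T, hT⟩ := exists_bad F m
  let t₀ : F →ₐ[ℚ] AlgebraicClosure ℚ := RingHom.equivRatAlgHom _ _ τ₀
  have hζint : IsIntegral ℚ ζ := (hζ.isIntegral (NeZero.pos m)).tower_top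
  have hfd : FiniteDimensional ℚ (IntermediateField.adjoin ℚ {ζ}) :=
    IntermediateField.adjoin.finiteDimensional hζint
  let L : IntermediateField ℚ (AlgebraicClosure ℚ) :=
    t₀.fieldRange ⊔ IntermediateField.adjoin ℚ {ζ}
  have hfd1 : FiniteDimensional ℚ t₀.fieldRange :=
    (AlgEquiv.ofInjectiveField t₀).toLinearEquiv.finiteDimensional
  have hfd2 : FiniteDimensional ℚ L := IntermediateField.finiteDimensional_sup _ _
  obtain ⟨p, hp, hpS, A, hA, φ, hφ, k, k', hk, hk'⟩ := exists_frobenius_on L σ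
    ((T : Set ℕ) ∪ (D.divisors : Set ℕ)) (T.finite_toSet.union (D.divisors.finite_toSet))
  rw [Set.mem_union, not_or] at hpS
  obtain ⟨hpm, hcount⟩ := hT p hp hpS.1
  have hpD : p.Coprime D := (Nat.Prime.coprime_iff_not_dvd hp).mpr fun h =>
    hpS.2 (Nat.mem_divisors.mpr ⟨h, hD⟩)
  have hζL : ζ ∈ L := (le_sup_right : _ ≤ L) (IntermediateField.mem_adjoin_simple_self ℚ ζ)
  have hFL : ∀ x, τ₀ x ∈ L := fun x => (le_sup_left : _ ≤ L) ⟨x, rfl⟩
  have hfix : ∀ x, φ (τ₀ x) = τ₀ x := by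
    intro x
    rw [hk _ (hFL x)]
    exact (pow_mem (hσ : σ ∈ stab τ₀) k : σ ^ k ∈ stab τ₀) x
  have hne : idealCount F p ≠ 0 := by
    rw [hcount A hA φ hφ]
    have : Finite (F →+* AlgebraicClosure ℚ) :=
      Finite.of_equiv (F →ₐ[ℚ] AlgebraicClosure ℚ) (RingHom.equivRatAlgHom _ _).symm
    exact Nat.card_ne_zero.mpr ⟨⟨⟨τ₀, hfix⟩⟩, inferInstance⟩
  obtain ⟨⟨I, hI⟩⟩ := (Nat.card_ne_zero.mp hne).1
  have hI0 : I ≠ 0 := by
    rintro rfl
    rw [Ideal.zero_eq_bot, Ideal.absNorm_bot] at hI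
    exact hp.ne_zero hI.symm
  refine ⟨⟨I, mem_nonZeroDivisors_of_ne_zero hI0⟩, by rw [hI]; exact hpD, ?_⟩
  change χ ((Ideal.absNorm I : ℕ) : ZMod m) ≠ 1
  rw [hI, ← cyc_frob hζ hA hφ hpm]
  intro h1
  apply hχ
  have h2 : cyc hζ σ = (cyc hζ φ) ^ k' := by
    rw [← map_pow]
    exact cyc_eq_cyc_of hζ (hk' _ hζL)
  rw [h2, Units.val_pow_eq_pow_val, map_pow, h1, one_pow]

/-- Ideal counts in `F(ζ)`. -/
lemma exists_count_le : ∃ (E : IntermediateField ℚ (AlgebraicClosure ℚ)) (_ : FiniteDimensional ℚ E)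
    (_ : NumberField E), ∃ T : Finset ℕ, ∀ p : ℕ, p.Prime → p ∉ T →
      idealCount E p ≤ if (p : ZMod m) = 1 then Nat.card (HF τ₀ hζ) * idealCount F p else 0 := by
  let t₀ : F →ₐ[ℚ] AlgebraicClosure ℚ := RingHom.equivRatAlgHom _ _ τ₀
  have hζint : IsIntegral ℚ ζ := (hζ.isIntegral (NeZero.pos m)).tower_top
  have hfd : FiniteDimensional ℚ (IntermediateField.adjoin ℚ {ζ}) :=
    IntermediateField.adjoin.finiteDimensional hζint
  let L : IntermediateField ℚ (AlgebraicClosure ℚ) :=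
    t₀.fieldRange ⊔ IntermediateField.adjoin ℚ {ζ}
  have hfd1 : FiniteDimensional ℚ t₀.fieldRange :=
    (AlgEquiv.ofInjectiveField t₀).toLinearEquiv.finiteDimensional
  have hfd2 : FiniteDimensional ℚ L := IntermediateField.finiteDimensional_sup _ _
  have hNF : NumberField L := ⟨⟩
  obtain ⟨T, hT⟩ := exists_bad F m
  obtain ⟨T', hT'⟩ := exists_bad L m
  have hζL : ζ ∈ L := (le_sup_right : _ ≤ L) (IntermediateField.mem_adjoin_simple_self ℚ ζ)
  have hFL : ∀ x, τ₀ x ∈ L := fun x => (le_sup_left : _ ≤ L) ⟨x, rfl⟩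
  refine ⟨L, hfd2, hNF, T ∪ T', fun p hp hpT => ?_⟩
  rw [Finset.mem_union, not_or] at hpT
  obtain ⟨hpm, hcount⟩ := hT p hp hpT.1
  obtain ⟨-, hcount'⟩ := hT' p hp hpT.2
  obtain ⟨A, hA, σ, hσ⟩ := Frob.exists_frobenius p hp
  rw [hcount A hA σ hσ, hcount' A hA σ hσ]
  have hfinF : Finite (F →+* AlgebraicClosure ℚ) :=
    Finite.of_equiv (F →ₐ[ℚ] AlgebraicClosure ℚ) (RingHom.equivRatAlgHom _ _).symm
  have hext : ∀ τ : L →+* AlgebraicClosure ℚ, ∃ g : GQ, ∀ x : L, g x = τ x := by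
    intro τ
    exact exists_conj (algebraMap L (AlgebraicClosure ℚ)) τ
  split_ifs with hp1
  · -- injection into `H × fixed embeddings`
    choose ext hext' using hext
    -- reference extension for each embedding of `F`
    choose ref href using fun τ : F →+* AlgebraicClosure ℚ => exists_conj τ₀ τ
    let ι : F →+* L := (τ₀.codRestrict L.toSubring hFL : F →+* L)
    have hι : ∀ x, ((ι x : L) : AlgebraicClosure ℚ) = τ₀ x := fun x => rfl
    have hfixr : ∀ τ : {τ : L →+* AlgebraicClosure ℚ // ∀ x, σ (τ x) = τ x},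
        ∀ x, σ ((τ.1.comp ι) x) = (τ.1.comp ι) x := fun τ x => τ.2 _
    have hmem : ∀ τ : {τ : L →+* AlgebraicClosure ℚ // ∀ x, σ (τ x) = τ x},
        cyc hζ ((ref (τ.1.comp ι))⁻¹ * ext τ.1) ∈ HF τ₀ hζ := by
      intro τ
      refine ⟨_, fun x => ?_, rfl⟩
      have h1 : ext τ.1 (τ₀ x) = (τ.1.comp ι) x := by
        rw [RingHom.comp_apply, ← hext', hι]
      rw [AlgEquiv.mul_apply, h1, ← href, ← AlgEquiv.mul_apply, inv_mul_cancel,
        AlgEquiv.one_apply]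
    let Ψ : {τ : L →+* AlgebraicClosure ℚ // ∀ x, σ (τ x) = τ x} →
        (HF τ₀ hζ) × {τ : F →+* AlgebraicClosure ℚ // ∀ x, σ (τ x) = τ x} :=
      fun τ => (⟨_, hmem τ⟩, ⟨τ.1.comp ι, hfixr τ⟩)
    have hΨ : Function.Injective Ψ := by
      intro τ τ' h
      have h1 : τ.1.comp ι = τ'.1.comp ι := congrArg (fun z => z.2.1) h
      have h2 : cyc hζ ((ref (τ.1.comp ι))⁻¹ * ext τ.1) =
          cyc hζ ((ref (τ'.1.comp ι))⁻¹ * ext τ'.1) := congrArg (fun z => (z.1 : (ZMod m)ˣ)) h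
      rw [h1, map_mul, map_mul, mul_right_inj] at h2
      have h3 : ext τ.1 ζ = ext τ'.1 ζ := by rw [cyc_spec hζ, cyc_spec hζ, h2]
      have h4 : ∀ x, ext τ.1 (τ₀ x) = ext τ'.1 (τ₀ x) := by
        intro x
        have h5 := congrFun (congrArg DFunLike.coe h1) x
        rw [RingHom.comp_apply, RingHom.comp_apply, ← hext', ← hext', hι] at h5
        exact h5
      have h6 : L ≤ IntermediateField.fixedField
          (Subgroup.zpowers ((ext τ'.1)⁻¹ * ext τ.1)) := by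
        have key : ∀ y : AlgebraicClosure ℚ, ext τ.1 y = ext τ'.1 y →
            y ∈ IntermediateField.fixedField (Subgroup.zpowers ((ext τ'.1)⁻¹ * ext τ.1)) := by
          intro y hy
          rw [IntermediateField.mem_fixedField_iff]
          intro g hg
          have h7 : ((ext τ'.1)⁻¹ * ext τ.1) ∈ MulAction.stabilizer GQ y := by
            rw [MulAction.mem_stabilizer_iff]
            change ((ext τ'.1)⁻¹ * ext τ.1) y = y
            rw [AlgEquiv.mul_apply, hy, ← AlgEquiv.mul_apply, inv_mul_cancel, AlgEquiv.one_apply]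
          have h8 : g ∈ MulAction.stabilizer GQ y := (Subgroup.zpowers_le.mpr h7) hg
          exact h8
        refine sup_le ?_ ?_
        · rintro y ⟨x, rfl⟩
          exact key _ (h4 x)
        · rw [IntermediateField.adjoin_simple_le_iff]
          exact key _ h3
      apply Subtype.ext
      ext x
      have h9 := h6 x.2
      rw [IntermediateField.mem_fixedField_iff] at h9
      have h10 := h9 _ (Subgroup.mem_zpowers _)
      rw [AlgEquiv.mul_apply] at h10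
      rw [← hext', ← hext']
      have h11 := congrArg (ext τ'.1) h10
      rw [← AlgEquiv.mul_apply, mul_inv_cancel, AlgEquiv.one_apply] at h11
      exact h11
    have h12 := Nat.card_le_card_of_injective Ψ hΨ
    rwa [Nat.card_prod] at h12
  · rw [Nat.le_zero, Nat.card_eq_zero]
    left
    refine ⟨fun ⟨τ, hτ⟩ => hp1 ?_⟩
    obtain ⟨g, hg⟩ := hext τ
    have h1 : σ (g ζ) = g ζ := by
      have := hτ ⟨ζ, hζL⟩
      rwa [← hg] at this
    have h2 : cyc hζ (g⁻¹ * σ * g) = cyc hζ 1 := by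
      apply cyc_eq_cyc_of
      rw [AlgEquiv.mul_apply, AlgEquiv.mul_apply, h1, ← AlgEquiv.mul_apply, inv_mul_cancel]
    rw [map_mul, map_mul, map_inv, mul_comm, mul_inv_cancel_left, map_one] at h2
    rw [← cyc_frob hζ hA hσ hpm, h2, Units.val_one]

end galois

end Fermat.Agent.FrobDensity
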