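import Mathlib
import Fermat.Agent.Frob.LDens

set_option autoImplicit false
set_option linter.unusedSectionVars false

open Finset NumberField Module nonZeroDivisors Filter Topology

open scoped Classical

namespace Fermat.Agent.FrobDensity

open Fermat.Agent.Frob

/-- Weighted prime sums. -/
noncomputable def SW (F : Type*) [Field F] [NumberField F] (w : ℕ → ℂ) (s : ℝ) : ℂ :=
  ∑' p : Nat.Primes, w p * (zterm F s p : ℂ)

section basic

variable {F : Type*} [Field F] [NumberField F]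

lemma summable_SW {w : ℕ → ℂ} {C : ℝ} (hw : ∀ n, ‖w n‖ ≤ C) {s : ℝ} (hs : 1 < s) :
    Summable fun p : Nat.Primes => w p * (zterm F s p : ℂ) :=
  Summable.of_norm_bounded (g := fun p : Nat.Primes => C * zterm F s p)
    ((summable_zterm_primes hs).mul_left C) fun p => by
      rw [norm_mul, Complex.norm_real, Real.norm_eq_abs, abs_of_nonneg (zterm_nonneg _ _)]
      exact mul_le_mul_of_nonneg_right (hw _) (zterm_nonneg _ _)

lemma zterm_le_idealCount {s : ℝ} (hs : 1 < s) {p : ℕ} (hp : p.Prime) :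
    zterm F s p ≤ idealCount F p := by
  unfold zterm
  have h1 : (1 : ℝ) ≤ p := by exact_mod_cast hp.one_lt.le
  have h2 : (p : ℝ) ^ (-s) ≤ 1 := Real.rpow_le_one_of_one_le_of_nonpos h1 (by linarith)
  exact mul_le_of_le_one_right (Nat.cast_nonneg _) h2

/-- Two weights which agree at almost all relevant primes give the same sum up to `O(1)`. -/
lemma exists_SW_sub_le {w w' : ℕ → ℂ} {C : ℝ} (hw : ∀ n, ‖w n‖ ≤ C) (hw' : ∀ n, ‖w' n‖ ≤ C)
    {T : Finset ℕ} (h : ∀ p : ℕ, p.Prime → p ∉ T → idealCount F p ≠ 0 → w p = w' p) :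
    ∃ B : ℝ, ∀ s : ℝ, 1 < s → ‖SW F w s - SW F w' s‖ ≤ B := by
  have hC : 0 ≤ C := (norm_nonneg _).trans (hw 0)
  let T' : Finset Nat.Primes := T.preimage Subtype.val Subtype.val_injective.injOn
  refine ⟨∑ p ∈ T', 2 * C * idealCount F p, fun s hs => ?_⟩
  rw [SW, SW, ← (summable_SW hw hs).tsum_sub (summable_SW hw' hs)]
  have h0 : ∀ p ∉ T', w p * (zterm F s p : ℂ) - w' p * (zterm F s p : ℂ) = 0 := by
    intro p hp
    have hpT : (p : ℕ) ∉ T := fun h' => hp (Finset.mem_preimage.mpr h')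
    by_cases hc : idealCount F p = 0
    · rw [zterm, hc]; simp
    · rw [h p p.2 hpT hc, sub_self]
  rw [tsum_eq_sum h0]
  refine (norm_sum_le _ _).trans (sum_le_sum fun p _ => ?_)
  rw [← sub_mul, norm_mul, Complex.norm_real, Real.norm_eq_abs, abs_of_nonneg (zterm_nonneg _ _)]
  have h1 : ‖w p - w' p‖ ≤ 2 * C := (norm_sub_le _ _).trans (by linarith [hw p, hw' p])
  exact mul_le_mul h1 (zterm_le_idealCount hs p.2) (zterm_nonneg _ _) (by linarith)

lemma SW_one (s : ℝ) : SW F (fun _ => 1) s = ((∑' p : Nat.Primes, zterm F s p : ℝ) : ℂ) := by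
  rw [SW, Complex.ofReal_tsum]
  simp

lemma log_nonneg_ev : ∀ᶠ s in 𝓝[>] (1 : ℝ), 0 ≤ Real.log (1 / (s - 1)) := by
  filter_upwards [eventually_Ioc] with s hs
  apply Real.log_nonneg
  rw [le_div_iff₀ (by linarith)]
  linarith

end basic

section main

variable {F : Type*} [Field F] [NumberField F] (τ₀ : F →+* AlgebraicClosure ℚ)
variable {m : ℕ} [NeZero m] {ζ : AlgebraicClosure ℚ} (hζ : IsPrimitiveRoot ζ m)

/-- characters trivial on `H`. -/
noncomputable def XH : Finset (DirichletCharacter ℂ m) :=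
  univ.filter fun χ => ∀ h ∈ HF τ₀ hζ, χ ((h : (ZMod m)ˣ) : ZMod m) = 1

lemma mem_XH {χ : DirichletCharacter ℂ m} :
    χ ∈ XH τ₀ hζ ↔ ∀ h ∈ HF τ₀ hζ, χ ((h : (ZMod m)ˣ) : ZMod m) = 1 := by
  simp [XH]

/-- Orthogonality. -/
lemma card_XH : (XH τ₀ hζ).card * Nat.card (HF τ₀ hζ) = m.totient := by
  have h1 : ∑ h : HF τ₀ hζ, ∑ χ : DirichletCharacter ℂ m, χ ((h : (ZMod m)ˣ) : ZMod m) =
      (m.totient : ℂ) := by
    have h2 : ∀ h : HF τ₀ hζ, ∑ χ : DirichletCharacter ℂ m, χ ((h : (ZMod m)ˣ) : ZMod m) =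
        if h = 1 then (m.totient : ℂ) else 0 := by
      intro h
      rw [DirichletCharacter.sum_characters_eq]
      congr 1
      rw [eq_iff_iff]
      constructor
      · intro h3
        apply Subtype.ext
        apply Units.ext
        exact h3
      · rintro rfl
        simp
    simp_rw [h2]
    simp
  rw [sum_comm] at h1
  have h2 : ∀ χ : DirichletCharacter ℂ m, ∑ h : HF τ₀ hζ, χ ((h : (ZMod m)ˣ) : ZMod m) =
      if χ ∈ XH τ₀ hζ then (Nat.card (HF τ₀ hζ) : ℂ) else 0 := by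
    intro χ
    split_ifs with hχ
    · rw [mem_XH] at hχ
      rw [sum_congr rfl fun (h : HF τ₀ hζ) _ => hχ h.1 h.2]
      simp
    · rw [mem_XH] at hχ
      push Not at hχ
      obtain ⟨h₀, hh₀, hne⟩ := hχ
      have h3 : χ ((h₀ : (ZMod m)ˣ) : ZMod m) * ∑ h : HF τ₀ hζ, χ ((h : (ZMod m)ˣ) : ZMod m) =
          ∑ h : HF τ₀ hζ, χ ((h : (ZMod m)ˣ) : ZMod m) := by
        rw [mul_sum]
        refine Fintype.sum_equiv (Equiv.mulLeft (⟨h₀, hh₀⟩ : HF τ₀ hζ)) _ _ fun h => ?_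
        rw [← map_mul]
        rfl
      exact eq_zero_of_mul_eq_self_left hne h3
  simp_rw [h2] at h1
  rw [sum_ite_mem, univ_inter, sum_const, nsmul_eq_mul] at h1
  exact_mod_cast h1

/-- character sums. -/
lemma sum_char_SW (c : (ZMod m)ˣ) {s : ℝ} (hs : 1 < s) :
    ∑ χ : DirichletCharacter ℂ m, χ ((c⁻¹ : (ZMod m)ˣ) : ZMod m) *
      SW F (fun n => χ (n : ZMod m)) s =
    m.totient * SW F (fun n => if (n : ZMod m) = c then 1 else 0) s := by
  unfold SW
  rw [← tsum_mul_left]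
  simp_rw [← tsum_mul_left]
  rw [← Summable.tsum_finsetSum]
  · refine tsum_congr fun p => ?_
    have h1 := DirichletCharacter.sum_char_inv_mul_char_eq ℂ c.isUnit ((p : ℕ) : ZMod m)
    have h2 : ((c : ZMod m))⁻¹ = ((c⁻¹ : (ZMod m)ˣ) : ZMod m) := by
      rw [ZMod.inv_coe_unit]
    rw [h2] at h1
    simp_rw [← mul_assoc]
    rw [← sum_mul, h1]
    by_cases h : (c : ZMod m) = ((p : ℕ) : ZMod m)
    · rw [if_pos h, if_pos h.symm, mul_one]
    · rw [if_neg h, if_neg (Ne.symm h)]; ring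
  · intro χ _
    exact (summable_SW (F := F) (w := fun n => χ (n : ZMod m)) (C := 1)
      (fun n => DirichletCharacter.norm_le_one χ _) hs).mul_left _

/-- For `χ` trivial on `H`, the sum is `log (1/(s-1)) + O(1)`. -/
lemma exists_bound_triv {χ : DirichletCharacter ℂ m} (hχ : χ ∈ XH τ₀ hζ) :
    ∃ B : ℝ, ∀ᶠ s in 𝓝[>] (1 : ℝ),
      ‖SW F (fun n => χ (n : ZMod m)) s - (Real.log (1 / (s - 1)) : ℂ)‖ ≤ B := by
  rw [mem_XH] at hχ
  obtain ⟨T, hT⟩ := exists_mem_HF τ₀ hζ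
  obtain ⟨B, hB⟩ := exists_SW_sub_le (F := F) (w := fun n => χ (n : ZMod m)) (w' := fun _ => 1)
    (C := 1) (fun n => DirichletCharacter.norm_le_one χ _) (fun n => by simp) (T := T) (by
      intro p hp hpT hne
      obtain ⟨h, hh, hhp⟩ := hT p hp hpT hne
      rw [← hhp, hχ h hh])
  obtain ⟨B', hB'⟩ := exists_bound F
  refine ⟨B + B', ?_⟩
  filter_upwards [hB', self_mem_nhdsWithin] with s h1 hs
  have h2 := hB s hs
  rw [SW_one] at h2
  have h3 : ‖((∑' p : Nat.Primes, zterm F s p : ℝ) : ℂ) - (Real.log (1 / (s - 1)) : ℂ)‖ ≤ B' := by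
    rw [← Complex.ofReal_sub, Complex.norm_real, Real.norm_eq_abs]
    exact h1
  calc _ = ‖(SW F (fun n => χ (n : ZMod m)) s - ((∑' p : Nat.Primes, zterm F s p : ℝ) : ℂ)) +
        (((∑' p : Nat.Primes, zterm F s p : ℝ) : ℂ) - (Real.log (1 / (s - 1)) : ℂ))‖ := by
        rw [sub_add_sub_cancel]
    _ ≤ _ := (norm_add_le _ _).trans (add_le_add h2 h3)

/-- Lower bound for primes congruent to one. -/
lemma exists_lower : ∃ B : ℝ, ∀ᶠ s in 𝓝[>] (1 : ℝ),
    Real.log (1 / (s - 1)) - B ≤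
      Nat.card (HF τ₀ hζ) * (SW F (fun n => if (n : ZMod m) = 1 then 1 else 0) s).re := by
  obtain ⟨E, hE1, hE2, T, hT⟩ := exists_count_le τ₀ hζ
  obtain ⟨B, hB⟩ := exists_bound E
  let T' : Finset Nat.Primes := T.preimage Subtype.val Subtype.val_injective.injOn
  refine ⟨B + ∑ p ∈ T', (idealCount E p : ℝ), ?_⟩
  filter_upwards [hB, self_mem_nhdsWithin] with s h1 hs
  have hs1 : (1 : ℝ) < s := hs
  have h2 : (SW F (fun n => if (n : ZMod m) = 1 then 1 else 0) s).re =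
      ∑' p : Nat.Primes, (if ((p : ℕ) : ZMod m) = 1 then 1 else 0) * zterm F s p := by
    have h3 : SW F (fun n => if (n : ZMod m) = 1 then 1 else 0) s =
      ((∑' p : Nat.Primes, (if ((p : ℕ) : ZMod m) = 1 then 1 else 0) * zterm F s p : ℝ) : ℂ) := by
      rw [SW, Complex.ofReal_tsum]
      refine tsum_congr fun p => ?_
      split_ifs <;> simp
    rw [h3, Complex.ofReal_re]
  have hsumm : Summable fun p : Nat.Primes =>
      (if ((p : ℕ) : ZMod m) = 1 then (1 : ℝ) else 0) * zterm F s p := by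
    refine Summable.of_nonneg_of_le (fun p => mul_nonneg (by split_ifs <;> simp) (zterm_nonneg _ _))
      (fun p => ?_) (summable_zterm_primes (K := F) hs1)
    exact mul_le_of_le_one_left (zterm_nonneg _ _) (by split_ifs <;> simp)
  have hsumm2 : Summable fun p : Nat.Primes => if p ∈ T' then (idealCount E p : ℝ) else 0 :=
    summable_of_ne_finset_zero (s := T') fun p hp => by rw [if_neg hp]
  have h4 : ∑' p : Nat.Primes, zterm E s p ≤ ∑' p : Nat.Primes,
      (Nat.card (HF τ₀ hζ) * ((if ((p : ℕ) : ZMod m) = 1 then 1 else 0) * zterm F s p) +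
        if p ∈ T' then (idealCount E p : ℝ) else 0) := by
    refine (summable_zterm_primes (K := E) hs1).tsum_le_tsum (fun p => ?_)
      ((hsumm.mul_left _).add hsumm2)
    by_cases hp : p ∈ T'
    · rw [if_pos hp]
      have h5 := zterm_le_idealCount (F := E) hs1 p.2
      have h6 : 0 ≤ (Nat.card (HF τ₀ hζ) : ℝ) *
          ((if ((p : ℕ) : ZMod m) = 1 then 1 else 0) * zterm F s p) :=
        mul_nonneg (Nat.cast_nonneg _) (mul_nonneg (by split_ifs <;> simp) (zterm_nonneg _ _))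
      linarith
    · rw [if_neg hp, add_zero]
      have h5 := hT p p.2 (fun h' => hp (Finset.mem_preimage.mpr h'))
      unfold zterm
      have h6 : (idealCount E p : ℝ) ≤ Nat.card (HF τ₀ hζ) *
          ((if ((p : ℕ) : ZMod m) = 1 then 1 else 0) * (idealCount F p : ℝ)) := by
        split_ifs at h5 ⊢
        · rw [one_mul]; exact_mod_cast h5
        · simpa using h5
      calc (idealCount E p : ℝ) * ((p : ℕ) : ℝ) ^ (-s) ≤ (Nat.card (HF τ₀ hζ) *
          ((if ((p : ℕ) : ZMod m) = 1 then 1 else 0) * (idealCount F p : ℝ))) *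
            ((p : ℕ) : ℝ) ^ (-s) := by
            apply mul_le_mul_of_nonneg_right h6
            positivity
        _ = _ := by ring
  rw [(hsumm.mul_left _).tsum_add hsumm2, tsum_mul_left, ← h2] at h4
  have h7 : ∑' p : Nat.Primes, (if p ∈ T' then (idealCount E p : ℝ) else 0) =
      ∑ p ∈ T', (idealCount E p : ℝ) := by
    rw [tsum_eq_sum (s := T') fun p hp => by rw [if_neg hp]]
    exact sum_congr rfl fun p hp => by rw [if_pos hp]
  rw [h7] at h4
  have h8 := (abs_le.mp h1).1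
  linarith

/-- All small primes divide `m`. -/
def SmallDvd (F : Type*) [Field F] [NumberField F] (m : ℕ) : Prop :=
  ∀ p : ℕ, p.Prime → (p : ℝ) < 2 * (2 ^ (dK F) + cst F) → p ∣ m

lemma killsSmall_of (h : SmallDvd F m) (χ : DirichletCharacter ℂ m) : KillsSmall F χ := by
  intro p hp
  apply χ.map_nonunit
  rw [ZMod.isUnit_iff_coprime]
  intro h'
  exact (Nat.Prime.coprime_iff_not_dvd p.2).mp h' (h p p.2 hp)

lemma exists_limit {χ : DirichletCharacter ℂ m} (hχ : χ ∉ XH τ₀ hζ) :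
    ∃ l : ℂ, Tendsto (LN F χ) (𝓝[>] 1) (𝓝 l) := by
  rw [mem_XH] at hχ
  push Not at hχ
  obtain ⟨h, hh, hne⟩ := hχ
  obtain ⟨D, hD0, hD⟩ := exists_tendsto_LN (K := F) (NeZero.ne m) χ
  obtain ⟨q, hq, hq'⟩ := exists_ideal_ne_one τ₀ hζ χ hh hne D hD0
  exact hD q hq hq'

/-- For `χ` nontrivial on `H`, the sum is bounded (when all small primes divide `m`). -/
theorem exists_bound_nontriv (hsm : SmallDvd F m) {χ : DirichletCharacter ℂ m}
    (hχ : χ ∉ XH τ₀ hζ) :
    ∃ B : ℝ, ∀ᶠ s in 𝓝[>] (1 : ℝ), ‖SW F (fun n => χ (n : ZMod m)) s‖ ≤ B := by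
  obtain ⟨l, hl⟩ := exists_limit τ₀ hζ hχ
  by_cases hl0 : l = 0
  · exfalso
    subst hl0
    have hbot := tendsto_re_atBot (killsSmall_of hsm χ) hl
    change Tendsto (fun s => (SW F (fun n => χ (n : ZMod m)) s).re) (𝓝[>] 1) atBot at hbot
    -- upper bounds for all the nontrivial ones
    have hup : ∀ χ' : DirichletCharacter ℂ m, ∃ B : ℝ, χ' ∉ XH τ₀ hζ → ∀ᶠ s in 𝓝[>] (1 : ℝ),
        (SW F (fun n => χ' (n : ZMod m)) s).re ≤ B := by
      intro χ'
      by_cases hχ' : χ' ∈ XH τ₀ hζ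
      · exact ⟨0, fun h => absurd hχ' h⟩
      · obtain ⟨l', hl'⟩ := exists_limit τ₀ hζ hχ'
        obtain ⟨B, hB⟩ := exists_re_le (killsSmall_of hsm χ') hl'
        exact ⟨B, fun _ => hB⟩
    choose B hB using hup
    have htriv : ∀ χ' : DirichletCharacter ℂ m, ∃ B : ℝ, χ' ∈ XH τ₀ hζ → ∀ᶠ s in 𝓝[>] (1 : ℝ),
        (SW F (fun n => χ' (n : ZMod m)) s).re ≤ Real.log (1 / (s - 1)) + B := by
      intro χ'
      by_cases hχ' : χ' ∈ XH τ₀ hζ
      · obtain ⟨B, hB⟩ := exists_bound_triv τ₀ hζ hχ'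
        refine ⟨B, fun _ => ?_⟩
        filter_upwards [hB] with s hs
        have h1 := (Complex.abs_re_le_norm _).trans hs
        rw [Complex.sub_re, Complex.ofReal_re] at h1
        have := (abs_le.mp h1).2
        linarith
      · exact ⟨0, fun h => absurd h hχ'⟩
    choose B₁ hB₁ using htriv
    obtain ⟨B₂, hB₂⟩ := exists_lower τ₀ hζ
    have hev1 : ∀ᶠ s in 𝓝[>] (1 : ℝ), ∀ χ' : DirichletCharacter ℂ m, χ' ∉ XH τ₀ hζ →
        (SW F (fun n => χ' (n : ZMod m)) s).re ≤ B χ' := by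
      rw [eventually_all]
      intro χ'
      by_cases hχ' : χ' ∈ XH τ₀ hζ
      · exact Eventually.of_forall fun s h => absurd hχ' h
      · filter_upwards [hB χ' hχ'] with s hs _
        exact hs
    have hev2 : ∀ᶠ s in 𝓝[>] (1 : ℝ), ∀ χ' : DirichletCharacter ℂ m, χ' ∈ XH τ₀ hζ →
        (SW F (fun n => χ' (n : ZMod m)) s).re ≤ Real.log (1 / (s - 1)) + B₁ χ' := by
      rw [eventually_all]
      intro χ'
      by_cases hχ' : χ' ∈ XH τ₀ hζ
      · filter_upwards [hB₁ χ' hχ'] with s hs _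
        exact hs
      · exact Eventually.of_forall fun s h => absurd h hχ'
    set x : ℝ := ((XH τ₀ hζ).card : ℝ) with hx
    have hcard : x * Nat.card (HF τ₀ hζ) = m.totient := by
      rw [hx]; exact_mod_cast card_XH τ₀ hζ
    have hlow : ∀ᶠ s in 𝓝[>] (1 : ℝ),
        -(x * B₂) - ∑ χ' ∈ XH τ₀ hζ, B₁ χ' - ∑ χ' ∈ ((XH τ₀ hζ)ᶜ).erase χ, B χ' ≤
          (SW F (fun n => χ (n : ZMod m)) s).re := by
      filter_upwards [hev1, hev2, hB₂, self_mem_nhdsWithin] with s h1 h2 h3 hs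
      have h4 := sum_char_SW (F := F) (m := m) 1 hs
      simp only [inv_one, Units.val_one, map_one, one_mul] at h4
      have h5 := congrArg Complex.re h4
      rw [Complex.re_sum, ← Complex.ofReal_natCast, Complex.re_ofReal_mul] at h5
      rw [← sum_add_sum_compl (XH τ₀ hζ), ← add_sum_erase _ _ (mem_compl.mpr hχ)] at h5
      have h6 : ∑ χ' ∈ XH τ₀ hζ, (SW F (fun n => χ' (n : ZMod m)) s).re ≤
          x * Real.log (1 / (s - 1)) + ∑ χ' ∈ XH τ₀ hζ, B₁ χ' := by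
        refine (sum_le_sum fun χ' hχ' => h2 χ' hχ').trans (le_of_eq ?_)
        rw [sum_add_distrib, sum_const, nsmul_eq_mul]
      have h7 : ∑ χ' ∈ ((XH τ₀ hζ)ᶜ).erase χ, (SW F (fun n => χ' (n : ZMod m)) s).re ≤
          ∑ χ' ∈ ((XH τ₀ hζ)ᶜ).erase χ, B χ' :=
        sum_le_sum fun χ' hχ' => h1 χ' (mem_compl.mp (mem_of_mem_erase hχ'))
      have h8 : x * (Real.log (1 / (s - 1)) - B₂) ≤
          m.totient * (SW F (fun n => if (n : ZMod m) = 1 then 1 else 0) s).re := by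
        rw [← hcard, mul_assoc]
        exact mul_le_mul_of_nonneg_left h3 (Nat.cast_nonneg _)
      linarith
    have hcontra := hbot.eventually_lt_atBot
      (-(x * B₂) - ∑ χ' ∈ XH τ₀ hζ, B₁ χ' - ∑ χ' ∈ ((XH τ₀ hζ)ᶜ).erase χ, B χ')
    obtain ⟨s, hs1, hs2⟩ := (hlow.and hcontra).exists
    linarith
  · exact exists_bound_of_tendsto_ne_zero (killsSmall_of hsm χ) hl hl0

end main

section general

variable {F : Type*} [Field F] [NumberField F] (τ₀ : F →+* AlgebraicClosure ℚ)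
variable {m : ℕ} [NeZero m] {ζ : AlgebraicClosure ℚ} (hζ : IsPrimitiveRoot ζ m)

/-- For `χ` nontrivial on `H`, the sum is bounded. -/
theorem exists_bound_nontriv' {χ : DirichletCharacter ℂ m} (hχ : χ ∉ XH τ₀ hζ) :
    ∃ B : ℝ, ∀ᶠ s in 𝓝[>] (1 : ℝ), ‖SW F (fun n => χ (n : ZMod m)) s‖ ≤ B := by
  set N := ⌈2 * (2 ^ (dK F) + cst F)⌉₊ with hN
  set m' := m * N.factorial with hm'
  have hm'0 : NeZero m' := ⟨mul_ne_zero (NeZero.ne m) (Nat.factorial_ne_zero N)⟩
  have hdvd : m ∣ m' := Dvd.intro _ rfl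
  have hsm : SmallDvd F m' := by
    intro p hp hlt
    have h1 : p ≤ N := by
      have : (p : ℝ) < N := lt_of_lt_of_le hlt (Nat.le_ceil _)
      exact_mod_cast this.le
    exact (Nat.dvd_factorial hp.pos h1).trans (Dvd.intro_left _ rfl)
  obtain ⟨ζ', hζ'⟩ := HasEnoughRootsOfUnity.exists_primitiveRoot (AlgebraicClosure ℚ) m'
  set χ' := DirichletCharacter.changeLevel hdvd χ with hχ'
  -- compatibility of cyclotomic characters
  have hcyc : ∀ σ : GQ, χ' ((cyc hζ' σ : (ZMod m')ˣ) : ZMod m') =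
      χ ((cyc hζ σ : (ZMod m)ˣ) : ZMod m) := by
    intro σ
    rw [hχ', DirichletCharacter.changeLevel_eq_cast_of_dvd]
    congr 1
    -- `ζ` is a power of `ζ'`
    have h1 : ζ ^ m' = 1 := by rw [hm', pow_mul, hζ.pow_eq_one, one_pow]
    obtain ⟨k, -, hk⟩ := hζ'.eq_pow_of_pow_eq_one h1
    have h2 : σ ζ = ζ ^ ((cyc hζ' σ : (ZMod m')ˣ) : ZMod m').val := by
      rw [← hk, map_pow, cyc_spec hζ' σ, ← pow_mul, ← pow_mul, mul_comm]
    rw [cyc_eq_of_pow hζ h2, ZMod.natCast_val]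
  have hχ'X : χ' ∉ XH τ₀ hζ' := by
    intro h
    apply hχ
    rw [mem_XH] at h ⊢
    rintro _ ⟨σ, hσ, rfl⟩
    rw [← hcyc σ]
    exact h _ ⟨σ, hσ, rfl⟩
  obtain ⟨B, hB⟩ := exists_bound_nontriv τ₀ hζ' hsm hχ'X
  obtain ⟨B', hB'⟩ := exists_SW_sub_le (F := F) (w := fun n => χ (n : ZMod m))
    (w' := fun n => χ' (n : ZMod m')) (C := 1) (fun n => DirichletCharacter.norm_le_one χ _)
    (fun n => DirichletCharacter.norm_le_one χ' _) (T := m'.divisors) (by
      intro p hp hpT _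
      have hpm : IsCoprime (p : ℤ) (m' : ℤ) := by
        rw [Nat.isCoprime_iff_coprime]
        exact (Nat.Prime.coprime_iff_not_dvd hp).mpr fun h =>
          hpT (Nat.mem_divisors.mpr ⟨h, NeZero.ne m'⟩)
      have := DirichletCharacter.changeLevel_eq_cast_of_dvd' χ hdvd hpm
      simp only [Int.cast_natCast] at this
      exact this.symm)
  refine ⟨B' + B, ?_⟩
  filter_upwards [hB, self_mem_nhdsWithin] with s h1 hs
  have h2 := hB' s hs
  calc _ = ‖(SW F (fun n => χ (n : ZMod m)) s - SW F (fun n => χ' (n : ZMod m')) s) +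
        SW F (fun n => χ' (n : ZMod m')) s‖ := by rw [sub_add_cancel]
    _ ≤ _ := (norm_add_le _ _).trans (add_le_add h2 h1)

/-- **Dirichlet density of degree one primes of `F` in a residue class mod `m`.** -/
theorem exists_bound_class {c : (ZMod m)ˣ} (hc : c ∈ HF τ₀ hζ) :
    ∃ B : ℝ, ∀ᶠ s in 𝓝[>] (1 : ℝ),
      |Nat.card (HF τ₀ hζ) * ∑' p : Nat.Primes, (if ((p : ℕ) : ZMod m) = c then zterm F s p else 0) -
        Real.log (1 / (s - 1))| ≤ B := by
  have hall : ∀ χ : DirichletCharacter ℂ m, ∃ B : ℝ, ∀ᶠ s in 𝓝[>] (1 : ℝ),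
      ‖χ ((c⁻¹ : (ZMod m)ˣ) : ZMod m) * SW F (fun n => χ (n : ZMod m)) s -
        (if χ ∈ XH τ₀ hζ then (Real.log (1 / (s - 1)) : ℂ) else 0)‖ ≤ B := by
    intro χ
    by_cases hχ : χ ∈ XH τ₀ hζ
    · have h1 : χ ((c⁻¹ : (ZMod m)ˣ) : ZMod m) = 1 :=
        (mem_XH τ₀ hζ).mp hχ _ (inv_mem hc)
      simp only [hχ, if_true, h1, one_mul]
      exact exists_bound_triv τ₀ hζ hχ
    · simp only [hχ, if_false, sub_zero]
      obtain ⟨B, hB⟩ := exists_bound_nontriv' τ₀ hζ hχ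
      refine ⟨B, ?_⟩
      filter_upwards [hB] with s hs
      rw [norm_mul]
      exact (mul_le_of_le_one_left (norm_nonneg _) (DirichletCharacter.norm_le_one χ _)).trans hs
  choose B hB using hall
  have hev := eventually_all.mpr hB
  have hcard := card_XH τ₀ hζ
  have hx : (0 : ℝ) < (XH τ₀ hζ).card := by
    have h1 : 0 < m.totient := Nat.totient_pos.mpr (NeZero.pos m)
    rw [← hcard] at h1
    exact_mod_cast Nat.pos_of_mul_pos_right h1
  refine ⟨(∑ χ, B χ) / (XH τ₀ hζ).card, ?_⟩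
  filter_upwards [hev, self_mem_nhdsWithin] with s h1 hs
  have h2 := sum_char_SW (F := F) c hs
  have h3 : ‖∑ χ : DirichletCharacter ℂ m, (χ ((c⁻¹ : (ZMod m)ˣ) : ZMod m) *
      SW F (fun n => χ (n : ZMod m)) s -
        (if χ ∈ XH τ₀ hζ then (Real.log (1 / (s - 1)) : ℂ) else 0))‖ ≤ ∑ χ, B χ :=
    (norm_sum_le _ _).trans (sum_le_sum fun χ _ => h1 χ)
  rw [sum_sub_distrib, h2, sum_ite_mem, univ_inter, sum_const, nsmul_eq_mul] at h3
  have h4 : SW F (fun n => if (n : ZMod m) = c then 1 else 0) s =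
      ((∑' p : Nat.Primes, (if ((p : ℕ) : ZMod m) = c then zterm F s p else 0) : ℝ) : ℂ) := by
    rw [SW, Complex.ofReal_tsum]
    refine tsum_congr fun p => ?_
    split_ifs <;> simp
  rw [h4] at h3
  set R := ∑' p : Nat.Primes, (if ((p : ℕ) : ZMod m) = c then zterm F s p else 0) with hR
  have h5 : |(m.totient : ℝ) * R - (XH τ₀ hζ).card * Real.log (1 / (s - 1))| ≤ ∑ χ, B χ := by
    have e : ((m.totient : ℂ) * (R : ℂ) - ((XH τ₀ hζ).card : ℂ) * (Real.log (1 / (s - 1)) : ℂ)) =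
        (((m.totient : ℝ) * R - (XH τ₀ hζ).card * Real.log (1 / (s - 1)) : ℝ) : ℂ) := by
      push_cast
      ring
    rw [e, Complex.norm_real, Real.norm_eq_abs] at h3
    exact h3
  have h6 : (m.totient : ℝ) = (XH τ₀ hζ).card * Nat.card (HF τ₀ hζ) := by
    exact_mod_cast hcard.symm
  rw [h6] at h5
  rw [le_div_iff₀ hx]
  calc |Nat.card (HF τ₀ hζ) * R - Real.log (1 / (s - 1))| * ((XH τ₀ hζ).card : ℝ)
      = |((XH τ₀ hζ).card * Nat.card (HF τ₀ hζ) : ℝ) * R -
          (XH τ₀ hζ).card * Real.log (1 / (s - 1))| := by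
        rw [mul_comm, ← abs_of_pos hx, ← abs_mul, abs_of_pos hx]
        congr 1
        ring
    _ ≤ _ := h5

end general

end Fermat.Agent.FrobDensity
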