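import Mathlib
import Fermat.Agent.Frob.LDens2

set_option autoImplicit false
set_option linter.unusedSectionVars false

open Finset NumberField Module Filter Topology

open scoped Classical

namespace Fermat.Agent.FrobDensity

open Fermat.Agent.Frob

/-! ### Prime sums -/

/-- Weighted prime sums. -/
noncomputable def PS (a : ℕ → ℝ) (s : ℝ) : ℝ := ∑' p : Nat.Primes, a p * (p : ℝ) ^ (-s)

lemma summable_primes_rpow {s : ℝ} (hs : 1 < s) : Summable fun p : Nat.Primes => ((p : ℕ) : ℝ) ^ (-s) :=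
  Nat.Primes.summable_rpow.mpr (by linarith)

lemma summable_PS {a : ℕ → ℝ} {C : ℝ} (ha : ∀ n, |a n| ≤ C) {s : ℝ} (hs : 1 < s) :
    Summable fun p : Nat.Primes => a p * (p : ℝ) ^ (-s) :=
  Summable.of_norm_bounded (g := fun p : Nat.Primes => C * ((p : ℕ) : ℝ) ^ (-s))
    ((summable_primes_rpow hs).mul_left C) fun p => by
      have h0 : 0 ≤ ((p : ℕ) : ℝ) ^ (-s) := by positivity
      rw [norm_mul, Real.norm_eq_abs, Real.norm_eq_abs, abs_of_nonneg h0]
      exact mul_le_mul_of_nonneg_right (ha _) h0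

lemma exists_PS_sub_le {a b : ℕ → ℝ} {C : ℝ} (ha : ∀ n, |a n| ≤ C) (hb : ∀ n, |b n| ≤ C)
    {T : Finset ℕ} (h : ∀ p : ℕ, p.Prime → p ∉ T → a p = b p) :
    ∃ B : ℝ, ∀ s : ℝ, 1 < s → |PS a s - PS b s| ≤ B := by
  have hC : 0 ≤ C := (abs_nonneg _).trans (ha 0)
  let T' : Finset Nat.Primes := T.preimage Subtype.val Subtype.val_injective.injOn
  refine ⟨∑ p ∈ T', 2 * C, fun s hs => ?_⟩
  rw [PS, PS, ← (summable_PS ha hs).tsum_sub (summable_PS hb hs)]
  have h0 : ∀ p ∉ T', a p * (p : ℝ) ^ (-s) - b p * (p : ℝ) ^ (-s) = 0 := by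
    intro p hp
    rw [h p p.2 (fun h' => hp (Finset.mem_preimage.mpr h')), sub_self]
  rw [tsum_eq_sum h0]
  refine (abs_sum_le_sum_abs _ _).trans (sum_le_sum fun p _ => ?_)
  have h1 : (1 : ℝ) ≤ (p : ℕ) := by exact_mod_cast p.2.one_lt.le
  have h2 : ((p : ℕ) : ℝ) ^ (-s) ≤ 1 := Real.rpow_le_one_of_one_le_of_nonpos h1 (by linarith)
  have h3 : 0 ≤ ((p : ℕ) : ℝ) ^ (-s) := by positivity
  rw [← sub_mul, abs_mul, abs_of_nonneg h3]
  have h4 : |a p - b p| ≤ 2 * C := (abs_sub _ _).trans (by linarith [ha p, hb p])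
  calc _ ≤ (2 * C) * 1 := mul_le_mul h4 h2 h3 (by linarith)
    _ = _ := mul_one _

lemma PS_const_mul (c : ℝ) (a : ℕ → ℝ) (s : ℝ) : PS (fun n => c * a n) s = c * PS a s := by
  rw [PS, PS, ← tsum_mul_left]
  exact tsum_congr fun p => by ring

lemma PS_sum {ι : Type*} (t : Finset ι) (a : ι → ℕ → ℝ) {C : ℝ} (ha : ∀ i ∈ t, ∀ n, |a i n| ≤ C)
    {s : ℝ} (hs : 1 < s) : PS (fun n => ∑ i ∈ t, a i n) s = ∑ i ∈ t, PS (a i) s := by
  unfold PS
  rw [← Summable.tsum_finsetSum fun i hi => summable_PS (ha i hi) hs]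
  exact tsum_congr fun p => by rw [sum_mul]

lemma PS_mono {a b : ℕ → ℝ} {C : ℝ} (ha : ∀ n, |a n| ≤ C) (hb : ∀ n, |b n| ≤ C)
    (h : ∀ p : ℕ, p.Prime → a p ≤ b p) {s : ℝ} (hs : 1 < s) : PS a s ≤ PS b s := by
  refine (summable_PS ha hs).tsum_le_tsum (fun p => ?_) (summable_PS hb hs)
  exact mul_le_mul_of_nonneg_right (h p p.2) (by positivity)

lemma idealCount_rat_bad : ∃ T : Finset ℕ, ∀ p : ℕ, p.Prime → p ∉ T → idealCount ℚ p = 1 := by
  obtain ⟨T, hT⟩ := exists_bad ℚ 1
  refine ⟨T, fun p hp hpT => ?_⟩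
  obtain ⟨-, h⟩ := hT p hp hpT
  obtain ⟨A, hA, σ, hσ⟩ := Frob.exists_frobenius p hp
  rw [h A hA σ hσ]
  have : Unique {τ : ℚ →+* AlgebraicClosure ℚ // ∀ x, σ (τ x) = τ x} :=
    { default := ⟨algebraMap ℚ _, fun x => by simp⟩
      uniq := fun τ => Subtype.ext (Subsingleton.elim _ _) }
  exact Nat.card_unique

lemma exists_bound_one : ∃ B : ℝ, ∀ᶠ s in 𝓝[>] (1 : ℝ),
    |PS (fun _ => 1) s - Real.log (1 / (s - 1))| ≤ B := by
  obtain ⟨B, hB⟩ := exists_bound ℚ
  obtain ⟨T, hT⟩ := idealCount_rat_bad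
  have hbd : ∀ p : ℕ, |if p.Prime then (idealCount ℚ p : ℝ) else 0| ≤ 2 ^ (dK ℚ) := by
    intro p
    split_ifs with hp
    · rw [abs_of_nonneg (Nat.cast_nonneg _)]
      have := idealCount_prime_pow_le (K := ℚ) hp 1
      rw [pow_one] at this
      exact_mod_cast this
    · simp
  have h1bd : ∀ p : ℕ, |(fun _ : ℕ => (1 : ℝ)) p| ≤ 2 ^ (dK ℚ) := by
    intro p
    simp only [abs_one]
    exact one_le_pow₀ (by norm_num)
  obtain ⟨B', hB'⟩ := exists_PS_sub_le (a := fun _ => (1 : ℝ))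
    (b := fun p => if p.Prime then (idealCount ℚ p : ℝ) else 0) h1bd hbd (T := T) (by
      intro p hp hpT
      simp only [hp, if_true, hT p hp hpT, Nat.cast_one])
  refine ⟨B' + B, ?_⟩
  filter_upwards [hB, self_mem_nhdsWithin] with s h1 hs
  have h2 := hB' s hs
  have h3 : PS (fun p => if p.Prime then (idealCount ℚ p : ℝ) else 0) s =
      ∑' p : Nat.Primes, zterm ℚ s p := by
    unfold PS zterm
    exact tsum_congr fun p => by simp [p.2]
  rw [h3] at h2
  calc _ = |(PS (fun _ => 1) s - ∑' p : Nat.Primes, zterm ℚ s p) +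
      (∑' p : Nat.Primes, zterm ℚ s p - Real.log (1 / (s - 1)))| := by rw [sub_add_sub_cancel]
    _ ≤ _ := (abs_add_le _ _).trans (add_le_add h2 h1)

/-! ### Frobenius elements -/

/-- A chosen Frobenius element at `p` (for `p` not prime: `1`). -/
noncomputable def frob (p : ℕ) : GQ :=
  if hp : p.Prime then (Frob.exists_frobenius p hp).choose_spec.2.choose else 1

lemma exists_frob_place {p : ℕ} (hp : p.Prime) : ∃ A : ValuationSubring (AlgebraicClosure ℚ),
    A.LiesOverPrime p ∧ A.IsFrobeniusAt (frob p) p := by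
  refine ⟨(Frob.exists_frobenius p hp).choose, (Frob.exists_frobenius p hp).choose_spec.1, ?_⟩
  rw [frob, dif_pos hp]
  exact (Frob.exists_frobenius p hp).choose_spec.2.choose_spec

/-- number of conjugators between Frobenius and `g`. -/
noncomputable def NC {G : Type*} [Group G] (ψ : GQ →* G) (g : G) (p : ℕ) : ℝ :=
  (Nat.card {x : G // x⁻¹ * ψ (frob p) * x = g} : ℝ)

lemma NC_nonneg {G : Type*} [Group G] (ψ : GQ →* G) (g : G) (p : ℕ) : 0 ≤ NC ψ g p :=
  Nat.cast_nonneg _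

lemma NC_le {G : Type*} [Group G] [Finite G] (ψ : GQ →* G) (g : G) (p : ℕ) :
    NC ψ g p ≤ Nat.card G := by
  unfold NC
  exact_mod_cast Nat.card_le_card_of_injective _ Subtype.val_injective

lemma abs_NC_le {G : Type*} [Group G] [Finite G] (ψ : GQ →* G) (g : G) (p : ℕ) :
    |NC ψ g p| ≤ Nat.card G := by
  rw [abs_of_nonneg (NC_nonneg ψ g p)]; exact NC_le ψ g p

lemma sum_NC {G : Type*} [Group G] [Fintype G] (ψ : GQ →* G) (p : ℕ) :
    ∑ g : G, NC ψ g p = Nat.card G := by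
  unfold NC
  rw [← Nat.cast_sum]
  congr 1
  simp only [Nat.card_eq_fintype_card]
  rw [← Fintype.card_sigma]
  exact Fintype.card_congr (Equiv.sigmaFiberEquiv fun x : G => x⁻¹ * ψ (frob p) * x)

section good

variable (M : IntermediateField ℚ (AlgebraicClosure ℚ)) [FiniteDimensional ℚ M] [IsGalois ℚ M]

lemma restrict_eq_iff {σ σ' : GQ} : AlgEquiv.restrictNormalHom M σ = AlgEquiv.restrictNormalHom M σ' ↔
    ∀ x ∈ M, σ x = σ' x := by
  constructor
  · intro h x hx
    have h1 := AlgEquiv.restrictNormal_commutes σ M ⟨x, hx⟩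
    have h2 := AlgEquiv.restrictNormal_commutes σ' M ⟨x, hx⟩
    have h3 : σ.restrictNormal M = σ'.restrictNormal M := h
    rw [h3] at h1
    exact h1.symm.trans h2
  · intro h
    ext x
    have h1 := AlgEquiv.restrictNormal_commutes σ M x
    have h2 := AlgEquiv.restrictNormal_commutes σ' M x
    have h3 := h x x.2
    exact h1.trans (h3.trans h2.symm)

variable {m : ℕ} [NeZero m] {ζ : AlgebraicClosure ℚ} (hζ : IsPrimitiveRoot ζ m)

lemma cyc_eq_of_restrict (hζM : ζ ∈ M) {σ σ' : GQ}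
    (h : AlgEquiv.restrictNormalHom M σ = AlgEquiv.restrictNormalHom M σ') :
    cyc hζ σ = cyc hζ σ' :=
  cyc_eq_cyc_of hζ ((restrict_eq_iff M).mp h ζ hζM)

/-- The key estimate: elements `g` whose powers are detected by the cyclotomic character. -/
theorem good_bound (hζM : ζ ∈ M) (σ : GQ)
    (hgood : ∀ j : ℕ, cyc hζ (σ ^ j) = 1 → (AlgEquiv.restrictNormalHom M σ) ^ j = 1) :
    ∃ B : ℝ, ∀ᶠ s in 𝓝[>] (1 : ℝ),
      |PS (NC (AlgEquiv.restrictNormalHom M) (AlgEquiv.restrictNormalHom M σ)) s -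
        Real.log (1 / (s - 1))| ≤ B := by
  set g := AlgEquiv.restrictNormalHom M σ with hg
  set c := cyc hζ σ with hc
  let F : IntermediateField ℚ M := IntermediateField.fixedField (Subgroup.zpowers g)
  have hNF : NumberField F := ⟨⟩
  let τ₀ : F →+* AlgebraicClosure ℚ := (algebraMap M (AlgebraicClosure ℚ)).comp (algebraMap F M)
  have hτ₀ : ∀ x : F, τ₀ x = ((x : M) : AlgebraicClosure ℚ) := fun _ => rfl
  -- the stabiliser
  have hstab : ∀ τ : GQ, τ ∈ stab τ₀ ↔ AlgEquiv.restrictNormalHom M τ ∈ Subgroup.zpowers g := by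
    intro τ
    have h1 : AlgEquiv.restrictNormalHom M τ ∈ Subgroup.zpowers g ↔
        AlgEquiv.restrictNormalHom M τ ∈ F.fixingSubgroup := by
      rw [IntermediateField.fixingSubgroup_fixedField]
    rw [h1, IntermediateField.mem_fixingSubgroup_iff, mem_stab]
    have key : ∀ x : M, τ (x : AlgebraicClosure ℚ) =
        ((AlgEquiv.restrictNormalHom M τ x : M) : AlgebraicClosure ℚ) := fun x =>
      (AlgEquiv.restrictNormal_commutes τ M x).symm
    constructor
    · intro h x hx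
      have h2 := h ⟨x, hx⟩
      rw [hτ₀, key] at h2
      exact Subtype.ext h2
    · intro h x
      rw [hτ₀, key, h x x.2]
  have hcyc_pow : ∀ {τ : GQ}, τ ∈ stab τ₀ → ∃ j : ℤ, cyc hζ τ = c ^ j ∧
      AlgEquiv.restrictNormalHom M τ = g ^ j := by
    intro τ hτ
    obtain ⟨j, hj⟩ := (hstab τ).mp hτ
    refine ⟨j, ?_, hj.symm⟩
    rw [hc, ← map_zpow]
    apply cyc_eq_of_restrict M hζ hζM
    rw [map_zpow]
    exact hj.symm
  have hHF : HF τ₀ hζ = Subgroup.zpowers c := by
    apply le_antisymm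
    · rintro _ ⟨τ, hτ, rfl⟩
      obtain ⟨j, hj, -⟩ := hcyc_pow hτ
      rw [hj]
      exact ⟨j, rfl⟩
    · rw [Subgroup.zpowers_le]
      exact ⟨σ, (hstab σ).mpr (Subgroup.mem_zpowers g), rfl⟩
  have hord : orderOf c = orderOf g := by
    rw [orderOf_eq_orderOf_iff]
    intro n
    constructor
    · intro h
      apply hgood
      rw [map_pow]
      exact h
    · intro h
      rw [hc, ← map_pow, ← map_one (cyc hζ)]
      apply cyc_eq_of_restrict M hζ hζM
      rw [map_pow, map_one]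
      exact h
  have hcard : Nat.card (HF τ₀ hζ) = orderOf g := by rw [hHF, Nat.card_zpowers, hord]
  have hcmem : c ∈ HF τ₀ hζ := by rw [hHF]; exact Subgroup.mem_zpowers c
  obtain ⟨B, hB⟩ := exists_bound_class τ₀ hζ hcmem
  obtain ⟨T, hT⟩ := exists_bad F m
  -- compare the coefficients
  set b : ℕ → ℝ := fun p => orderOf g * (if (p.Prime ∧ (p : ZMod m) = c) then (idealCount F p : ℝ) else 0)
    with hb
  have hbbd : ∀ p, |b p| ≤ orderOf g * 2 ^ (dK F) + Nat.card (M ≃ₐ[ℚ] M) := by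
    intro p
    rw [hb]
    simp only
    rw [abs_mul, abs_of_nonneg (Nat.cast_nonneg _)]
    have h0 : (0 : ℝ) ≤ Nat.card (M ≃ₐ[ℚ] M) := Nat.cast_nonneg _
    split_ifs with h
    · rw [abs_of_nonneg (Nat.cast_nonneg _)]
      have := idealCount_prime_pow_le (K := F) h.1 1
      rw [pow_one] at this
      have h2 : (idealCount F p : ℝ) ≤ 2 ^ (dK F) := by exact_mod_cast this
      have h3 : (orderOf g : ℝ) * (idealCount F p : ℝ) ≤ orderOf g * 2 ^ (dK F) :=
        mul_le_mul_of_nonneg_left h2 (Nat.cast_nonneg _)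
      linarith
    · rw [abs_zero, mul_zero]
      positivity
  have habd : ∀ p, |NC (AlgEquiv.restrictNormalHom M) g p| ≤
      orderOf g * 2 ^ (dK F) + Nat.card (M ≃ₐ[ℚ] M) := by
    intro p
    refine (abs_NC_le _ _ _).trans ?_
    have : (0 : ℝ) ≤ (orderOf g : ℝ) * 2 ^ (dK F) := by positivity
    linarith
  obtain ⟨B', hB'⟩ := exists_PS_sub_le habd hbbd (T := T) (by
    intro p hp hpT
    obtain ⟨hpm, hcount⟩ := hT p hp hpT
    obtain ⟨A, hA, hfr⟩ := exists_frob_place hp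
    have hcf := cyc_frob hζ hA hfr hpm
    rw [hb, NC]
    simp only
    have hmem : ∀ x : M ≃ₐ[ℚ] M, x⁻¹ * AlgEquiv.restrictNormalHom M (frob p) * x ∈
        Subgroup.zpowers g → ∃ j : ℤ, cyc hζ (frob p) = c ^ j ∧
          x⁻¹ * AlgEquiv.restrictNormalHom M (frob p) * x = g ^ j := by
      intro x hx
      obtain ⟨y, rfl⟩ := AlgEquiv.restrictNormalHom_surjective (F := ℚ) (K₁ := M)
        (AlgebraicClosure ℚ) x
      have h1 : y⁻¹ * frob p * y ∈ stab τ₀ := by
        rw [hstab, map_mul, map_mul, map_inv]; exact hx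
      obtain ⟨j, hj, hj'⟩ := hcyc_pow h1
      refine ⟨j, ?_, ?_⟩
      · rw [← hj, map_mul, map_mul, map_inv, mul_comm, mul_inv_cancel_left]
      · rw [← hj', map_mul, map_mul, map_inv]
    by_cases hpc : (p : ZMod m) = c
    · rw [if_pos ⟨hp, hpc⟩, hcount A hA (frob p) hfr]
      have h2 : Nat.card {τ : F →+* AlgebraicClosure ℚ // ∀ x, frob p (τ x) = τ x} =
          Nat.card (MulAction.fixedBy ((M ≃ₐ[ℚ] M) ⧸ Subgroup.zpowers g)
            (AlgEquiv.restrictNormalHom M (frob p))) := card_fixed_embeddings M _ (frob p)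
      rw [h2]
      have h3 := FrobDensityComb.card_conj_mem (Subgroup.zpowers g)
        (AlgEquiv.restrictNormalHom M (frob p))
      rw [Nat.card_zpowers] at h3
      have h4 : Nat.card {x : M ≃ₐ[ℚ] M // x⁻¹ * AlgEquiv.restrictNormalHom M (frob p) * x = g} =
          Nat.card {x : M ≃ₐ[ℚ] M // x⁻¹ * AlgEquiv.restrictNormalHom M (frob p) * x ∈
            Subgroup.zpowers g} := by
        refine Nat.card_congr (Equiv.subtypeEquivRight fun x => ?_)
        constructor
        · intro h; rw [h]; exact Subgroup.mem_zpowers g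
        · intro h
          obtain ⟨j, hj, hj'⟩ := hmem x h
          rw [hj']
          have h5 : cyc hζ (frob p) = c := Units.ext (hcf.trans hpc)
          rw [h5] at hj
          have h6 : c ^ (j - 1) = 1 := by rw [zpow_sub, ← hj, zpow_one, mul_inv_cancel]
          have h7 : g ^ (j - 1) = 1 := by
            rw [← orderOf_dvd_iff_zpow_eq_one] at h6 ⊢
            rwa [← hord]
          have h8 : g ^ j = g ^ (j - 1) * g := by rw [← zpow_add_one, sub_add_cancel]
          rw [h8, h7, one_mul]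
      rw [h4, h3]
      push_cast
      rfl
    · rw [if_neg (fun h => hpc h.2), mul_zero, Nat.cast_eq_zero, Nat.card_eq_zero]
      left
      refine ⟨fun ⟨x, hx⟩ => hpc ?_⟩
      obtain ⟨y, rfl⟩ := AlgEquiv.restrictNormalHom_surjective (F := ℚ) (K₁ := M)
        (AlgebraicClosure ℚ) x
      rw [← map_inv, ← map_mul, ← map_mul, hg] at hx
      have h9 := cyc_eq_of_restrict M hζ hζM hx
      rw [map_mul, map_mul, map_inv, mul_comm, mul_inv_cancel_left] at h9
      rw [← hcf, h9])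
  refine ⟨B' + B, ?_⟩
  filter_upwards [hB, self_mem_nhdsWithin] with s h1 hs
  have h2 := hB' s hs
  have h3 : PS b s = Nat.card (HF τ₀ hζ) *
      ∑' p : Nat.Primes, (if ((p : ℕ) : ZMod m) = c then zterm F s p else 0) := by
    rw [hb, PS_const_mul, hcard]
    congr 1
    unfold PS zterm
    refine tsum_congr fun p => ?_
    by_cases hpc : ((p : ℕ) : ZMod m) = c
    · have hp2 : (p : ℕ).Prime := p.2
      simp only [hp2, hpc, and_self, if_true]
    · simp only [hpc, and_false, if_false, zero_mul]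
  rw [h3] at h2
  calc _ = |(PS (NC (AlgEquiv.restrictNormalHom M) g) s - Nat.card (HF τ₀ hζ) *
      ∑' p : Nat.Primes, (if ((p : ℕ) : ZMod m) = c then zterm F s p else 0)) +
      (Nat.card (HF τ₀ hζ) *
      ∑' p : Nat.Primes, (if ((p : ℕ) : ZMod m) = c then zterm F s p else 0) -
      Real.log (1 / (s - 1)))| := by rw [sub_add_sub_cancel]
    _ ≤ _ := (abs_add_le _ _).trans (add_le_add h2 h1)

end good

end Fermat.Agent.FrobDensity
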