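import Mathlib
import Fermat.Agent.Frob.Cheb1

set_option autoImplicit false
set_option linter.unusedSectionVars false

open Finset NumberField Module Filter Topology

open scoped Classical

namespace Fermat.Agent.FrobDensity

open Fermat.Agent.Frob

/-! ### Group theoretic counting -/

lemma exists_prime_pow_eq_one {G : Type*} [CommGroup G] [Fintype G] {N k n : ℕ}
    (hk : 1 ≤ k) (hNk : N ^ k ∣ Fintype.card G) (hN : N ≠ 0) (hn : n ∣ N) {x : G}
    (hx : ¬ n ∣ orderOf x) : ∃ r ∈ N.primeFactors, x ^ (Fintype.card G / r ^ k) = 1 ∧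
      r ^ k ∣ Fintype.card G := by
  have hd0 : orderOf x ≠ 0 := (orderOf_pos x).ne'
  rw [Nat.dvd_iff_prime_pow_dvd_dvd] at hx
  push Not at hx
  obtain ⟨r, j, hr, hrn, hrd⟩ := hx
  obtain ⟨i, d', hd', hd⟩ := Nat.exists_eq_pow_mul_and_not_dvd hd0 r hr.ne_one
  have hij : i < j := by
    by_contra h
    push Not at h
    apply hrd
    rw [hd]
    exact (pow_dvd_pow r h).mul_right _
  have hdG : orderOf x ∣ Fintype.card G := orderOf_dvd_card
  have h1 : r ^ (i + k) ∣ Fintype.card G := by
    refine dvd_trans ?_ hNk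
    refine dvd_trans ?_ (pow_dvd_pow_of_dvd (hrn.trans hn) k)
    rw [← pow_mul]
    apply pow_dvd_pow
    have : (i + 1) * k ≤ j * k := Nat.mul_le_mul_right k hij
    nlinarith [Nat.mul_le_mul_left i hk]
  have h2 : d' ∣ Fintype.card G := (Dvd.intro_left _ hd.symm).trans hdG
  have hcop : (r ^ (i + k)).Coprime d' := Nat.Coprime.pow_left _ ((Nat.Prime.coprime_iff_not_dvd hr).mpr hd')
  have h3 := hcop.mul_dvd_of_dvd_of_dvd h1 h2
  have h4 : r ^ (i + k) * d' = r ^ k * orderOf x := by
    rw [hd, pow_add]; ring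
  rw [h4] at h3
  have hrN : r ∣ N := by
    refine dvd_trans ?_ (hrn.trans hn)
    exact dvd_pow_self r (by omega)
  obtain ⟨t, ht⟩ := h3
  refine ⟨r, Nat.mem_primeFactors.mpr ⟨hr, hrN, hN⟩, ?_, ?_⟩
  · have h5 : Fintype.card G / r ^ k = orderOf x * t := by
      rw [ht, mul_assoc, Nat.mul_div_cancel_left _ (pow_pos hr.pos k)]
    rw [h5, pow_mul, pow_orderOf_eq_one, one_pow]
  · exact ⟨orderOf x * t, by rw [ht, mul_assoc]⟩

lemma card_bad_le {G : Type*} [CommGroup G] [Fintype G] [IsCyclic G] {N k n : ℕ}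
    (hk : 1 ≤ k) (hNk : N ^ k ∣ Fintype.card G) (hN : N ≠ 0) (hn : n ∣ N) :
    (univ.filter fun x : G => ¬ n ∣ orderOf x).card * 2 ^ k ≤ N * Fintype.card G := by
  have h1 : (univ.filter fun x : G => ¬ n ∣ orderOf x) ⊆
      (N.primeFactors.filter fun r => r ^ k ∣ Fintype.card G).biUnion
        fun r => univ.filter fun x : G => x ^ (Fintype.card G / r ^ k) = 1 := by
    intro x hx
    rw [mem_filter] at hx
    obtain ⟨r, hr, hx1, hx2⟩ := exists_prime_pow_eq_one hk hNk hN hn hx.2
    rw [mem_biUnion]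
    exact ⟨r, mem_filter.mpr ⟨hr, hx2⟩, mem_filter.mpr ⟨mem_univ _, hx1⟩⟩
  have h2 := (card_le_card h1).trans card_biUnion_le
  have hpos : 0 < Fintype.card G := Fintype.card_pos
  have h3 : ∀ r ∈ N.primeFactors.filter (fun r => r ^ k ∣ Fintype.card G),
      (univ.filter fun x : G => x ^ (Fintype.card G / r ^ k) = 1).card * 2 ^ k ≤
        Fintype.card G := by
    intro r hr
    rw [mem_filter, Nat.mem_primeFactors] at hr
    have hrp := hr.1.1
    have h4 : 0 < Fintype.card G / r ^ k := Nat.div_pos (Nat.le_of_dvd hpos hr.2) (pow_pos hrp.pos k)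
    have h5 := IsCyclic.card_pow_eq_one_le (α := G) h4
    calc _ ≤ (Fintype.card G / r ^ k) * r ^ k :=
          Nat.mul_le_mul h5 (Nat.pow_le_pow_left hrp.two_le k)
      _ = _ := Nat.div_mul_cancel hr.2
  calc (univ.filter fun x : G => ¬ n ∣ orderOf x).card * 2 ^ k
      ≤ (∑ r ∈ N.primeFactors.filter (fun r => r ^ k ∣ Fintype.card G),
          (univ.filter fun x : G => x ^ (Fintype.card G / r ^ k) = 1).card) * 2 ^ k :=
        Nat.mul_le_mul_right _ h2
    _ = ∑ r ∈ N.primeFactors.filter (fun r => r ^ k ∣ Fintype.card G),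
          (univ.filter fun x : G => x ^ (Fintype.card G / r ^ k) = 1).card * 2 ^ k := by
        rw [sum_mul]
    _ ≤ ∑ r ∈ N.primeFactors.filter (fun r => r ^ k ∣ Fintype.card G), Fintype.card G :=
        sum_le_sum h3
    _ = (N.primeFactors.filter (fun r => r ^ k ∣ Fintype.card G)).card * Fintype.card G := by
        rw [sum_const, smul_eq_mul]
    _ ≤ N * Fintype.card G := by
        apply Nat.mul_le_mul_right
        refine (card_filter_le _ _).trans ?_
        have h6 : N.primeFactors ⊆ Finset.Icc 1 N := by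
          intro r hr
          rw [Nat.mem_primeFactors] at hr
          exact Finset.mem_Icc.mpr ⟨hr.1.pos, Nat.le_of_dvd (Nat.pos_of_ne_zero hN) hr.2.1⟩
        have h7 := card_le_card h6
        simpa using h7

/-- fibres of a surjective homomorphism -/
lemma card_fiber {G H : Type*} [Group G] [Group H] [Fintype G] [Fintype H] (π : G →* H)
    (hπ : Function.Surjective π) (h : H) :
    (univ.filter fun x => π x = h).card * Fintype.card H = Fintype.card G := by
  have h1 : Fintype.card G = ∑ y : H, (univ.filter fun x => π x = y).card := by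
    rw [← card_univ, card_eq_sum_card_fiberwise (f := π) (t := univ) (fun x _ => mem_univ _)]
  rw [h1, sum_congr rfl fun y _ => MonoidHom.card_fiber_eq_of_mem_range π (hπ y) (hπ h), sum_const,
    smul_eq_mul, card_univ, mul_comm]

lemma card_preimage {G H : Type*} [Group G] [Group H] [Fintype G] [Fintype H] (π : G →* H)
    (hπ : Function.Surjective π) (h : H) (P : H → Prop) :
    (univ.filter fun x => P (π x)).card = (univ.filter fun x => π x = h).card *
      (univ.filter P).card := by
  rw [card_eq_sum_card_fiberwise (f := π) (t := univ.filter P)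
    (fun x hx => by simpa using hx)]
  have h1 : ∀ y ∈ univ.filter P, (filter (fun x => π x = y) (univ.filter fun x => P (π x))).card =
      (univ.filter fun x => π x = h).card := by
    intro y hy
    rw [← MonoidHom.card_fiber_eq_of_mem_range π (hπ y) (hπ h)]
    congr 1
    ext x
    simp only [mem_filter, mem_univ, true_and, and_iff_right_iff_imp]
    rintro rfl
    exact (mem_filter.mp hy).2
  rw [sum_congr rfl h1, sum_const, smul_eq_mul, mul_comm]

/-- relation between the counting functions at two levels -/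
lemma sum_NC_fiber {G H : Type*} [Group G] [Group H] [Fintype G] [Fintype H] (ψ : GQ →* G)
    (ψ' : GQ →* H) (π : G →* H) (hπ : Function.Surjective π) (hc : ∀ σ, π (ψ σ) = ψ' σ) (h : H)
    (p : ℕ) :
    ∑ x ∈ univ.filter (fun x => π x = h), NC ψ x p =
      (univ.filter fun x => π x = h).card * NC ψ' h p := by
  unfold NC
  rw [← Nat.cast_sum, ← Nat.cast_mul]
  congr 1
  have h1 := card_preimage π hπ h (fun y => y⁻¹ * ψ' (frob p) * y = h)
  have h2 : Nat.card {y : H // y⁻¹ * ψ' (frob p) * y = h} =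
      (univ.filter fun y => y⁻¹ * ψ' (frob p) * y = h).card := by
    rw [Nat.card_eq_fintype_card, Fintype.card_subtype]
  rw [h2, ← h1]
  rw [card_eq_sum_card_fiberwise (f := fun x : G => x⁻¹ * ψ (frob p) * x)
    (t := univ.filter (fun x => π x = h))]
  · refine sum_congr rfl fun x hx => ?_
    rw [Nat.card_eq_fintype_card, Fintype.card_subtype]
    congr 1
    ext y
    simp only [mem_filter, mem_univ, true_and]
    constructor
    · intro hy
      refine ⟨?_, hy⟩
      have := congrArg π hy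
      rw [map_mul, map_mul, map_inv, hc] at this
      rw [this]
      exact (mem_filter.mp hx).2
    · exact fun hy => hy.2
  · intro y hy
    simp only [mem_coe, mem_filter, mem_univ, true_and] at hy ⊢
    rw [map_mul, map_mul, map_inv, hc]
    exact hy

/-! ### The crossing argument -/

/-- Choice of the auxiliary cyclotomic field. -/
theorem lower_bound (L : IntermediateField ℚ (AlgebraicClosure ℚ)) [FiniteDimensional ℚ L]
    [IsGalois ℚ L] (g₀ : L ≃ₐ[ℚ] L) (k : ℕ) (hk : 1 ≤ k) :
    ∃ B : ℝ, ∀ᶠ s in 𝓝[>] (1 : ℝ),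
      (1 - (Nat.card (L ≃ₐ[ℚ] L) : ℝ) ^ 2 / 2 ^ k) * Real.log (1 / (s - 1)) - B ≤
        PS (NC (AlgEquiv.restrictNormalHom L) g₀) s := by
  set N := Nat.card (L ≃ₐ[ℚ] L) with hN
  have hN0 : N ≠ 0 := Nat.card_pos.ne'
  obtain ⟨ℓ, hℓ, -, hℓ1⟩ := Nat.exists_prime_gt_modEq_one (k := N ^ k) 0 (pow_ne_zero k hN0)
  have hfact : Fact ℓ.Prime := ⟨hℓ⟩
  have hNZ : NeZero ℓ := ⟨hℓ.ne_zero⟩
  obtain ⟨ζ, hζ⟩ := HasEnoughRootsOfUnity.exists_primitiveRoot (AlgebraicClosure ℚ) ℓ
  have hζint : IsIntegral ℚ ζ := (hζ.isIntegral (NeZero.pos ℓ)).tower_top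
  have hfd : FiniteDimensional ℚ (IntermediateField.adjoin ℚ {ζ}) :=
    IntermediateField.adjoin.finiteDimensional hζint
  let M : IntermediateField ℚ (AlgebraicClosure ℚ) := L ⊔ IntermediateField.adjoin ℚ {ζ}
  have hLM : L ≤ M := le_sup_left
  have hζM : ζ ∈ M := (le_sup_right : _ ≤ M) (IntermediateField.mem_adjoin_simple_self ℚ ζ)
  have hfdM : FiniteDimensional ℚ M := IntermediateField.finiteDimensional_sup _ _
  have hnM : Normal ℚ M := by
    refine (IntermediateField.normal_iff_forall_map_le' (K := M)).mpr ?_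
    intro σ
    rw [IntermediateField.map_sup]
    refine sup_le_sup ?_ ?_
    · have hnL : Normal ℚ L := IsGalois.to_normal
      exact (IntermediateField.normal_iff_forall_map_le' (K := L)).mp hnL σ
    · rw [IntermediateField.adjoin_map, Set.image_singleton,
        IntermediateField.adjoin_simple_le_iff]
      change σ ζ ∈ _
      rw [cyc_spec hζ σ]
      exact pow_mem (IntermediateField.mem_adjoin_simple_self ℚ ζ) _
  have hgM : IsGalois ℚ M := ⟨⟩
  -- restriction maps
  have hsurjM : Function.Surjective (AlgEquiv.restrictNormalHom (F := ℚ) (K₁ := AlgebraicClosure ℚ) M) :=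
    AlgEquiv.restrictNormalHom_surjective (AlgebraicClosure ℚ)
  have hsurjL : Function.Surjective (AlgEquiv.restrictNormalHom (F := ℚ) (K₁ := AlgebraicClosure ℚ) L) :=
    AlgEquiv.restrictNormalHom_surjective (AlgebraicClosure ℚ)
  set resM : GQ →* (M ≃ₐ[ℚ] M) := AlgEquiv.restrictNormalHom M with hresM
  set resL : GQ →* (L ≃ₐ[ℚ] L) := AlgEquiv.restrictNormalHom L with hresL
  have hkerL : resM.ker ≤ resL.ker := by
    intro σ hσ
    rw [MonoidHom.mem_ker, ← map_one resM, restrict_eq_iff] at hσ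
    rw [MonoidHom.mem_ker, ← map_one resL, restrict_eq_iff]
    exact fun x hx => hσ x (hLM hx)
  have hkerc : resM.ker ≤ (cyc hζ).ker := by
    intro σ hσ
    rw [MonoidHom.mem_ker, ← map_one resM] at hσ
    rw [MonoidHom.mem_ker, ← map_one (cyc hζ)]
    exact cyc_eq_of_restrict M hζ hζM hσ
  let π : (M ≃ₐ[ℚ] M) →* (L ≃ₐ[ℚ] L) := resM.liftOfSurjective hsurjM ⟨resL, hkerL⟩
  let cM : (M ≃ₐ[ℚ] M) →* (ZMod ℓ)ˣ := resM.liftOfSurjective hsurjM ⟨cyc hζ, hkerc⟩
  have hπ : ∀ σ, π (resM σ) = resL σ := fun σ =>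
    MonoidHom.liftOfRightInverse_comp_apply _ _ _ _ _
  have hcM : ∀ σ, cM (resM σ) = cyc hζ σ := fun σ =>
    MonoidHom.liftOfRightInverse_comp_apply _ _ _ _ _
  have hπsurj : Function.Surjective π := by
    intro y
    obtain ⟨σ, rfl⟩ := hsurjL y
    exact ⟨resM σ, hπ σ⟩
  have hinj : ∀ x, π x = 1 → cM x = 1 → x = 1 := by
    intro x h1 h2
    obtain ⟨σ, rfl⟩ := hsurjM x
    rw [hπ, ← map_one resL, restrict_eq_iff] at h1
    rw [hcM] at h2
    rw [← map_one resM, restrict_eq_iff]
    have h3 : M ≤ IntermediateField.fixedField (Subgroup.zpowers σ) := by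
      have key : ∀ y : AlgebraicClosure ℚ, σ y = y →
          y ∈ IntermediateField.fixedField (Subgroup.zpowers σ) := by
        intro y hy
        rw [IntermediateField.mem_fixedField_iff]
        intro g hg
        have h7 : σ ∈ MulAction.stabilizer GQ y := hy
        exact (Subgroup.zpowers_le.mpr h7) hg
      refine sup_le (fun y hy => key y (h1 y hy)) ?_
      rw [IntermediateField.adjoin_simple_le_iff]
      apply key
      have h4 : cyc hζ σ = cyc hζ 1 := by rw [h2, map_one]
      have h5 := cyc_spec hζ σ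
      rw [h4, ← cyc_spec hζ 1] at h5
      exact h5
    intro y hy
    have h6 := h3 hy
    rw [IntermediateField.mem_fixedField_iff] at h6
    exact h6 σ (Subgroup.mem_zpowers σ)
  -- counting
  set S := univ.filter (fun x : M ≃ₐ[ℚ] M => π x = g₀) with hS
  set good := S.filter (fun x => orderOf g₀ ∣ orderOf (cM x)) with hgood
  set bad := S.filter (fun x => ¬ orderOf g₀ ∣ orderOf (cM x)) with hbad
  have hScard : S.card * N = Nat.card (M ≃ₐ[ℚ] M) := by
    rw [hN, Nat.card_eq_fintype_card, Nat.card_eq_fintype_card]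
    exact card_fiber π hπsurj g₀
  have hunits : Fintype.card (ZMod ℓ)ˣ = ℓ - 1 := ZMod.card_units ℓ
  have hMge : ℓ - 1 ≤ Nat.card (M ≃ₐ[ℚ] M) := by
    rw [IsGalois.card_aut_eq_finrank]
    have h1 : finrank ℚ (IntermediateField.adjoin ℚ {ζ}) = ℓ - 1 := by
      rw [IntermediateField.adjoin.finrank hζint,
        ← Polynomial.cyclotomic_eq_minpoly_rat hζ hℓ.pos, Polynomial.natDegree_cyclotomic,
        Nat.totient_prime hℓ]
    rw [← h1]
    have hle : IntermediateField.adjoin ℚ {ζ} ≤ M := le_sup_right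
    exact LinearMap.finrank_le_finrank_of_injective
      (f := (IntermediateField.inclusion hle).toLinearMap)
      (IntermediateField.inclusion_injective hle)
  have hNk : N ^ k ∣ Fintype.card (ZMod ℓ)ˣ := by
    rw [hunits]
    exact (Nat.modEq_iff_dvd' hℓ.one_lt.le).mp hℓ1.symm
  have hbadcard : bad.card * 2 ^ k ≤ N * N * S.card := by
    have h1 : bad.card ≤ (univ.filter fun x : (ZMod ℓ)ˣ => ¬ orderOf g₀ ∣ orderOf x).card := by
      refine card_le_card_of_injOn cM (fun x hx => ?_) ?_
      · have := (mem_filter.mp hx).2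
        simpa using this
      · intro x hx x' hx' hxx'
        have h2 : π x = g₀ := (mem_filter.mp (mem_filter.mp (mem_coe.mp hx)).1).2
        have h3 : π x' = g₀ := (mem_filter.mp (mem_filter.mp (mem_coe.mp hx')).1).2
        have h4 := hinj (x⁻¹ * x') (by rw [map_mul, map_inv, h2, h3, inv_mul_cancel])
          (by rw [map_mul, map_inv, ← hxx', inv_mul_cancel])
        exact (inv_mul_eq_one.mp h4)
    have hdvd : orderOf g₀ ∣ N := by
      rw [hN]; exact orderOf_dvd_natCard g₀
    have h5 := card_bad_le (G := (ZMod ℓ)ˣ) hk hNk hN0 hdvd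
    rw [hunits] at h5
    calc bad.card * 2 ^ k ≤ _ := Nat.mul_le_mul_right _ h1
      _ ≤ N * (ℓ - 1) := h5
      _ ≤ N * (S.card * N) := Nat.mul_le_mul_left _ (hMge.trans hScard.ge)
      _ = _ := by ring
  have hSpos : 0 < S.card := by
    obtain ⟨x, hx⟩ := hπsurj g₀
    exact card_pos.mpr ⟨x, mem_filter.mpr ⟨mem_univ _, hx⟩⟩
  -- the good elements
  have hgb : ∀ x : M ≃ₐ[ℚ] M, ∃ B : ℝ, x ∈ good → ∀ᶠ s in 𝓝[>] (1 : ℝ),
      |PS (NC resM x) s - Real.log (1 / (s - 1))| ≤ B := by
    intro x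
    by_cases hx : x ∈ good
    · obtain ⟨σ, rfl⟩ := hsurjM x
      obtain ⟨B, hB⟩ := good_bound M hζ hζM σ (by
        intro j hj
        have h1 := (mem_filter.mp hx).2
        have h2 : π (resM σ) = g₀ := (mem_filter.mp (mem_filter.mp hx).1).2
        rw [hcM] at h1
        rw [map_pow] at hj
        have h3 : orderOf g₀ ∣ j := h1.trans (orderOf_dvd_of_pow_eq_one hj)
        apply hinj
        · change π ((resM σ) ^ j) = 1
          rw [map_pow, h2]
          exact orderOf_dvd_iff_pow_eq_one.mp h3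
        · change cM ((resM σ) ^ j) = 1
          rw [map_pow, hcM]
          exact hj)
      exact ⟨B, fun _ => hB⟩
    · exact ⟨0, fun h => absurd h hx⟩
  choose B hB using hgb
  have hev : ∀ᶠ s in 𝓝[>] (1 : ℝ), ∀ x : M ≃ₐ[ℚ] M, x ∈ good →
      |PS (NC resM x) s - Real.log (1 / (s - 1))| ≤ B x := by
    rw [eventually_all]
    intro x
    by_cases hx : x ∈ good
    · filter_upwards [hB x hx] with s hs _
      exact hs
    · exact Eventually.of_forall fun s h => absurd h hx
  refine ⟨(∑ x ∈ good, B x) / S.card, ?_⟩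
  filter_upwards [hev, log_nonneg_ev, self_mem_nhdsWithin] with s h1 h2 hs
  have hs1 : (1 : ℝ) < s := hs
  have h3 : (S.card : ℝ) * PS (NC resL g₀) s = ∑ x ∈ S, PS (NC resM x) s := by
    rw [← PS_const_mul, ← PS_sum S (fun x => NC resM x) (C := Nat.card (M ≃ₐ[ℚ] M))
      (fun x _ n => abs_NC_le _ _ _) hs1]
    congr 1
    funext p
    exact (sum_NC_fiber resM resL π hπsurj hπ g₀ p).symm
  have h4 : ∑ x ∈ good, PS (NC resM x) s ≤ ∑ x ∈ S, PS (NC resM x) s := by
    refine sum_le_sum_of_subset_of_nonneg (filter_subset _ _) fun x _ _ => ?_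
    exact tsum_nonneg fun p => mul_nonneg (NC_nonneg _ _ _) (by positivity)
  have h5 : (good.card : ℝ) * Real.log (1 / (s - 1)) - ∑ x ∈ good, B x ≤
      ∑ x ∈ good, PS (NC resM x) s := by
    have : (good.card : ℝ) * Real.log (1 / (s - 1)) - ∑ x ∈ good, B x =
        ∑ x ∈ good, (Real.log (1 / (s - 1)) - B x) := by
      rw [sum_sub_distrib, sum_const, nsmul_eq_mul]
    rw [this]
    refine sum_le_sum fun x hx => ?_
    have := (abs_le.mp (h1 x hx)).1
    linarith
  have hSr : (0 : ℝ) < S.card := by exact_mod_cast hSpos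
  have h6 : (S.card : ℝ) * (1 - (N : ℝ) ^ 2 / 2 ^ k) ≤ good.card := by
    have h7 : (good.card : ℝ) + bad.card = S.card := by
      exact_mod_cast card_filter_add_card_filter_not (s := S) (fun x => orderOf g₀ ∣ orderOf (cM x))
    have h8 : (bad.card : ℝ) * 2 ^ k ≤ N * N * S.card := by exact_mod_cast hbadcard
    have h9 : (bad.card : ℝ) ≤ (N : ℝ) ^ 2 / 2 ^ k * S.card := by
      rw [div_mul_eq_mul_div, le_div_iff₀ (by positivity)]
      calc _ ≤ _ := h8
        _ = _ := by ring
    linarith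
  have h10 : (S.card : ℝ) * ((1 - (N : ℝ) ^ 2 / 2 ^ k) * Real.log (1 / (s - 1)) -
      (∑ x ∈ good, B x) / S.card) ≤ S.card * PS (NC resL g₀) s := by
    rw [mul_sub, mul_div_cancel₀ _ hSr.ne', h3, ← mul_assoc]
    have := mul_le_mul_of_nonneg_right h6 h2
    linarith
  exact le_of_mul_le_mul_left h10 hSr

end Fermat.Agent.FrobDensity
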