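import Mathlib
import Fermat.Agent.Frob.Cheb2

/-!
# Chebotarev's density theorem

* `tendsto_NC` : for `L / ℚ` finite Galois inside `ℚ̄` and `g ∈ Gal(L/ℚ)`,
  `∑ₚ #{x : x⁻¹ Frobₚ x = g} p⁻ˢ ∼ log (1 / (s - 1))`.
* `chebotarev` : for a surjective finite level homomorphism `ψ` onto a finite group `G` and a
  conjugation stable subset `C`, the Dirichlet density of `{p | ψ(Frobₚ) ∈ C}` is `|C| / |G|`.
-/

set_option autoImplicit false
set_option linter.unusedSectionVars false

open Finset NumberField Module Filter Topology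

open scoped Classical

namespace Fermat.Agent.FrobDensity

open Fermat.Agent.Frob

lemma tendsto_log_atTop : Tendsto (fun s : ℝ => Real.log (1 / (s - 1))) (𝓝[>] 1) atTop := by
  have h1 : Tendsto (fun s : ℝ => s - 1) (𝓝[>] 1) (𝓝[>] 0) := by
    refine tendsto_nhdsWithin_iff.mpr ⟨?_, ?_⟩
    · have : Tendsto (fun s : ℝ => s - 1) (𝓝 1) (𝓝 (1 - 1)) := tendsto_id.sub_const 1
      rw [sub_self] at this
      exact this.mono_left nhdsWithin_le_nhds
    · filter_upwards [self_mem_nhdsWithin] with s hs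
      exact Set.mem_Ioi.mpr (sub_pos.mpr (Set.mem_Ioi.mp hs))
  have h2 : Tendsto (fun s : ℝ => (s - 1)⁻¹) (𝓝[>] 1) atTop := tendsto_inv_nhdsGT_zero.comp h1
  have h3 := Real.tendsto_log_atTop.comp h2
  refine h3.congr fun s => ?_
  simp

lemma tendsto_PS_one : Tendsto (fun s : ℝ => PS (fun _ => 1) s / Real.log (1 / (s - 1)))
    (𝓝[>] 1) (𝓝 1) := by
  obtain ⟨B, hB⟩ := exists_bound_one
  have h1 : Tendsto (fun s : ℝ => (PS (fun _ => 1) s - Real.log (1 / (s - 1))) /
      Real.log (1 / (s - 1))) (𝓝[>] 1) (𝓝 0) := by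
    refine squeeze_zero_norm' (a := fun s => B / Real.log (1 / (s - 1))) ?_
      (tendsto_log_atTop.const_div_atTop B)
    filter_upwards [hB, tendsto_log_atTop.eventually_gt_atTop 0] with s h1 h2
    rw [norm_div, Real.norm_eq_abs, Real.norm_eq_abs, abs_of_pos h2]
    gcongr
  have h2 := h1.add_const 1
  rw [zero_add] at h2
  refine h2.congr' ?_
  filter_upwards [tendsto_log_atTop.eventually_gt_atTop 0] with s hs
  rw [sub_div, div_self hs.ne', sub_add_cancel]

/-- Asymptotic of the counting function of a group element. -/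
theorem tendsto_NC (L : IntermediateField ℚ (AlgebraicClosure ℚ)) [FiniteDimensional ℚ L]
    [IsGalois ℚ L] (g₀ : L ≃ₐ[ℚ] L) :
    Tendsto (fun s : ℝ => PS (NC (AlgEquiv.restrictNormalHom L) g₀) s / Real.log (1 / (s - 1)))
      (𝓝[>] 1) (𝓝 1) := by
  set N := Nat.card (L ≃ₐ[ℚ] L) with hN
  have hN0 : (0 : ℝ) < N := by
    have : 0 < Nat.card (L ≃ₐ[ℚ] L) := Nat.card_pos
    exact_mod_cast this
  have hlow : ∀ (g : L ≃ₐ[ℚ] L) (a : ℝ), a < 1 → ∀ᶠ s in 𝓝[>] (1 : ℝ),
      a < PS (NC (AlgEquiv.restrictNormalHom L) g) s / Real.log (1 / (s - 1)) := by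
    intro g a ha
    have hlim : Tendsto (fun k : ℕ => (N : ℝ) ^ 2 / 2 ^ k) atTop (𝓝 0) := by
      exact (tendsto_pow_atTop_atTop_of_one_lt (by norm_num : (1 : ℝ) < 2)).const_div_atTop _
    obtain ⟨k, hk1, hk2⟩ := ((eventually_ge_atTop 1).and
      (hlim.eventually_lt_const (show (0 : ℝ) < (1 - a) / 2 by linarith))).exists
    obtain ⟨B, hB⟩ := lower_bound L g k hk1
    have h2 : ∀ᶠ s in 𝓝[>] (1 : ℝ), B / Real.log (1 / (s - 1)) < (1 - a) / 2 :=
      (tendsto_log_atTop.const_div_atTop B).eventually_lt_const (by linarith)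
    filter_upwards [hB, h2, tendsto_log_atTop.eventually_gt_atTop 0] with s h3 h4 h5
    rw [lt_div_iff₀ h5]
    rw [div_lt_iff₀ h5] at h4
    have h6 : (N : ℝ) ^ 2 / 2 ^ k * Real.log (1 / (s - 1)) ≤
        (1 - a) / 2 * Real.log (1 / (s - 1)) := mul_le_mul_of_nonneg_right hk2.le h5.le
    rw [← hN] at h3
    linarith
  rw [tendsto_order]
  refine ⟨fun a ha => hlow g₀ a ha, fun a ha => ?_⟩
  set ε := (a - 1) / (N + 1) with hε
  have hε0 : 0 < ε := div_pos (by linarith) (by linarith)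
  have hsum : Tendsto (fun s : ℝ => ∑ g : L ≃ₐ[ℚ] L,
      PS (NC (AlgEquiv.restrictNormalHom L) g) s / Real.log (1 / (s - 1))) (𝓝[>] 1) (𝓝 N) := by
    have h1 := tendsto_PS_one.const_mul (N : ℝ)
    rw [mul_one] at h1
    refine h1.congr' ?_
    filter_upwards [self_mem_nhdsWithin] with s hs
    rw [← sum_div, ← PS_sum univ (fun g => NC (AlgEquiv.restrictNormalHom L) g) (C := N)
      (fun g _ n => abs_NC_le _ _ _) hs, ← mul_div_assoc, ← PS_const_mul]
    congr 2
    funext p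
    rw [sum_NC, mul_one]
  have hev1 := hsum.eventually_lt_const (show (N : ℝ) < N + ε by linarith)
  have hev2 : ∀ᶠ s in 𝓝[>] (1 : ℝ), ∀ g : L ≃ₐ[ℚ] L,
      1 - ε < PS (NC (AlgEquiv.restrictNormalHom L) g) s / Real.log (1 / (s - 1)) :=
    eventually_all.mpr fun g => hlow g _ (by linarith)
  filter_upwards [hev1, hev2] with s h1 h2
  rw [← add_sum_erase _ _ (mem_univ g₀)] at h1
  have h3 : ((univ : Finset (L ≃ₐ[ℚ] L)).erase g₀).card • (1 - ε) ≤
      ∑ g ∈ (univ : Finset (L ≃ₐ[ℚ] L)).erase g₀,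
        PS (NC (AlgEquiv.restrictNormalHom L) g) s / Real.log (1 / (s - 1)) :=
    card_nsmul_le_sum _ _ _ fun g _ => (h2 g).le
  have h4 : (((univ : Finset (L ≃ₐ[ℚ] L)).erase g₀).card : ℝ) = N - 1 := by
    rw [card_erase_of_mem (mem_univ _), card_univ, hN, Nat.card_eq_fintype_card,
      Nat.cast_sub Fintype.card_pos, Nat.cast_one]
  rw [nsmul_eq_mul, h4] at h3
  have h5 : ε * (N + 1) = a - 1 := by
    rw [hε, div_mul_cancel₀ _ (by linarith)]
  nlinarith

/-! ### Unramified primes -/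

/-- For almost all primes, inertia acts trivially on `L` and Frobenius elements at the same place
agree on `L`. -/
lemma exists_unram (L : IntermediateField ℚ (AlgebraicClosure ℚ)) [FiniteDimensional ℚ L] :
    ∃ T : Finset ℕ, ∀ p : ℕ, p.Prime → p ∉ T → ∀ A : ValuationSubring (AlgebraicClosure ℚ),
      A.LiesOverPrime p →
      (∀ σ ∈ A.inertiaSubgroupIn ℚ, ∀ x ∈ L, σ x = x) ∧
      (∀ σ σ' : GQ, A.IsFrobeniusAt σ p → A.IsFrobeniusAt σ' p → ∀ x ∈ L, σ x = σ' x) := by
  have hNF : NumberField L := ⟨⟩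
  obtain ⟨D, hD0, hD⟩ := exists_disc L
  refine ⟨D.natAbs.divisors, fun p hp hpT A hA => ?_⟩
  have hpD : ¬ (p : ℤ) ∣ D := fun h =>
    hpT (Nat.mem_divisors.mpr ⟨Int.natCast_dvd.mp h, Int.natAbs_ne_zero.mpr hD0⟩)
  have hinj := hD p hp hpD A hA
  constructor
  · intro σ hσ x hx
    have h1 : redτ A ((gh σ).comp (algebraMap L (AlgebraicClosure ℚ))) =
        redτ A (algebraMap L (AlgebraicClosure ℚ)) := by
      ext y
      obtain ⟨σ', hσ', rfl⟩ := hσ
      have hker : ∀ z : IsLocalRing.ResidueField A, σ' • z = z := by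
        intro z
        have h := MonoidHom.mem_ker.mp hσ'
        exact congrArg (fun f : RingAut (IsLocalRing.ResidueField A) => f z) h
      have := hker (redA A (toZbar (algebraMap L (AlgebraicClosure ℚ)) y))
      exact this
    have h2 := hinj _ _ h1
    exact congrFun (congrArg DFunLike.coe h2) ⟨x, hx⟩
  · intro σ σ' hσ hσ' x hx
    have h1 : redτ A ((gh σ).comp (algebraMap L (AlgebraicClosure ℚ))) =
        redτ A ((gh σ').comp (algebraMap L (AlgebraicClosure ℚ))) := by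
      ext y
      rw [redτ_frob hσ, redτ_frob hσ']
    have h2 := hinj _ _ h1
    exact congrFun (congrArg DFunLike.coe h2) ⟨x, hx⟩

/-! ### Chebotarev -/

/-- Primes at which `ψ` is unramified with Frobenius in `C`. -/
def FrobIn {G : Type*} [Group G] (ψ : GQ →* G) (C : Set G) : Set ℕ :=
  {p | p.Prime ∧ ∃ A : ValuationSubring (AlgebraicClosure ℚ), A.LiesOverPrime p ∧
    (∀ σ ∈ A.inertiaSubgroupIn ℚ, ψ σ = 1) ∧ ∃ σ : GQ, A.IsFrobeniusAt σ p ∧ ψ σ ∈ C}

/-- For almost all primes membership in `FrobIn` is decided by the chosen Frobenius. -/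
lemma exists_mem_FrobIn_iff {G : Type*} [Group G] (ψ : GQ →* G)
    (L : IntermediateField ℚ (AlgebraicClosure ℚ)) [FiniteDimensional ℚ L]
    (hψ : ∀ σ : GQ, (∀ x ∈ L, σ x = x) → ψ σ = 1) (C : Set G)
    (hC : ∀ g c : G, c ∈ C → g * c * g⁻¹ ∈ C) :
    ∃ T : Finset ℕ, ∀ p : ℕ, p.Prime → p ∉ T → (p ∈ FrobIn ψ C ↔ ψ (frob p) ∈ C) := by
  obtain ⟨T, hT⟩ := exists_unram L
  have hψ' : ∀ σ σ' : GQ, (∀ x ∈ L, σ x = σ' x) → ψ σ = ψ σ' := by
    intro σ σ' h
    have h1 : ψ (σ'⁻¹ * σ) = 1 := by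
      apply hψ
      intro x hx
      rw [AlgEquiv.mul_apply, h x hx, ← AlgEquiv.mul_apply, inv_mul_cancel, AlgEquiv.one_apply]
    rw [map_mul, map_inv, inv_mul_eq_one] at h1
    exact h1.symm
  refine ⟨T, fun p hp hpT => ⟨?_, ?_⟩⟩
  · rintro ⟨-, A, hA, -, σ, hσ, hσC⟩
    obtain ⟨A', hA', hf⟩ := exists_frob_place hp
    obtain ⟨g, rfl⟩ := exists_smul_eq hp hA' hA
    have h1 := isFrobeniusAt_conj (g := g) hf
    have h2 := (hT p hp hpT _ hA).2 _ _ hσ h1
    have h3 := hψ' _ _ h2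
    rw [h3, map_mul, map_mul, map_inv] at hσC
    have h4 := hC (ψ g)⁻¹ _ hσC
    rwa [inv_inv, ← mul_assoc, ← mul_assoc, inv_mul_cancel, one_mul, mul_assoc, inv_mul_cancel,
      mul_one] at h4
  · intro h
    obtain ⟨A, hA, hf⟩ := exists_frob_place hp
    exact ⟨hp, A, hA, fun σ hσ => hψ σ ((hT p hp hpT A hA).1 σ hσ), frob p, hf, h⟩

/-- **Chebotarev's density theorem** (Dirichlet density). -/
theorem chebotarev_PS {G : Type*} [Group G] [Finite G] (ψ : GQ →* G)
    (hsurj : Function.Surjective ψ)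
    (hlevel : ∃ L : IntermediateField ℚ (AlgebraicClosure ℚ), FiniteDimensional ℚ L ∧
      ∀ σ : GQ, (∀ x ∈ L, σ x = x) → ψ σ = 1) (C : Set G)
    (hC : ∀ g c : G, c ∈ C → g * c * g⁻¹ ∈ C) :
    Tendsto (fun s : ℝ => PS (fun p => if p ∈ FrobIn ψ C then 1 else 0) s /
      Real.log (1 / (s - 1))) (𝓝[>] 1) (𝓝 ((Nat.card C : ℝ) / Nat.card G)) := by
  have : Fintype G := Fintype.ofFinite G
  obtain ⟨L₀, hL₀, hψ₀⟩ := hlevel
  let L := IntermediateField.normalClosure ℚ L₀ (AlgebraicClosure ℚ)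
  have hfin : FiniteDimensional ℚ L := normalClosure.is_finiteDimensional ℚ L₀ _
  have hnorm : Normal ℚ L := normalClosure.normal ℚ L₀ _
  have hgal : IsGalois ℚ L := ⟨⟩
  have hLL : L₀ ≤ L := IntermediateField.le_normalClosure L₀
  have hψ : ∀ σ : GQ, (∀ x ∈ L, σ x = x) → ψ σ = 1 := fun σ h => hψ₀ σ fun x hx => h x (hLL hx)
  set resL : GQ →* (L ≃ₐ[ℚ] L) := AlgEquiv.restrictNormalHom L with hresL
  have hsurjL : Function.Surjective resL := AlgEquiv.restrictNormalHom_surjective (AlgebraicClosure ℚ)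
  have hker : resL.ker ≤ ψ.ker := by
    intro σ hσ
    rw [MonoidHom.mem_ker, ← map_one resL, restrict_eq_iff] at hσ
    exact hψ σ hσ
  let π : (L ≃ₐ[ℚ] L) →* G := resL.liftOfSurjective hsurjL ⟨ψ, hker⟩
  have hπ : ∀ σ, π (resL σ) = ψ σ := fun σ => MonoidHom.liftOfRightInverse_comp_apply _ _ _ _ _
  have hπsurj : Function.Surjective π := by
    intro y
    obtain ⟨σ, rfl⟩ := hsurj y
    exact ⟨resL σ, hπ σ⟩
  set N := Nat.card (L ≃ₐ[ℚ] L) with hN
  have hN0 : (0 : ℝ) < N := by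
    have : 0 < Nat.card (L ≃ₐ[ℚ] L) := Nat.card_pos
    exact_mod_cast this
  set C' := univ.filter (fun x : L ≃ₐ[ℚ] L => π x ∈ C) with hC'
  -- sum of the counting functions
  have hsum : ∀ p, ∑ g ∈ C', NC resL g p = N * (if ψ (frob p) ∈ C then 1 else 0) := by
    intro p
    unfold NC
    rw [← Nat.cast_sum]
    have h1 : ∑ g ∈ C', Nat.card {x : L ≃ₐ[ℚ] L // x⁻¹ * resL (frob p) * x = g} =
        (univ.filter fun x : L ≃ₐ[ℚ] L => ψ (frob p) ∈ C).card := by
      rw [card_eq_sum_card_fiberwise (f := fun x : L ≃ₐ[ℚ] L => x⁻¹ * resL (frob p) * x) (t := C')]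
      · refine sum_congr rfl fun g hg => ?_
        rw [Nat.card_eq_fintype_card, Fintype.card_subtype]
        congr 1
        ext y
        simp only [mem_filter, mem_univ, true_and]
        constructor
        · intro hy
          refine ⟨?_, hy⟩
          have hg' : π g ∈ C := (mem_filter.mp hg).2
          rw [← hy, map_mul, map_mul, map_inv, hπ] at hg'
          have := hC (π y) _ hg'
          rwa [← mul_assoc, ← mul_assoc, mul_inv_cancel, one_mul, mul_assoc, mul_inv_cancel,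
            mul_one] at this
        · exact fun hy => hy.2
      · intro y hy
        simp only [mem_coe, mem_filter, mem_univ, true_and] at hy
        rw [hC', mem_coe, mem_filter]
        refine ⟨mem_univ _, ?_⟩
        rw [map_mul, map_mul, map_inv, hπ]
        have := hC (π y)⁻¹ _ hy
        rwa [inv_inv] at this
    rw [h1]
    by_cases h : ψ (frob p) ∈ C
    · simp [h, hN, Nat.card_eq_fintype_card]
    · simp [h]
  -- the limit
  have hlim : Tendsto (fun s : ℝ => ∑ g ∈ C', PS (NC resL g) s / Real.log (1 / (s - 1)))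
      (𝓝[>] 1) (𝓝 (∑ g ∈ C', 1)) := tendsto_finsetSum _ fun g _ => tendsto_NC L g
  rw [sum_const, nsmul_eq_mul, mul_one] at hlim
  have hlim2 : Tendsto (fun s : ℝ => PS (fun p => if ψ (frob p) ∈ C then 1 else 0) s /
      Real.log (1 / (s - 1))) (𝓝[>] 1) (𝓝 ((C'.card : ℝ) / N)) := by
    refine (hlim.div_const (N : ℝ)).congr' ?_
    filter_upwards [self_mem_nhdsWithin] with s hs
    rw [← sum_div, ← PS_sum C' (fun g => NC resL g) (C := N)
      (fun g _ n => abs_NC_le _ _ _) hs]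
    simp only [hsum]
    rw [PS_const_mul, div_right_comm, mul_div_cancel_left₀ _ hN0.ne']
  have hcard : (C'.card : ℝ) / N = (Nat.card C : ℝ) / Nat.card G := by
    have h1 := card_preimage π hπsurj 1 (fun y => y ∈ C)
    have h2 := card_fiber π hπsurj 1
    have h3 : (Nat.card C : ℝ) = (univ.filter fun y => y ∈ C).card := by
      rw [Nat.card_eq_fintype_card, Fintype.card_subtype]
    have hG0 : (0 : ℝ) < Nat.card G := by
      have : 0 < Nat.card G := Nat.card_pos
      exact_mod_cast this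
    rw [div_eq_div_iff hN0.ne' hG0.ne', h3, hN, hC']
    rw [Nat.card_eq_fintype_card, Nat.card_eq_fintype_card]
    rw [h1, ← h2]
    push_cast
    ring
  rw [hcard] at hlim2
  -- compare
  obtain ⟨T, hT⟩ := exists_mem_FrobIn_iff ψ L hψ C hC
  obtain ⟨B, hB⟩ := exists_PS_sub_le (a := fun p => if p ∈ FrobIn ψ C then 1 else 0)
    (b := fun p => if ψ (frob p) ∈ C then 1 else 0) (C := 1)
    (fun n => by split_ifs <;> simp) (fun n => by split_ifs <;> simp) (T := T) (by
      intro p hp hpT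
      simp only [hT p hp hpT])
  have h5 : Tendsto (fun s : ℝ => (PS (fun p => if p ∈ FrobIn ψ C then 1 else 0) s -
      PS (fun p => if ψ (frob p) ∈ C then 1 else 0) s) / Real.log (1 / (s - 1)))
      (𝓝[>] 1) (𝓝 0) := by
    refine squeeze_zero_norm' (a := fun s => B / Real.log (1 / (s - 1))) ?_
      (tendsto_log_atTop.const_div_atTop B)
    filter_upwards [self_mem_nhdsWithin, tendsto_log_atTop.eventually_gt_atTop 0] with s h1 h2
    rw [norm_div, Real.norm_eq_abs, Real.norm_eq_abs, abs_of_pos h2]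
    exact div_le_div_of_nonneg_right (hB s h1) h2.le
  have h6 := hlim2.add h5
  rw [add_zero] at h6
  refine h6.congr fun s => ?_
  rw [← add_div]
  congr 1
  ring

end Fermat.Agent.FrobDensity
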