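import Fermat.Agent.Frob.Exists
import Fermat.Agent.Frob.DensityAnalytic
import Mathlib.FieldTheory.PrimeField

set_option autoImplicit false

namespace Fermat.Agent.FrobDensity

open NumberField Fermat.Agent.Frob
open scoped Pointwise

variable {F : Type*} [Field F] [NumberField F]

/-- restriction of an embedding to rings of integers -/
noncomputable def toZbar (τ : F →+* AlgebraicClosure ℚ) : 𝓞 F →+* Zbar where
  toFun x := ⟨τ x, x.2.map τ.toIntAlgHom⟩
  map_one' := Subtype.ext (by simp)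
  map_mul' _ _ := Subtype.ext (by simp)
  map_zero' := Subtype.ext (by simp)
  map_add' _ _ := Subtype.ext (by simp)

@[simp] lemma coe_toZbar (τ : F →+* AlgebraicClosure ℚ) (x : 𝓞 F) :
    (toZbar τ x : AlgebraicClosure ℚ) = τ x := rfl

/-- reduction of algebraic integers modulo `A` -/
noncomputable def redA (A : ValuationSubring (AlgebraicClosure ℚ)) :
    Zbar →+* IsLocalRing.ResidueField A :=
  (IsLocalRing.residue A).comp (toVal A)

lemma redA_eq_zero_iff (A : ValuationSubring (AlgebraicClosure ℚ)) (x : Zbar) :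
    redA A x = 0 ↔ x ∈ centre A := by
  rw [redA, RingHom.comp_apply, IsLocalRing.residue_eq_zero_iff]
  rfl

lemma redA_frob {A : ValuationSubring (AlgebraicClosure ℚ)} {ℓ : ℕ} {σ : GQ}
    (h : A.IsFrobeniusAt σ ℓ) (x : Zbar) : redA A (σ • x) = redA A x ^ ℓ := by
  obtain ⟨hσ, h⟩ := h
  have := h (redA A x)
  rw [← this]
  rfl

/-- the composed reduction -/
noncomputable def redτ (A : ValuationSubring (AlgebraicClosure ℚ)) (τ : F →+* AlgebraicClosure ℚ) :
    𝓞 F →+* IsLocalRing.ResidueField A :=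
  (redA A).comp (toZbar τ)

/-- an automorphism as a ring hom -/
noncomputable abbrev gh (σ : GQ) : AlgebraicClosure ℚ →+* AlgebraicClosure ℚ := (σ : AlgebraicClosure ℚ →+* AlgebraicClosure ℚ)

lemma redτ_frob {A : ValuationSubring (AlgebraicClosure ℚ)} {ℓ : ℕ} {σ : GQ}
    (h : A.IsFrobeniusAt σ ℓ) (τ : F →+* AlgebraicClosure ℚ) (x : 𝓞 F) :
    redτ A ((gh σ).comp τ) x = redτ A τ x ^ ℓ := by
  rw [redτ, redτ, RingHom.comp_apply, RingHom.comp_apply, ← redA_frob h]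
  rfl

lemma natCast_residue_eq_zero {A : ValuationSubring (AlgebraicClosure ℚ)} {ℓ : ℕ}
    (hA : A.LiesOverPrime ℓ) : (ℓ : IsLocalRing.ResidueField A) = 0 := by
  have := (redA_eq_zero_iff A (ℓ : Zbar)).mpr (natCast_mem_centre hA)
  simpa using this

lemma charP_residue {A : ValuationSubring (AlgebraicClosure ℚ)} {ℓ : ℕ} (hℓ : ℓ.Prime)
    (hA : A.LiesOverPrime ℓ) : CharP (IsLocalRing.ResidueField A) ℓ :=
  charP_of_prime_natCast_eq_zero hℓ (natCast_residue_eq_zero hA)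

lemma finite_embeddings : Finite (F →+* AlgebraicClosure ℚ) := by
  have : Finite (F →ₐ[ℚ] AlgebraicClosure ℚ) := inferInstance
  exact Finite.of_equiv _ (RingHom.equivRatAlgHom (R := F) (S := AlgebraicClosure ℚ)).symm

lemma exists_ne_of_ne {τ τ' : F →+* AlgebraicClosure ℚ} (h : τ ≠ τ') :
    ∃ x : 𝓞 F, toZbar τ x ≠ toZbar τ' x := by
  by_contra hcon
  push Not at hcon
  apply h
  apply IsLocalization.ringHom_ext (nonZeroDivisors (𝓞 F))
  ext x
  exact congrArg (fun y : Zbar => (y : AlgebraicClosure ℚ)) (hcon x)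

/-- For all but finitely many primes, distinct embeddings have distinct reductions. -/
lemma exists_disc (F : Type*) [Field F] [NumberField F] :
    ∃ D : ℤ, D ≠ 0 ∧ ∀ (ℓ : ℕ), ℓ.Prime → ¬ (ℓ : ℤ) ∣ D →
      ∀ A : ValuationSubring (AlgebraicClosure ℚ), A.LiesOverPrime ℓ →
        ∀ τ τ' : F →+* AlgebraicClosure ℚ, redτ A τ = redτ A τ' → τ = τ' := by
  classical
  have : Fintype (F →+* AlgebraicClosure ℚ) := Fintype.ofFinite _
  choose x hx using fun (q : {q : (F →+* AlgebraicClosure ℚ) × (F →+* AlgebraicClosure ℚ) //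
    q.1 ≠ q.2}) => exists_ne_of_ne q.2
  set δ : Zbar := ∏ q : {q : (F →+* AlgebraicClosure ℚ) × (F →+* AlgebraicClosure ℚ) //
    q.1 ≠ q.2}, (toZbar q.1.1 (x q) - toZbar q.1.2 (x q)) with hδ
  have hδ0 : δ ≠ 0 := Finset.prod_ne_zero_iff.mpr fun q _ => sub_ne_zero.mpr (hx q)
  have halg : IsAlgebraic ℤ δ := (Algebra.IsIntegral.isIntegral (R := ℤ) δ).isAlgebraic
  obtain ⟨D, hD0, hD⟩ := halg.exists_nonzero_dvd (mem_nonZeroDivisors_of_ne_zero hδ0)
  refine ⟨D, hD0, ?_⟩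
  intro ℓ hℓ hℓD A hA τ τ' h
  by_contra hne
  apply hℓD
  have hch := charP_residue hℓ hA
  rw [← CharP.intCast_eq_zero_iff (IsLocalRing.ResidueField A) ℓ D]
  have h1 : redA A δ = 0 := by
    rw [hδ, map_prod]
    refine Finset.prod_eq_zero (Finset.mem_univ ⟨(τ, τ'), hne⟩) ?_
    rw [map_sub, sub_eq_zero]
    exact congrFun (congrArg DFunLike.coe h) _
  have h2 : redA A (algebraMap ℤ Zbar D) = 0 := by
    obtain ⟨c, hc⟩ := hD
    rw [hc, map_mul, h1, zero_mul]
  simpa using h2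

/-- the residual prime -/
lemma exists_int_of_pow {A : ValuationSubring (AlgebraicClosure ℚ)} {ℓ : ℕ} (hℓ : ℓ.Prime)
    (hA : A.LiesOverPrime ℓ) {y : IsLocalRing.ResidueField A} (hy : y ^ ℓ = y) :
    ∃ n : ℤ, y = n := by
  have := charP_residue hℓ hA
  have : Fact ℓ.Prime := ⟨hℓ⟩
  let _ := ZMod.algebra (IsLocalRing.ResidueField A) ℓ
  have h1 : y ∈ (⊥ : Subfield (IsLocalRing.ResidueField A)) :=
    (Subfield.mem_bot_iff_pow_eq_self _ ℓ).mpr hy
  rw [Subfield.bot_eq_of_zMod_algebra ℓ] at h1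
  obtain ⟨z, hz⟩ := h1
  obtain ⟨n, rfl⟩ := ZMod.intCast_surjective z
  exact ⟨n, by rw [← hz, map_intCast]⟩

lemma absNorm_ker {A : ValuationSubring (AlgebraicClosure ℚ)} {ℓ : ℕ} (hℓ : ℓ.Prime)
    (hA : A.LiesOverPrime ℓ) {τ : F →+* AlgebraicClosure ℚ}
    (h : ∀ x, redτ A τ x ^ ℓ = redτ A τ x) : Ideal.absNorm (RingHom.ker (redτ A τ)) = ℓ := by
  have := charP_residue hℓ hA
  have : Fact ℓ.Prime := ⟨hℓ⟩
  have : NeZero ℓ := ⟨hℓ.ne_zero⟩
  -- quotient is in bijection with `ZMod ℓ`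
  rw [Ideal.absNorm_apply, Submodule.cardQuot_apply]
  have e1 : Nat.card (𝓞 F ⧸ RingHom.ker (redτ A τ)) = Nat.card (redτ A τ).range :=
    Nat.card_congr (RingHom.quotientKerEquivRange (redτ A τ)).toEquiv
  have e2 : Function.Bijective (fun z : ZMod ℓ =>
      (⟨ZMod.castHom (dvd_refl ℓ) (IsLocalRing.ResidueField A) z, by
        obtain ⟨n, rfl⟩ := ZMod.intCast_surjective z
        exact ⟨(n : 𝓞 F), by rw [map_intCast, map_intCast]⟩⟩ : (redτ A τ).range)) := by
    constructor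
    · intro z z' hz
      exact (ZMod.castHom (dvd_refl ℓ) (IsLocalRing.ResidueField A)).injective
        (congrArg Subtype.val hz)
    · rintro ⟨y, x, rfl⟩
      obtain ⟨n, hn⟩ := exists_int_of_pow hℓ hA (h x)
      exact ⟨(n : ZMod ℓ), Subtype.ext (by simp [hn])⟩
  rw [e1, ← Nat.card_congr (Equiv.ofBijective _ e2), Nat.card_zmod]

attribute [local instance] topZbar discZbar contSMulZbar

/-- every prime of `𝓞 F` above `ℓ` is the kernel of a `redτ`. -/
lemma exists_redτ {A : ValuationSubring (AlgebraicClosure ℚ)} {ℓ : ℕ} (hℓ : ℓ.Prime)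
    (hA : A.LiesOverPrime ℓ) {I : Ideal (𝓞 F)} [I.IsPrime] (hI : (ℓ : 𝓞 F) ∈ I) :
    ∃ τ : F →+* AlgebraicClosure ℚ, RingHom.ker (redτ A τ) = I := by
  obtain ⟨τ₀⟩ : Nonempty (F →+* AlgebraicClosure ℚ) :=
    ⟨((IsAlgClosed.lift : F →ₐ[ℚ] AlgebraicClosure ℚ) : F →+* AlgebraicClosure ℚ)⟩
  -- going up
  let _ : Algebra (𝓞 F) Zbar := (toZbar τ₀).toAlgebra
  have : IsScalarTower ℤ (𝓞 F) Zbar := IsScalarTower.of_algebraMap_eq' (RingHom.ext_int _ _)
  have : Algebra.IsIntegral (𝓞 F) Zbar := Algebra.IsIntegral.tower_top (R := ℤ)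
  have hinj : Function.Injective (algebraMap (𝓞 F) Zbar) := by
    intro x y hxy
    have := congrArg (fun z : Zbar => (z : AlgebraicClosure ℚ)) hxy
    exact RingOfIntegers.ext (τ₀.injective this)
  obtain ⟨Q, hQ1, hQ2⟩ := Ideal.exists_ideal_over_prime_of_isIntegral_of_isDomain
    (S := Zbar) I (by
      rw [(RingHom.injective_iff_ker_eq_bot _).mp hinj]
      exact bot_le)
  have hmax : (Ideal.span {(ℓ : ℤ)}).IsMaximal := by
    have : Fact ℓ.Prime := ⟨hℓ⟩
    exact Int.ideal_span_isMaximal_of_prime ℓ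
  have hQ3 : Q.under ℤ = Ideal.span {(ℓ : ℤ)} := by
    symm
    refine hmax.eq_of_le (Ideal.IsPrime.ne_top inferInstance) ?_
    rw [Ideal.span_singleton_le_iff_mem, Ideal.mem_comap]
    have h1 : (ℓ : 𝓞 F) ∈ Ideal.comap (algebraMap (𝓞 F) Zbar) Q := by rw [hQ2]; exact hI
    rw [Ideal.mem_comap, map_natCast] at h1
    simpa using h1
  obtain ⟨g, hg⟩ := Algebra.IsInvariant.exists_smul_of_under_eq_of_profinite (A := ℤ) (B := Zbar)
    (G := GQ) (centre A) Q (by rw [under_centre hℓ hA, hQ3])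
  refine ⟨(gh g⁻¹).comp τ₀, ?_⟩
  ext x
  rw [RingHom.mem_ker, ← hQ2, Ideal.mem_comap, hg, Ideal.mem_pointwise_smul_iff_inv_smul_mem,
    ← redA_eq_zero_iff]
  rfl

/-- The number of ideals of norm `ℓ` is the number of embeddings fixed by Frobenius. -/
theorem idealCount_eq (F : Type*) [Field F] [NumberField F] :
    ∃ D : ℤ, D ≠ 0 ∧ ∀ (ℓ : ℕ), ℓ.Prime → ¬ (ℓ : ℤ) ∣ D →
      ∀ A : ValuationSubring (AlgebraicClosure ℚ), A.LiesOverPrime ℓ →
        ∀ σ : AlgebraicClosure ℚ ≃ₐ[ℚ] AlgebraicClosure ℚ, A.IsFrobeniusAt σ ℓ →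
        idealCount F ℓ =
          Nat.card {τ : F →+* AlgebraicClosure ℚ // ∀ x, σ (τ x) = τ x} := by
  obtain ⟨D, hD0, hD⟩ := exists_disc F
  refine ⟨D, hD0, ?_⟩
  intro ℓ hℓ hℓD A hA σ hσ
  have hinj := hD ℓ hℓ hℓD A hA
  have hfix : ∀ τ : F →+* AlgebraicClosure ℚ, (∀ x, σ (τ x) = τ x) →
      ∀ x, redτ A τ x ^ ℓ = redτ A τ x := by
    intro τ hτ x
    rw [← redτ_frob hσ]
    have : (gh σ).comp τ = τ := RingHom.ext hτ
    rw [this]
  symm
  unfold idealCount
  refine Nat.card_congr (Equiv.ofBijective (fun τ => ⟨RingHom.ker (redτ A τ.1),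
    absNorm_ker hℓ hA (hfix τ.1 τ.2)⟩) ⟨?_, ?_⟩)
  · intro τ τ' h
    have hk : RingHom.ker (redτ A τ.1) = RingHom.ker (redτ A τ'.1) := congrArg Subtype.val h
    apply Subtype.ext
    apply hinj
    ext x
    obtain ⟨n, hn⟩ := exists_int_of_pow hℓ hA (hfix τ.1 τ.2 x)
    have h1 : x - n ∈ RingHom.ker (redτ A τ.1) := by
      rw [RingHom.mem_ker, map_sub, map_intCast, hn, sub_self]
    rw [hk, RingHom.mem_ker, map_sub, map_intCast, sub_eq_zero] at h1
    rw [hn, h1]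
  · rintro ⟨I, hI⟩
    have hIp : I.IsPrime := Ideal.isPrime_of_irreducible_absNorm (by rw [hI]; exact hℓ)
    have hmem : (ℓ : 𝓞 F) ∈ I := by rw [← hI]; exact Ideal.absNorm_mem I
    obtain ⟨τ, rfl⟩ := exists_redτ hℓ hA hmem
    refine ⟨⟨τ, ?_⟩, rfl⟩
    have h1 : (gh σ).comp τ = τ := by
      apply hinj
      ext x
      rw [redτ_frob hσ]
      -- quotient has `ℓ` elements
      have : Fact ℓ.Prime := ⟨hℓ⟩
      have hcard : Nat.card (𝓞 F ⧸ RingHom.ker (redτ A τ)) = ℓ := by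
        rw [← Submodule.cardQuot_apply, ← Ideal.absNorm_apply]; exact hI
      have hfin : Finite (𝓞 F ⧸ RingHom.ker (redτ A τ)) :=
        Nat.finite_of_card_ne_zero (by rw [hcard]; exact hℓ.ne_zero)
      have : Fintype (𝓞 F ⧸ RingHom.ker (redτ A τ)) := Fintype.ofFinite _
      have hmax : (RingHom.ker (redτ A τ)).IsMaximal :=
        Ideal.Quotient.maximal_of_isField _ (Finite.isField_of_domain _)
      let _ := Ideal.Quotient.field (RingHom.ker (redτ A τ))
      have h2 := FiniteField.pow_card (Ideal.Quotient.mk (RingHom.ker (redτ A τ)) x)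
      rw [← Nat.card_eq_fintype_card, hcard, ← map_pow, Ideal.Quotient.eq, RingHom.mem_ker,
        map_sub, map_pow, sub_eq_zero] at h2
      exact h2
    intro x
    exact congrFun (congrArg DFunLike.coe h1) x

end Fermat.Agent.FrobDensity
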