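import Fermat.Agent.Frob.Density
import Fermat.Prelude.Def_GaloisRep_Adic
import Mathlib.LinearAlgebra.Matrix.Charpoly.Coeff
import Mathlib.LinearAlgebra.Matrix.Charpoly.LinearMap
import Mathlib.RingTheory.AdicCompletion.Basic
import Mathlib.RingTheory.Filtration

/-!
# Equality of characteristic polynomials from equality at Frobenius elements

* `eq_of_frobenius` : abstract principle.
* `charpoly_pow_eq` : for rank two free modules, `charpoly f = charpoly g → charpoly (f ^ m) =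
  charpoly (g ^ m)`.
* `galoisRepAdic_charpoly_eq` : two adic Galois representations with the same Frobenius
  characteristic polynomials outside a finite set of primes have the same characteristic
  polynomials everywhere.
* `residualGaloisRep_charpoly_eq` : same for residual representations.
-/

set_option autoImplicit false
set_option linter.unusedSectionVars false

namespace Fermat.Agent.FrobDensity

open Fermat.Agent.Frob Polynomial
open scoped Pointwise

/-- Abstract principle: two functions on the Galois group which factor through a finite level, which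
agree at all Frobenius elements outside a finite set of primes, and for which agreement propagates to
powers, are equal. -/
theorem eq_of_frobenius {X : Type*} (F₁ F₂ : (AlgebraicClosure ℚ ≃ₐ[ℚ] AlgebraicClosure ℚ) → X)
    (L : IntermediateField ℚ (AlgebraicClosure ℚ)) [FiniteDimensional ℚ L]
    (h₁ : ∀ σ τ : AlgebraicClosure ℚ ≃ₐ[ℚ] AlgebraicClosure ℚ, (∀ x ∈ L, σ x = τ x) → F₁ σ = F₁ τ)
    (h₂ : ∀ σ τ : AlgebraicClosure ℚ ≃ₐ[ℚ] AlgebraicClosure ℚ, (∀ x ∈ L, σ x = τ x) → F₂ σ = F₂ τ)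
    (hpow : ∀ (φ : AlgebraicClosure ℚ ≃ₐ[ℚ] AlgebraicClosure ℚ) (k : ℕ), F₁ φ = F₂ φ →
      F₁ (φ ^ k) = F₂ (φ ^ k))
    (S : Set ℕ) (hS : S.Finite)
    (hfrob : ∀ ℓ : ℕ, ℓ.Prime → ℓ ∉ S → ∀ A : ValuationSubring (AlgebraicClosure ℚ),
      A.LiesOverPrime ℓ → ∀ φ : AlgebraicClosure ℚ ≃ₐ[ℚ] AlgebraicClosure ℚ,
        A.IsFrobeniusAt φ ℓ → F₁ φ = F₂ φ)
    (σ : AlgebraicClosure ℚ ≃ₐ[ℚ] AlgebraicClosure ℚ) : F₁ σ = F₂ σ := by
  obtain ⟨ℓ, hℓ, hℓS, A, hA, φ, hφ, k, k', -, hk'⟩ := exists_frobenius_on L σ S hS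
  rw [h₁ σ (φ ^ k') hk', h₂ σ (φ ^ k') hk']
  exact hpow φ k' (hfrob ℓ hℓ hℓS A hA φ hφ)

section rankTwo

lemma matrix_sq {R : Type*} [CommRing R] (M : Matrix (Fin 2) (Fin 2) R) :
    M ^ 2 = M.trace • M - M.det • (1 : Matrix (Fin 2) (Fin 2) R) := by
  rw [sq, Matrix.det_fin_two, Matrix.trace_fin_two]
  ext i j
  fin_cases i <;> fin_cases j <;> simp [Matrix.mul_apply, Fin.sum_univ_two] <;> ring

lemma matrix_trace_pow {R : Type*} [CommRing R] (M : Matrix (Fin 2) (Fin 2) R) (m : ℕ) :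
    (M ^ (m + 2)).trace = M.trace * (M ^ (m + 1)).trace - M.det * (M ^ m).trace := by
  rw [pow_add, matrix_sq, mul_sub, Matrix.trace_sub, mul_smul_comm, Matrix.trace_smul,
    mul_smul_comm, Matrix.trace_smul, mul_one, smul_eq_mul, smul_eq_mul, ← pow_succ]

lemma matrix_trace_pow_eq {R : Type*} [CommRing R] {M N : Matrix (Fin 2) (Fin 2) R}
    (ht : M.trace = N.trace) (hd : M.det = N.det) (m : ℕ) : (M ^ m).trace = (N ^ m).trace := by
  induction m using Nat.twoStepInduction with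
  | zero => simp
  | one => simpa using ht
  | more m h1 h2 => rw [matrix_trace_pow, matrix_trace_pow, ht, hd, h1, h2]

lemma matrix_charpoly_eq_iff {R : Type*} [CommRing R] {M N : Matrix (Fin 2) (Fin 2) R} :
    M.charpoly = N.charpoly ↔ M.trace = N.trace ∧ M.det = N.det := by
  rcases subsingleton_or_nontrivial R with h | h
  · exact ⟨fun _ => ⟨Subsingleton.elim _ _, Subsingleton.elim _ _⟩, fun _ => Subsingleton.elim _ _⟩
  constructor
  · intro h
    rw [Matrix.charpoly_fin_two, Matrix.charpoly_fin_two] at h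
    have h0 := congrArg (fun p => p.coeff 0) h
    have h1 := congrArg (fun p => p.coeff 1) h
    simp [coeff_X, coeff_X_pow, coeff_C] at h0 h1
    exact ⟨h1, h0⟩
  · rintro ⟨h1, h2⟩
    rw [Matrix.charpoly_fin_two, Matrix.charpoly_fin_two, h1, h2]

lemma matrix_charpoly_pow_eq {R : Type*} [CommRing R] {M N : Matrix (Fin 2) (Fin 2) R}
    (h : M.charpoly = N.charpoly) (m : ℕ) : (M ^ m).charpoly = (N ^ m).charpoly := by
  rw [matrix_charpoly_eq_iff] at h ⊢
  exact ⟨matrix_trace_pow_eq h.1 h.2 m, by rw [Matrix.det_pow, Matrix.det_pow, h.2]⟩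

variable {A : Type*} [CommRing A] {V W : Type*} [AddCommGroup V] [Module A V] [Module.Free A V]
  [Module.Finite A V] [AddCommGroup W] [Module A W] [Module.Free A W] [Module.Finite A W]

/-- a basis indexed by `Fin 2` -/
noncomputable def basis2 [Nontrivial A] (V : Type*) [AddCommGroup V] [Module A V]
    [Module.Free A V] [Module.Finite A V] (hV : Module.finrank A V = 2) : Module.Basis (Fin 2) A V :=
  (Module.finBasisOfFinrankEq A V hV)

theorem charpoly_pow_eq [Nontrivial A] (hV : Module.finrank A V = 2) (hW : Module.finrank A W = 2)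
    {f : Module.End A V} {g : Module.End A W}
    (h : LinearMap.charpoly f = LinearMap.charpoly g) (m : ℕ) :
    LinearMap.charpoly (f ^ m) = LinearMap.charpoly (g ^ m) := by
  rw [← LinearMap.charpoly_toMatrix f (basis2 V hV), ← LinearMap.charpoly_toMatrix g (basis2 W hW)]
    at h
  rw [← LinearMap.charpoly_toMatrix (f ^ m) (basis2 V hV),
    ← LinearMap.charpoly_toMatrix (g ^ m) (basis2 W hW), ← LinearMap.toMatrix_pow,
    ← LinearMap.toMatrix_pow]
  exact matrix_charpoly_pow_eq h m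

lemma toMatrix_map_eq_of_sub_mem {ι : Type*} [Fintype ι] [DecidableEq ι] (b : Module.Basis ι A V)
    (I : Ideal A)
    {f g : Module.End A V} (h : ∀ v, f v - g v ∈ I • (⊤ : Submodule A V)) :
    (LinearMap.toMatrix b b f).map (Ideal.Quotient.mk I) =
      (LinearMap.toMatrix b b g).map (Ideal.Quotient.mk I) := by
  ext i j
  rw [Matrix.map_apply, Matrix.map_apply, LinearMap.toMatrix_apply, LinearMap.toMatrix_apply,
    Ideal.Quotient.eq, ← Finsupp.sub_apply, ← map_sub]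
  have hkey : ∀ v ∈ I • (⊤ : Submodule A V), b.repr v i ∈ I := by
    intro v hv
    refine Submodule.smul_induction_on (p := fun v => b.repr v i ∈ I) hv ?_ ?_
    · intro a ha w _
      rw [map_smul, Finsupp.smul_apply, smul_eq_mul]
      exact Ideal.mul_mem_right _ _ ha
    · intro x y hx hy
      rw [map_add, Finsupp.add_apply]
      exact Ideal.add_mem _ hx hy
  exact hkey _ (h (b j))

lemma charpoly_map_eq_of_sub_mem {I : Ideal A} [Nontrivial A]
    {f g : Module.End A V} (h : ∀ v, f v - g v ∈ I • (⊤ : Submodule A V)) :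
    (LinearMap.charpoly f).map (Ideal.Quotient.mk I) =
      (LinearMap.charpoly g).map (Ideal.Quotient.mk I) := by
  rw [← LinearMap.charpoly_toMatrix f (Module.Free.chooseBasis A V),
    ← LinearMap.charpoly_toMatrix g (Module.Free.chooseBasis A V), ← Matrix.charpoly_map,
    ← Matrix.charpoly_map, toMatrix_map_eq_of_sub_mem (Module.Free.chooseBasis A V) I h]

end rankTwo

section adic

variable {A : Type} [CommRing A] [IsLocalRing A]

lemma rho_sub_mem_of_eqOn (ρ : GaloisRepAdic A) {n : ℕ}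
    {L : IntermediateField ℚ (AlgebraicClosure ℚ)}
    (hL : ∀ σ : AlgebraicClosure ℚ ≃ₐ[ℚ] AlgebraicClosure ℚ, (∀ x ∈ L, σ x = x) →
      ∀ v : ρ.V, ρ.ρ σ v - v ∈ (IsLocalRing.maximalIdeal A ^ n) • (⊤ : Submodule A ρ.V))
    {σ τ : AlgebraicClosure ℚ ≃ₐ[ℚ] AlgebraicClosure ℚ} (h : ∀ x ∈ L, σ x = τ x) (v : ρ.V) :
    ρ.ρ σ v - ρ.ρ τ v ∈ (IsLocalRing.maximalIdeal A ^ n) • (⊤ : Submodule A ρ.V) := by
  have h1 := hL (τ⁻¹ * σ) (fun x hx => by
    rw [AlgEquiv.mul_apply, h x hx]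
    exact AlgEquiv.symm_apply_apply τ x) v
  have h2 : ρ.ρ σ v - ρ.ρ τ v = ρ.ρ τ (ρ.ρ (τ⁻¹ * σ) v - v) := by
    rw [map_sub, ← Module.End.mul_apply, ← map_mul, mul_inv_cancel_left]
  rw [h2]
  have h3 : Submodule.map (ρ.ρ τ) ((IsLocalRing.maximalIdeal A ^ n) • (⊤ : Submodule A ρ.V)) ≤
      (IsLocalRing.maximalIdeal A ^ n) • (⊤ : Submodule A ρ.V) := by
    rw [Submodule.map_smul'']
    exact Submodule.smul_mono le_rfl le_top
  exact h3 (Submodule.mem_map_of_mem h1)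

/-- Congruence version: if the Frobenius characteristic polynomials of two adic representations
agree outside a finite set, then all characteristic polynomials agree modulo every power of the
maximal ideal. -/
theorem galoisRepAdic_charpoly_map_eq (ρ₁ ρ₂ : GaloisRepAdic A) (S : Set ℕ) (hS : S.Finite)
    (h : ∀ ℓ : ℕ, ℓ.Prime → ℓ ∉ S → ∀ P : ValuationSubring (AlgebraicClosure ℚ),
      P.LiesOverPrime ℓ → ∀ φ : AlgebraicClosure ℚ ≃ₐ[ℚ] AlgebraicClosure ℚ,
        P.IsFrobeniusAt φ ℓ → LinearMap.charpoly (ρ₁.ρ φ) = LinearMap.charpoly (ρ₂.ρ φ))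
    (n : ℕ) (σ : AlgebraicClosure ℚ ≃ₐ[ℚ] AlgebraicClosure ℚ) :
    (LinearMap.charpoly (ρ₁.ρ σ)).map (Ideal.Quotient.mk (IsLocalRing.maximalIdeal A ^ n)) =
      (LinearMap.charpoly (ρ₂.ρ σ)).map (Ideal.Quotient.mk (IsLocalRing.maximalIdeal A ^ n)) := by
  obtain ⟨L₁, hL₁, h₁⟩ := ρ₁.isAdicContinuous n
  obtain ⟨L₂, hL₂, h₂⟩ := ρ₂.isAdicContinuous n
  have hfin : FiniteDimensional ℚ (L₁ ⊔ L₂ : IntermediateField ℚ (AlgebraicClosure ℚ)) :=
    IntermediateField.finiteDimensional_sup L₁ L₂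
  obtain ⟨ℓ, hℓ, hℓS, P, hP, φ, hφ, k, k', -, hk'⟩ := exists_frobenius_on (L₁ ⊔ L₂) σ S hS
  have e1 := charpoly_map_eq_of_sub_mem (rho_sub_mem_of_eqOn ρ₁ h₁ (σ := σ) (τ := φ ^ k')
    (fun x hx => hk' x ((le_sup_left : L₁ ≤ L₁ ⊔ L₂) hx)))
  have e2 := charpoly_map_eq_of_sub_mem (rho_sub_mem_of_eqOn ρ₂ h₂ (σ := σ) (τ := φ ^ k')
    (fun x hx => hk' x ((le_sup_right : L₂ ≤ L₁ ⊔ L₂) hx)))
  rw [e1, e2, map_pow, map_pow,
    charpoly_pow_eq ρ₁.finrank_eq ρ₂.finrank_eq (h ℓ hℓ hℓS P hP φ hφ) k']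

lemma poly_eq_of_forall_map_eq [IsHausdorff (IsLocalRing.maximalIdeal A) A] {p q : A[X]}
    (h : ∀ n : ℕ, p.map (Ideal.Quotient.mk (IsLocalRing.maximalIdeal A ^ n)) =
      q.map (Ideal.Quotient.mk (IsLocalRing.maximalIdeal A ^ n))) : p = q := by
  ext i
  rw [← sub_eq_zero]
  apply IsHausdorff.haus (I := IsLocalRing.maximalIdeal A) (M := A) inferInstance
  intro n
  have h1 := congrArg (fun r => r.coeff i) (h n)
  simp only [coeff_map] at h1
  rw [Ideal.Quotient.eq] at h1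
  rw [SModEq.zero]
  simpa using h1

/-- **Brauer–Nesbitt–Chebotarev, characteristic polynomial form** -/
theorem galoisRepAdic_charpoly_eq [IsHausdorff (IsLocalRing.maximalIdeal A) A]
    (ρ₁ ρ₂ : GaloisRepAdic A) (S : Set ℕ) (hS : S.Finite)
    (h : ∀ ℓ : ℕ, ℓ.Prime → ℓ ∉ S → ∀ P : ValuationSubring (AlgebraicClosure ℚ),
      P.LiesOverPrime ℓ → ∀ φ : AlgebraicClosure ℚ ≃ₐ[ℚ] AlgebraicClosure ℚ,
        P.IsFrobeniusAt φ ℓ → LinearMap.charpoly (ρ₁.ρ φ) = LinearMap.charpoly (ρ₂.ρ φ))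
    (σ : AlgebraicClosure ℚ ≃ₐ[ℚ] AlgebraicClosure ℚ) :
    LinearMap.charpoly (ρ₁.ρ σ) = LinearMap.charpoly (ρ₂.ρ σ) :=
  poly_eq_of_forall_map_eq fun n => galoisRepAdic_charpoly_map_eq ρ₁ ρ₂ S hS h n σ

theorem residualGaloisRep_charpoly_eq {k : Type} [Field k]
    (ρ₁ ρ₂ : ResidualGaloisRep k) (S : Set ℕ) (hS : S.Finite)
    (h : ∀ ℓ : ℕ, ℓ.Prime → ℓ ∉ S → ∀ P : ValuationSubring (AlgebraicClosure ℚ),
      P.LiesOverPrime ℓ → ∀ φ : AlgebraicClosure ℚ ≃ₐ[ℚ] AlgebraicClosure ℚ,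
        P.IsFrobeniusAt φ ℓ → LinearMap.charpoly (ρ₁.ρ φ) = LinearMap.charpoly (ρ₂.ρ φ))
    (σ : AlgebraicClosure ℚ ≃ₐ[ℚ] AlgebraicClosure ℚ) :
    LinearMap.charpoly (ρ₁.ρ σ) = LinearMap.charpoly (ρ₂.ρ σ) := by
  have hbot : IsLocalRing.maximalIdeal k = ⊥ :=
    (Ideal.eq_bot_or_top _).resolve_right (Ideal.IsMaximal.ne_top inferInstance)
  have : IsHausdorff (IsLocalRing.maximalIdeal k) k := by
    rw [hbot]; infer_instance
  exact galoisRepAdic_charpoly_eq (GaloisRepAdic.ofResidualGaloisRep ρ₁)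
    (GaloisRepAdic.ofResidualGaloisRep ρ₂) S hS h σ

end adic

end Fermat.Agent.FrobDensity
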